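import Mathlib
import Fermat.Agent.S41.Eis.Grp

/-!
# S44 / TOP / Compare : comparison of `V ⊂ W[m]` with `E[p]` WITHOUT the trace formula / Weil pairing
key `S44/TOP-COMPARE` (helper19)

`k = ZMod p`, `G` any group, `ρE : G →* End_k E` (`finrank = 2`, irreducible), `ρV : G →* End_k V` (`V` finite, simple, nonzero),
`ε : G →* kˣ`, and the single hypothesis
`(H)  ∀ g, ∃ a, ρV g ^ 2 - a ρV g + ε g = 0 ∧ ((∃ v ≠ 0, ρE g v = v) ↔ a = 1 + ε g)`.
-/

set_option autoImplicit false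

namespace Fermat.Agent.S44.Top

open Fermat.Agent.S41.Eis

section general

variable {k G E : Type*} [Field k] [Group G] [AddCommGroup E] [Module k E]

/-- (A) a normal subgroup all of whose elements have a nonzero fixed vector acts trivially -/
theorem cmp_trivial_of_normal (h2 : Module.finrank k E = 2) (ρE : G →* Module.End k E)
    (irrE : ∀ U : Submodule k E, (∀ g, ∀ x ∈ U, ρE g x ∈ U) → U = ⊥ ∨ U = ⊤)
    (H : Subgroup G) [hn : H.Normal] (hH : ∀ g ∈ H, ∃ v : E, v ≠ 0 ∧ ρE g v = v) :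
    ∀ g ∈ H, ρE g = 1 := by
  classical
  -- the fixed space
  let U : Submodule k E :=
    { carrier := {w | ∀ h ∈ H, ρE h w = w}
      zero_mem' := fun h _ => map_zero _
      add_mem' := fun {a b} ha hb h hh => by rw [map_add, ha h hh, hb h hh]
      smul_mem' := fun c a ha h hh => by rw [map_smul, ha h hh] }
  have hconj : ∀ (g h : G) (w : E), ρE h (ρE g w) = ρE g (ρE (g⁻¹ * h * g) w) := by
    intro g h w
    rw [← Module.End.mul_apply, ← Module.End.mul_apply, ← map_mul, ← map_mul]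
    congr 2
    group
  have hmemc : ∀ (g h : G), h ∈ H → g⁻¹ * h * g ∈ H := by
    intro g h hh
    have := hn.conj_mem h hh g⁻¹
    rwa [inv_inv] at this
  have hU : ∀ g, ∀ x ∈ U, ρE g x ∈ U := by
    intro g x hx h hh
    rw [hconj, hx _ (hmemc g h hh)]
  rcases irrE U hU with hbot | htop
  swap
  · intro g hg
    ext w
    have : w ∈ U := htop ▸ Submodule.mem_top
    exact this g hg
  exfalso
  have hUz : ∀ w : E, (∀ h ∈ H, ρE h w = w) → w = 0 := by
    intro w hw
    have : w ∈ U := hw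
    rw [hbot] at this
    exact (Submodule.mem_bot k).1 this
  obtain ⟨v, hv, hc⟩ := exists_common_eigenvector h2 (ρE.comp H.subtype)
    (fun g => hH g g.2)
  have hc' : ∀ h ∈ H, ∃ c : k, ρE h v = c • v := fun h hh => hc ⟨h, hh⟩
  -- the line is not stable
  have hex : ∃ g : G, ∀ c : k, ρE g v ≠ c • v := by
    by_contra hcon
    push Not at hcon
    have hst : ∀ g, ∀ x ∈ Submodule.span k {v}, ρE g x ∈ Submodule.span k {v} := by
      intro g x hx
      obtain ⟨a, rfl⟩ := Submodule.mem_span_singleton.1 hx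
      obtain ⟨c, hc⟩ := hcon g
      rw [map_smul, hc]
      exact Submodule.smul_mem _ _ (Submodule.smul_mem _ _ (Submodule.mem_span_singleton_self v))
    rcases irrE _ hst with h | h
    · exact hv ((Submodule.span_singleton_eq_bot).1 h)
    · have h1 := finrank_span_singleton (K := k) hv
      rw [h, finrank_top, h2] at h1
      omega
  obtain ⟨g, hg⟩ := hex
  set v' := ρE g v with hv'
  have hv'0 : v' ≠ 0 := fun h => hg 0 (by rw [zero_smul]; exact h)
  have hc'' : ∀ h ∈ H, ∃ c : k, ρE h v' = c • v' := by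
    intro h hh
    obtain ⟨c, hc⟩ := hc' _ (hmemc g h hh)
    exact ⟨c, by rw [hv', hconj, hc, map_smul]⟩
  obtain ⟨b, hb0, hb1⟩ := grpAux_basis h2 v v' hv hg
  have hdich : ∀ h ∈ H, ρE h v = v ∨ ρE h v' = v' := by
    intro h hh
    obtain ⟨w, hw, hfix⟩ := hH h hh
    obtain ⟨c, hc⟩ := hc' h hh
    obtain ⟨c', hc'⟩ := hc'' h hh
    have hw' : w = b.repr w 0 • v + b.repr w 1 • v' := by
      conv_lhs => rw [← b.sum_repr w, Fin.sum_univ_two, hb0, hb1]
    have h1 : ρE h w = (b.repr w 0 * c) • b 0 + (b.repr w 1 * c') • b 1 := by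
      conv_lhs => rw [hw', map_add, map_smul, map_smul, hc, hc', smul_smul, smul_smul]
      rw [hb0, hb1]
    rw [hfix] at h1
    have h2' := congrArg b.repr h1
    have e0 := DFunLike.congr_fun h2' 0
    have e1 := DFunLike.congr_fun h2' 1
    simp at e0 e1
    by_cases hz : b.repr w 0 = 0
    · right
      have hz1 : b.repr w 1 ≠ 0 := by
        intro hz1
        apply hw
        rw [hw', hz, hz1, zero_smul, zero_smul, add_zero]
      have : c' = 1 := by
        have : b.repr w 1 * (c' - 1) = 0 := by rw [mul_sub, mul_one, ← e1, sub_self]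
        rcases mul_eq_zero.1 this with h | h
        · exact absurd h hz1
        · exact sub_eq_zero.1 h
      rw [hc', this, one_smul]
    · left
      have : c = 1 := by
        have : b.repr w 0 * (c - 1) = 0 := by rw [mul_sub, mul_one, ← e0, sub_self]
        rcases mul_eq_zero.1 this with h | h
        · exact absurd h hz
        · exact sub_eq_zero.1 h
      rw [hc, this, one_smul]
  have hne1 : ∃ h₁ ∈ H, ρE h₁ v ≠ v := by
    by_contra hcon
    push Not at hcon
    exact hv (hUz v hcon)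
  have hne2 : ∃ h₂ ∈ H, ρE h₂ v' ≠ v' := by
    by_contra hcon
    push Not at hcon
    exact hv'0 (hUz v' hcon)
  obtain ⟨h₁, hh₁, hn₁⟩ := hne1
  obtain ⟨h₂, hh₂, hn₂⟩ := hne2
  have f1 : ρE h₁ v' = v' := (hdich h₁ hh₁).resolve_left hn₁
  have f2 : ρE h₂ v = v := (hdich h₂ hh₂).resolve_right hn₂
  rcases hdich (h₁ * h₂) (H.mul_mem hh₁ hh₂) with h | h
  · rw [map_mul, Module.End.mul_apply, f2] at h
    exact hn₁ h
  · obtain ⟨c, hc⟩ := hc'' h₂ hh₂
    rw [map_mul, Module.End.mul_apply, hc, map_smul, f1] at h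
    exact hn₂ (hc.trans h)

end general

section pgroup

variable {p : ℕ} [Fact p.Prime] {G X : Type*} [Group G] [AddCommGroup X] [Module (ZMod p) X]

theorem cmp_dvd_card [Finite X] [Nontrivial X] : p ∣ Nat.card X := by
  have : Module.Finite (ZMod p) X := Module.Finite.of_finite
  have h := Module.natCard_eq_pow_finrank (K := ZMod p) (V := X)
  rw [h, Nat.card_zmod]
  exact dvd_pow_self p (Module.finrank_pos (R := ZMod p) (M := X)).ne'

/-- (P) a `p`-group has a nonzero fixed vector -/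
theorem cmp_exists_fixed [Finite X] [Nontrivial X] (ρ : G →* Module.End (ZMod p) X)
    (S : Subgroup G) (hS : ∀ s ∈ S, ρ s ^ p = 1) : ∃ x : X, x ≠ 0 ∧ ∀ s ∈ S, ρ s x = x := by
  let Q : Subgroup (Module.End (ZMod p) X)ˣ := S.map ρ.toHomUnits
  have hQ : IsPGroup p Q := by
    rintro ⟨q, s, hs, rfl⟩
    refine ⟨1, ?_⟩
    apply Subtype.ext
    apply Units.ext
    simp only [pow_one, Subgroup.coe_pow, Units.val_pow_eq_pow_val, MonoidHom.coe_toHomUnits,
      Subgroup.coe_one, Units.val_one]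
    exact hS s hs
  have h0 : (0 : X) ∈ MulAction.fixedPoints Q X := by
    intro q
    exact smul_zero q
  obtain ⟨b, hb, hne⟩ := hQ.exists_fixed_point_of_prime_dvd_card_of_fixed_point X cmp_dvd_card h0
  refine ⟨b, hne.symm, fun s hs => ?_⟩
  exact hb ⟨ρ.toHomUnits s, s, hs, rfl⟩

/-- an endomorphism with `T ^ (p - 1) = 1` has an eigenvector over `ZMod p` -/
theorem cmp_exists_eigen [Module.Finite (ZMod p) X] [Nontrivial X] (T : Module.End (ZMod p) X)
    (hT : T ^ (p - 1) = 1) : ∃ (c : ZMod p) (x : X), x ≠ 0 ∧ T x = c • x := by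
  have hp : p.Prime := Fact.out
  have hTp : T ^ p = T := by
    have h1 : T ^ (p - 1 + 1) = T := by rw [pow_succ, hT, one_mul]
    rwa [Nat.sub_add_cancel hp.one_le] at h1
  have hann : Polynomial.aeval T (Polynomial.X ^ p - Polynomial.X : Polynomial (ZMod p)) = 0 := by
    simp [hTp]
  have hdvd := minpoly.dvd (ZMod p) T hann
  have hne : (Polynomial.X ^ p - Polynomial.X : Polynomial (ZMod p)) ≠ 0 := by
    have := FiniteField.X_pow_card_sub_X_ne_zero (ZMod p) (p := p) hp.one_lt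
    exact this
  have hspl : (Polynomial.X ^ p - Polynomial.X : Polynomial (ZMod p)).Splits := by
    have h1 := FiniteField.roots_X_pow_card_sub_X (ZMod p)
    have h2 := FiniteField.X_pow_card_sub_X_natDegree_eq (ZMod p) (p := p) hp.one_lt
    rw [ZMod.card] at h1
    rw [Polynomial.splits_iff_card_roots, h1, h2, ← Finset.card_def, Finset.card_univ, ZMod.card]
  have hspl' := hspl.of_dvd hne hdvd
  have hint : IsIntegral (ZMod p) T := Algebra.IsIntegral.isIntegral T
  have hdeg : (minpoly (ZMod p) T).degree ≠ 0 := (minpoly.degree_pos hint).ne'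
  obtain ⟨c, hc⟩ := hspl'.exists_eval_eq_zero hdeg
  have hev := Module.End.hasEigenvalue_of_isRoot (f := T) (μ := c) hc
  obtain ⟨x, hx⟩ := hev.exists_hasEigenvector
  exact ⟨c, x, hx.2, hx.apply_eq_smul⟩

end pgroup

section general2

variable {k G X : Type*} [Field k] [Group G] [AddCommGroup X] [Module k X]

/-- a normal subgroup with a nonzero fixed vector acts trivially on an irreducible module -/
theorem cmp_trivial_of_fixed (ρ : G →* Module.End k X)
    (irr : ∀ U : Submodule k X, (∀ g, ∀ x ∈ U, ρ g x ∈ U) → U = ⊥ ∨ U = ⊤)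
    (H : Subgroup G) [hn : H.Normal] (hH : ∃ x : X, x ≠ 0 ∧ ∀ h ∈ H, ρ h x = x) :
    ∀ g ∈ H, ρ g = 1 := by
  let U : Submodule k X :=
    { carrier := {w | ∀ h ∈ H, ρ h w = w}
      zero_mem' := fun h _ => map_zero _
      add_mem' := fun {a b} ha hb h hh => by rw [map_add, ha h hh, hb h hh]
      smul_mem' := fun c a ha h hh => by rw [map_smul, ha h hh] }
  have hconj : ∀ (g h : G) (w : X), ρ h (ρ g w) = ρ g (ρ (g⁻¹ * h * g) w) := by
    intro g h w
    rw [← Module.End.mul_apply, ← Module.End.mul_apply, ← map_mul, ← map_mul]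
    congr 2
    group
  have hmemc : ∀ (g h : G), h ∈ H → g⁻¹ * h * g ∈ H := by
    intro g h hh
    have := hn.conj_mem h hh g⁻¹
    rwa [inv_inv] at this
  have hU : ∀ g, ∀ x ∈ U, ρ g x ∈ U := by
    intro g x hx h hh
    rw [hconj, hx _ (hmemc g h hh)]
  obtain ⟨x, hx0, hx⟩ := hH
  rcases irr U hU with hbot | htop
  · exfalso
    have : x ∈ U := hx
    rw [hbot] at this
    exact hx0 ((Submodule.mem_bot k).1 this)
  · intro g hg
    ext w
    have : w ∈ U := htop ▸ Submodule.mem_top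
    exact this g hg

/-- an eigenspace of an element commuting with everything is `⊥` or `⊤` -/
theorem cmp_central (ρ : G →* Module.End k X)
    (irr : ∀ U : Submodule k X, (∀ g, ∀ x ∈ U, ρ g x ∈ U) → U = ⊥ ∨ U = ⊤)
    (T : Module.End k X) (hT : ∀ g, ρ g * T = T * ρ g) (c : k) (x : X) (hx : x ≠ 0)
    (hTx : T x = c • x) : T = c • 1 := by
  let U : Submodule k X :=
    { carrier := {w | T w = c • w}
      zero_mem' := by simp
      add_mem' := fun {a b} ha hb => by
        show T (a + b) = c • (a + b)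
        rw [map_add, smul_add, ha, hb]
      smul_mem' := fun d a ha => by
        show T (d • a) = c • (d • a)
        rw [map_smul, ha, smul_comm] }
  have hU : ∀ g, ∀ x ∈ U, ρ g x ∈ U := by
    intro g w hw
    show T (ρ g w) = c • ρ g w
    rw [← Module.End.mul_apply, ← hT, Module.End.mul_apply, hw, map_smul]
  rcases irr U hU with hbot | htop
  · exfalso
    have : x ∈ U := hTx
    rw [hbot] at this
    exact hx ((Submodule.mem_bot k).1 this)
  · ext w
    have : w ∈ U := htop ▸ Submodule.mem_top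
    exact this

theorem cmp_smul_one_eq_zero [Nontrivial X] {c : k} (h : c • (1 : Module.End k X) = 0) : c = 0 := by
  obtain ⟨x, hx⟩ := exists_ne (0 : X)
  have := LinearMap.congr_fun h x
  simp only [LinearMap.smul_apply, Module.End.one_apply, LinearMap.zero_apply] at this
  exact (smul_eq_zero.1 this).resolve_right hx

/-- `(1 + N) ^ n = 1 + n N` if `N ^ 2 = 0` -/
theorem cmp_pow_unip (T : Module.End k X) (h : (T - 1) * (T - 1) = 0) (n : ℕ) :
    T ^ n = 1 + (n : k) • (T - 1) := by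
  induction n with
  | zero => simp
  | succ n ih =>
    have hT : T = 1 + (T - 1) := by abel
    rw [pow_succ, ih]
    conv_lhs => rw [hT]
    have : (1 + (n : k) • (1 + (T - 1) - 1)) * (1 + (T - 1)) =
        1 + (n : k) • (T - 1) + (T - 1) + (n : k) • ((T - 1) * (T - 1)) := by
      rw [add_sub_cancel_left, add_mul, mul_add, mul_add, one_mul, one_mul, mul_one, smul_mul_assoc]
      abel
    rw [this, h, smul_zero, add_zero]
    push_cast
    rw [add_smul, one_smul]
    abel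

end general2

section main

variable {p : ℕ} [Fact p.Prime] {G E V : Type*} [Group G]
  [AddCommGroup E] [Module (ZMod p) E] [AddCommGroup V] [Module (ZMod p) V]

/-- the comparison hypothesis `(H)` -/
structure Cmp (ρE : G →* Module.End (ZMod p) E) (ρV : G →* Module.End (ZMod p) V)
    (ε : G →* (ZMod p)ˣ) : Prop where
  rankE : Module.finrank (ZMod p) E = 2
  irrE : ∀ U : Submodule (ZMod p) E, (∀ g, ∀ x ∈ U, ρE g x ∈ U) → U = ⊥ ∨ U = ⊤
  finV : Finite V
  ntV : Nontrivial V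
  irrV : ∀ U : Submodule (ZMod p) V, (∀ g, ∀ x ∈ U, ρV g x ∈ U) → U = ⊥ ∨ U = ⊤
  quad : ∀ g, ∃ a : ZMod p,
    ρV g * ρV g - a • ρV g + ((ε g : (ZMod p)ˣ) : ZMod p) • (1 : Module.End (ZMod p) V) = 0 ∧
      ((∃ v : E, v ≠ 0 ∧ ρE g v = v) ↔ a = 1 + ((ε g : (ZMod p)ˣ) : ZMod p))

namespace Cmp

variable {ρE : G →* Module.End (ZMod p) E} {ρV : G →* Module.End (ZMod p) V} {ε : G →* (ZMod p)ˣ}

theorem finiteE (h : Cmp ρE ρV ε) : Module.Finite (ZMod p) E :=
  Module.finite_of_finrank_pos (by rw [h.rankE]; norm_num)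

theorem ntE (h : Cmp ρE ρV ε) : Nontrivial E :=
  Module.nontrivial_of_finrank_pos (R := ZMod p) (by rw [h.rankE]; norm_num)

/-- (C1, first half) -/
theorem E_of_V (h : Cmp ρE ρV ε) {g : G} (hg : ρV g = 1) : ρE g = 1 := by
  have := h.ntV
  refine cmp_trivial_of_normal h.rankE ρE h.irrE ρV.ker ?_ g hg
  intro s hs
  obtain ⟨a, ha, hiff⟩ := h.quad s
  rw [MonoidHom.mem_ker] at hs
  apply hiff.2
  rw [hs, mul_one] at ha
  have h1 : (1 - a + ((ε s : (ZMod p)ˣ) : ZMod p)) • (1 : Module.End (ZMod p) V) = 0 := by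
    rw [add_smul, sub_smul, one_smul]
    exact ha
  have h2 := cmp_smul_one_eq_zero h1
  linear_combination -h2

theorem eq_of_ker' {M M' : Type*} [Monoid M] [Monoid M'] (f : G →* M) (f' : G →* M')
    (hk : ∀ g, f g = 1 → f' g = 1) {x y : G} (hxy : f x = f y) : f' x = f' y := by
  have h1 : f (x * y⁻¹) = 1 := by rw [map_mul, hxy, ← map_mul, mul_inv_cancel, map_one]
  have h2 := hk _ h1
  calc f' x = f' (x * y⁻¹ * y) := by rw [inv_mul_cancel_right]
    _ = f' y := by rw [map_mul, h2, one_mul]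

theorem eqE_of_eqV (h : Cmp ρE ρV ε) {x y : G} (hxy : ρV x = ρV y) : ρE x = ρE y :=
  eq_of_ker' ρV ρE (fun _ hg => h.E_of_V hg) hxy

/-- no stable line in `E` -/
theorem no_line (h : Cmp ρE ρV ε) (v : E) (hv : v ≠ 0) : ¬ ∀ g, ∃ c : ZMod p, ρE g v = c • v := by
  intro hcon
  have hst : ∀ g, ∀ x ∈ Submodule.span (ZMod p) {v}, ρE g x ∈ Submodule.span (ZMod p) {v} := by
    intro g x hx
    obtain ⟨a, rfl⟩ := Submodule.mem_span_singleton.1 hx
    obtain ⟨c, hc⟩ := hcon g
    rw [map_smul, hc]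
    exact Submodule.smul_mem _ _ (Submodule.smul_mem _ _ (Submodule.mem_span_singleton_self v))
  rcases h.irrE _ hst with h' | h'
  · exact hv ((Submodule.span_singleton_eq_bot).1 h')
  · have h1 := finrank_span_singleton (K := ZMod p) hv
    rw [h', finrank_top, h.rankE] at h1
    omega

/-- (B) `G` does not act on `V` by scalars -/
theorem not_scalar (h : Cmp ρE ρV ε) : ¬ ∀ g, ∃ c : ZMod p, ρV g = c • 1 := by
  intro hs
  have := h.ntV
  have := h.finiteE
  have := h.ntE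
  have hcomm : ∀ g g', ρE g * ρE g' = ρE g' * ρE g := by
    intro g g'
    rw [← map_mul, ← map_mul]
    apply h.eqE_of_eqV
    obtain ⟨c, hc⟩ := hs g
    obtain ⟨c', hc'⟩ := hs g'
    rw [map_mul, map_mul, hc, hc']
    simp [mul_comm, smul_smul]
  have hpow : ∀ g, ρE g ^ (p - 1) = 1 := by
    intro g
    rw [← map_pow]
    apply h.E_of_V
    obtain ⟨c, hc⟩ := hs g
    have hc0 : c ≠ 0 := by
      rintro rfl
      have h1 : ρV g * ρV g⁻¹ = 1 := by rw [← map_mul, mul_inv_cancel, map_one]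
      rw [hc, zero_smul, zero_mul] at h1
      exact zero_ne_one h1
    rw [map_pow, hc, smul_pow, one_pow, ZMod.pow_card_sub_one_eq_one hc0, one_smul]
  -- every element is a scalar on `E`
  have hsc : ∀ g, ∃ c : ZMod p, ρE g = c • 1 := by
    intro g
    obtain ⟨c, x, hx, hcx⟩ := cmp_exists_eigen (ρE g) (hpow g)
    exact ⟨c, cmp_central ρE h.irrE (ρE g) (fun g' => hcomm g' g) c x hx hcx⟩
  obtain ⟨v, hv⟩ := exists_ne (0 : E)
  apply h.no_line v hv
  intro g
  obtain ⟨c, hc⟩ := hsc g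
  exact ⟨c, by rw [hc]; rfl⟩

end Cmp

end main

section main2

variable {p : ℕ} [Fact p.Prime] {G E V : Type*} [Group G]
  [AddCommGroup E] [Module (ZMod p) E] [AddCommGroup V] [Module (ZMod p) V]

theorem cmp_pow_p_eq_one (T : Module.End (ZMod p) V) (h : (T - 1) * (T - 1) = 0) : T ^ p = 1 := by
  rw [cmp_pow_unip T h p, ZMod.natCast_self, zero_smul, add_zero]

namespace Cmp

variable {ρE : G →* Module.End (ZMod p) E} {ρV : G →* Module.End (ZMod p) V} {ε : G →* (ZMod p)ˣ}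

/-- the relation on `V` for elements having a fixed vector on `E` -/
theorem quad_of_fixed (h : Cmp ρE ρV ε) {g : G} (hg : ∃ v : E, v ≠ 0 ∧ ρE g v = v) :
    (ρV g - 1) * (ρV g - ((ε g : (ZMod p)ˣ) : ZMod p) • 1) = 0 := by
  obtain ⟨a, ha, hiff⟩ := h.quad g
  rw [hiff.1 hg] at ha
  rw [sub_mul, mul_sub, mul_sub, one_mul, one_mul, mul_smul_comm, mul_one]
  rw [add_smul, one_smul] at ha
  rw [← ha]
  abel

/-- `ker ρE ∩ ker ε` acts trivially on `V` -/
theorem V_of_E_aux (h : Cmp ρE ρV ε) {g : G} (hg : ρE g = 1) (hε : ε g = 1) : ρV g = 1 := by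
  have := h.ntV
  have := h.finV
  have := h.ntE
  have hn : (ρE.ker ⊓ ε.ker).Normal := inferInstance
  refine cmp_trivial_of_fixed ρV h.irrV (ρE.ker ⊓ ε.ker) ?_ g ⟨hg, hε⟩
  apply cmp_exists_fixed ρV
  rintro s ⟨hs1, hs2⟩
  replace hs1 : ρE s = 1 := hs1
  replace hs2 : ε s = 1 := hs2
  apply cmp_pow_p_eq_one
  obtain ⟨v, hv⟩ := exists_ne (0 : E)
  have := h.quad_of_fixed (g := s) ⟨v, hv, by rw [hs1]; rfl⟩
  rwa [hs2, Units.val_one, one_smul] at this

/-- (C2) -/
theorem eps_of_E (h : Cmp ρE ρV ε) {g : G} (hg : ρE g = 1) : ε g = 1 := by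
  have := h.ntV
  have := h.ntE
  by_contra hd
  set d : ZMod p := ((ε g : (ZMod p)ˣ) : ZMod p) with hd'
  have hd1 : d ≠ 1 := fun h1 => hd (Units.ext h1)
  have hd0 : d ≠ 0 := Units.ne_zero _
  -- `ρV g` is central
  have hcomm : ∀ g', ρV g' * ρV g = ρV g * ρV g' := by
    intro g'
    have h1 : ρV (g' * g * g'⁻¹ * g⁻¹) = 1 := by
      apply h.V_of_E_aux
      · have hg' : ρE g⁻¹ = 1 := by
          have : ρE g * ρE g⁻¹ = 1 := by rw [← map_mul, mul_inv_cancel, map_one]
          rwa [hg, one_mul] at this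
        rw [map_mul, map_mul, map_mul, hg', hg, mul_one, mul_one, ← map_mul, mul_inv_cancel, map_one]
      · rw [map_mul, map_mul, map_mul, map_inv, map_inv]
        rw [mul_comm (ε g') (ε g)]
        group
    calc ρV g' * ρV g = ρV (g' * g * g'⁻¹ * g⁻¹ * (g * g')) := by
          rw [← map_mul]; congr 1; group
      _ = ρV g * ρV g' := by rw [map_mul, h1, one_mul, map_mul]
  obtain ⟨v, hv⟩ := exists_ne (0 : E)
  have hq := h.quad_of_fixed (g := g) ⟨v, hv, by rw [hg]; rfl⟩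
  rw [← hd'] at hq
  -- `ρV g` is the scalar `1` or `d`
  have hsc : ∃ c : ZMod p, ρV g = c • 1 ∧ d - c ^ 2 ≠ 0 := by
    by_cases hall : ∀ w : V, ρV g w = d • w
    · refine ⟨d, by ext w; exact hall w, ?_⟩
      intro h0
      have : d * (1 - d) = 0 := by linear_combination h0
      rcases mul_eq_zero.1 this with h1 | h1
      · exact hd0 h1
      · exact hd1 (sub_eq_zero.1 h1).symm
    · push Not at hall
      obtain ⟨w, hw⟩ := hall
      have hx : ρV g w - d • w ≠ 0 := sub_ne_zero.2 hw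
      have hfix : ρV g (ρV g w - d • w) = (1 : ZMod p) • (ρV g w - d • w) := by
        have := LinearMap.congr_fun hq w
        simp only [Module.End.mul_apply, LinearMap.sub_apply, LinearMap.smul_apply,
          Module.End.one_apply, LinearMap.zero_apply] at this
        rw [one_smul]
        exact sub_eq_zero.1 this
      refine ⟨1, cmp_central ρV h.irrV (ρV g) hcomm 1 _ hx hfix, ?_⟩
      rw [one_pow]
      exact sub_ne_zero.2 hd1
  obtain ⟨c, hc, hcd⟩ := hsc
  apply h.not_scalar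
  intro g'
  obtain ⟨a, ha, -⟩ := h.quad g'
  obtain ⟨a', ha', -⟩ := h.quad (g' * g)
  set e : ZMod p := ((ε g' : (ZMod p)ˣ) : ZMod p) with he
  have he0 : e ≠ 0 := Units.ne_zero _
  have hε' : ((ε (g' * g) : (ZMod p)ˣ) : ZMod p) = e * d := by rw [map_mul, Units.val_mul]
  rw [hε', map_mul, hc] at ha'
  set Y := ρV g' with hY
  have h1 : (a * c ^ 2 - a' * c) • Y + (e * (d - c ^ 2)) • (1 : Module.End (ZMod p) V) = 0 := by
    have e1 : Y * c • (1 : Module.End (ZMod p) V) * (Y * c • (1 : Module.End (ZMod p) V)) =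
        (c ^ 2) • (Y * Y) := by
      simp only [mul_smul_comm, mul_one, smul_mul_assoc, smul_smul]
      rw [pow_two]
    have e2 : a' • (Y * c • (1 : Module.End (ZMod p) V)) = (a' * c) • Y := by
      simp only [mul_smul_comm, mul_one, smul_smul]
    rw [e1, e2] at ha'
    have e3 : Y * Y = a • Y - e • (1 : Module.End (ZMod p) V) := by
      rw [eq_sub_iff_add_eq, ← sub_eq_zero, ← ha]
      abel
    rw [e3] at ha'
    rw [← ha']
    simp only [smul_sub, smul_smul, sub_smul, mul_sub]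
    rw [mul_comm (c ^ 2) a, mul_comm (c ^ 2) e]
    abel
  have hm : a * c ^ 2 - a' * c ≠ 0 := by
    intro hm
    rw [hm, zero_smul, zero_add] at h1
    exact (mul_ne_zero he0 hcd) (cmp_smul_one_eq_zero h1)
  refine ⟨-(a * c ^ 2 - a' * c)⁻¹ * (e * (d - c ^ 2)), ?_⟩
  have h2 : (a * c ^ 2 - a' * c) • Y = -((e * (d - c ^ 2)) • (1 : Module.End (ZMod p) V)) :=
    eq_neg_of_add_eq_zero_left h1
  calc Y = (a * c ^ 2 - a' * c)⁻¹ • ((a * c ^ 2 - a' * c) • Y) := by
        rw [smul_smul, inv_mul_cancel₀ hm, one_smul]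
    _ = _ := by rw [h2, smul_neg, smul_smul, neg_mul, neg_smul]

/-- (C1, second half) -/
theorem V_of_E (h : Cmp ρE ρV ε) {g : G} (hg : ρE g = 1) : ρV g = 1 :=
  h.V_of_E_aux hg (h.eps_of_E hg)

theorem eqV_of_eqE (h : Cmp ρE ρV ε) {x y : G} (hxy : ρE x = ρE y) : ρV x = ρV y :=
  eq_of_ker' ρE ρV (fun _ hg => h.V_of_E hg) hxy

theorem V_iff_E (h : Cmp ρE ρV ε) (g : G) : ρV g = 1 ↔ ρE g = 1 := ⟨h.E_of_V, h.V_of_E⟩

/-- (C3a) -/
theorem not_trivial (h : Cmp ρE ρV ε) (I : Subgroup G) (hI : ∃ s ∈ I, ε s ≠ 1) :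
    ¬ ∀ s ∈ I, ρV s = 1 := by
  intro hcon
  obtain ⟨s, hs, hε⟩ := hI
  exact hε (h.eps_of_E (h.E_of_V (hcon s hs)))

/-- (C3b) -/
theorem not_eps (h : Cmp ρE ρV ε) (I : Subgroup G) (hI : ∃ s ∈ I, ε s ≠ 1) :
    ¬ ∀ s ∈ I, ρV s = ((ε s : (ZMod p)ˣ) : ZMod p) • 1 := by
  intro hcon
  have := h.ntV
  obtain ⟨s, hs, hε⟩ := hI
  have hsc := hcon s hs
  set d : ZMod p := ((ε s : (ZMod p)ˣ) : ZMod p) with hd'
  have hd0 : d ≠ 0 := Units.ne_zero _
  obtain ⟨a, ha, hiff⟩ := h.quad s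
  rw [← hd', hsc] at ha
  have h1 : (d * d - a * d + d) • (1 : Module.End (ZMod p) V) = 0 := by
    rw [← ha]
    simp only [mul_smul_comm, mul_one, smul_smul, add_smul, sub_smul]
  have h2 := cmp_smul_one_eq_zero h1
  have h3 : a = 1 + d := by
    have : d * (d - a + 1) = 0 := by linear_combination h2
    rcases mul_eq_zero.1 this with h | h
    · exact absurd h hd0
    · linear_combination -h
  obtain ⟨v, hv, hfix⟩ := hiff.2 h3
  have hcomm : ∀ g', ρE g' * ρE s = ρE s * ρE g' := by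
    intro g'
    rw [← map_mul, ← map_mul]
    apply h.eqE_of_eqV
    rw [map_mul, map_mul, hsc]
    simp
  have h4 := cmp_central ρE h.irrE (ρE s) hcomm 1 v hv (by rw [one_smul]; exact hfix)
  rw [one_smul] at h4
  exact hε (h.eps_of_E h4)

end Cmp

end main2

section main3

variable {p : ℕ} [Fact p.Prime] {G E V : Type*} [Group G]
  [AddCommGroup E] [Module (ZMod p) E] [AddCommGroup V] [Module (ZMod p) V]

namespace Cmp

variable {ρE : G →* Module.End (ZMod p) E} {ρV : G →* Module.End (ZMod p) V} {ε : G →* (ZMod p)ˣ}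

/-- a subgroup acting unipotently on `V` acts through a cyclic group -/
theorem exists_gen (h : Cmp ρE ρV ε) (I₁ : Subgroup G)
    (hun : ∀ s ∈ I₁, (ρV s - 1) * (ρV s - 1) = 0) :
    ∃ τ₀ ∈ I₁, ∀ s ∈ I₁, ∃ j : ℕ, ρV s = ρV τ₀ ^ j := by
  have := h.finiteE
  have := h.ntE
  have hfinE : Finite E := Module.finite_of_finite (ZMod p)
  have hpE : ∀ s ∈ I₁, ρE s ^ p = 1 := by
    intro s hs
    rw [← map_pow]
    apply h.E_of_V
    rw [map_pow]
    exact cmp_pow_p_eq_one _ (hun s hs)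
  obtain ⟨e₁, he₁, hfix⟩ := cmp_exists_fixed ρE I₁ hpE
  have hex : ∃ e₂ : E, ∀ c : ZMod p, e₂ ≠ c • e₁ := by
    by_contra hcon
    push Not at hcon
    have htop : Submodule.span (ZMod p) {e₁} = ⊤ := by
      rw [eq_top_iff]
      intro w _
      obtain ⟨c, hc⟩ := hcon w
      rw [hc]
      exact Submodule.smul_mem _ _ (Submodule.mem_span_singleton_self e₁)
    have h1 := finrank_span_singleton (K := ZMod p) he₁
    rw [htop, finrank_top, h.rankE] at h1
    omega
  obtain ⟨e₂, he₂⟩ := hex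
  obtain ⟨b, hb0, hb1⟩ := grpAux_basis h.rankE e₁ e₂ he₁ he₂
  have hdec : ∀ w : E, w = b.repr w 0 • e₁ + b.repr w 1 • e₂ := by
    intro w
    conv_lhs => rw [← b.sum_repr w, Fin.sum_univ_two, hb0, hb1]
  have hco : ∀ x y x' y' : ZMod p, x • e₁ + y • e₂ = x' • e₁ + y' • e₂ → x = x' ∧ y = y' := by
    intro x y x' y' hxy
    rw [← hb0, ← hb1] at hxy
    have h2' := congrArg b.repr hxy
    have e0 := DFunLike.congr_fun h2' 0
    have e1 := DFunLike.congr_fun h2' 1
    simp at e0 e1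
    exact ⟨e0, e1⟩
  -- the lower right coefficient is `1`
  have hone : ∀ s ∈ I₁, b.repr (ρE s e₂) 1 = 1 := by
    intro s hs
    set c := b.repr (ρE s e₂) 1 with hc
    set β := b.repr (ρE s e₂) 0 with hβ
    have hs2 : ρE s e₂ = β • e₁ + c • e₂ := hdec _
    have hpow : ∀ n : ℕ, ∃ β' : ZMod p, (ρE s ^ n) e₂ = β' • e₁ + c ^ n • e₂ := by
      intro n
      induction n with
      | zero => exact ⟨0, by simp⟩
      | succ n ih =>
        obtain ⟨β', hβ'⟩ := ih
        refine ⟨β' + c ^ n * β, ?_⟩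
        rw [pow_succ', Module.End.mul_apply, hβ', map_add, map_smul, map_smul, hfix s hs, hs2,
          smul_add, smul_smul, smul_smul, add_smul, pow_succ]
        abel
    obtain ⟨β', hβ'⟩ := hpow p
    rw [hpE s hs, Module.End.one_apply, ZMod.pow_card] at hβ'
    have := hco 0 1 β' c (by rw [zero_smul, zero_add, one_smul]; exact hβ')
    exact this.2.symm
  have hs2 : ∀ s ∈ I₁, ρE s e₂ = b.repr (ρE s e₂) 0 • e₁ + e₂ := by
    intro s hs
    conv_lhs => rw [hdec (ρE s e₂), hone s hs, one_smul]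
  have heq : ∀ s ∈ I₁, ∀ t ∈ I₁, ρE s e₂ = ρE t e₂ → ρE s = ρE t := by
    intro s hs t ht hst
    apply b.ext
    intro i
    fin_cases i
    · show ρE s (b 0) = ρE t (b 0)
      rw [hb0, hfix s hs, hfix t ht]
    · show ρE s (b 1) = ρE t (b 1)
      rw [hb1, hst]
  have hpw' : ∀ s ∈ I₁, ∀ β : ZMod p, ρE s e₂ = β • e₁ + e₂ →
      ∀ j : ℕ, ρE (s ^ j) e₂ = ((j : ZMod p) * β) • e₁ + e₂ := by
    intro s hs β hβ j
    induction j with
    | zero => simp
    | succ j ih =>
      rw [pow_succ', map_mul, Module.End.mul_apply, ih, map_add, map_smul, hfix s hs, hβ]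
      push_cast
      rw [add_mul, one_mul, add_smul]
      abel
  have hpw : ∀ s ∈ I₁, ∀ j : ℕ, ρE (s ^ j) e₂ = ((j : ZMod p) * b.repr (ρE s e₂) 0) • e₁ + e₂ :=
    fun s hs j => hpw' s hs _ (hs2 s hs) j
  by_cases hall : ∀ s ∈ I₁, b.repr (ρE s e₂) 0 = 0
  · refine ⟨1, I₁.one_mem, fun s hs => ⟨0, ?_⟩⟩
    rw [pow_zero]
    apply h.V_of_E
    rw [← map_one ρE]
    apply heq s hs 1 I₁.one_mem
    rw [hs2 s hs, hall s hs, zero_smul, zero_add, map_one, Module.End.one_apply]
  · push Not at hall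
    obtain ⟨s₀, hs₀, hβ₀⟩ := hall
    refine ⟨s₀, hs₀, fun s hs => ?_⟩
    refine ⟨(b.repr (ρE s e₂) 0 / b.repr (ρE s₀ e₂) 0).val, ?_⟩
    rw [← map_pow]
    apply h.eqV_of_eqE
    apply heq s hs _ (I₁.pow_mem hs₀ _)
    rw [hpw s₀ hs₀, ZMod.natCast_zmod_val, div_mul_cancel₀ _ hβ₀]
    exact hs2 s hs

/-- (C4) -/
theorem exists_good (h : Cmp ρE ρV ε) (I : Subgroup G) (hI : ∃ s ∈ I, ε s ≠ 1)
    (Vt : Submodule (ZMod p) V)
    (h1 : ∀ s ∈ I, ∀ v ∈ Vt, ρV s v = ((ε s : (ZMod p)ˣ) : ZMod p) • v)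
    (h2 : ∀ s ∈ I, ∀ v, ρV s v - v ∈ Vt) :
    ∃ (x : V) (τ₀ : G), x ∉ Vt ∧ τ₀ ∈ I ∧ ε τ₀ = 1 ∧
      (∀ s ∈ I, ∃ a : ZMod p, ρV s x - x = a • (ρV τ₀ x - x)) ∧
      (∀ s ∈ I, ε s = 1 → ρV s x = x → ρV s = 1 ∧ ρE s = 1) := by
  have h1' : ∀ s ∈ I, ε s = 1 → ∀ v ∈ Vt, ρV s v = v := by
    intro s hs hε v hv
    rw [h1 s hs v hv, hε, Units.val_one, one_smul]
  have hun : ∀ s ∈ I ⊓ ε.ker, (ρV s - 1) * (ρV s - 1) = 0 := by
    rintro s ⟨hs, hε⟩
    ext v
    simp only [Module.End.mul_apply, LinearMap.sub_apply, Module.End.one_apply,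
      LinearMap.zero_apply]
    rw [h1' s hs hε _ (h2 s hs v), sub_self]
  obtain ⟨τ₀, ⟨hτI, hτε⟩, hgen⟩ := h.exists_gen (I ⊓ ε.ker) hun
  replace hτε : ε τ₀ = 1 := hτε
  have hunτ := hun τ₀ ⟨hτI, hτε⟩
  -- a generator of `ε I`
  obtain ⟨⟨q, s₁, hs₁, rfl⟩, hq⟩ := IsCyclic.exists_generator (α := I.map ε)
  have hzp : ∀ s ∈ I, ∃ i : ℤ, ε s₁ ^ i = ε s := by
    intro s hs
    obtain ⟨i, hi⟩ := Subgroup.mem_zpowers_iff.1 (hq ⟨ε s, s, hs, rfl⟩)
    exact ⟨i, by simpa using congrArg Subtype.val hi⟩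
  set d₁ : ZMod p := ((ε s₁ : (ZMod p)ˣ) : ZMod p) with hd₁
  have hd1 : 1 - d₁ ≠ 0 := by
    intro h0
    obtain ⟨s, hs, hε⟩ := hI
    obtain ⟨i, hi⟩ := hzp s hs
    have : ε s₁ = 1 := Units.ext (sub_eq_zero.1 h0).symm
    rw [this, one_zpow] at hi
    exact hε hi.symm
  -- the projector
  have hπ : ∀ v : V, ∃ x : V, ρV s₁ x = x ∧ x - v ∈ Vt := by
    intro v
    refine ⟨v + (1 - d₁)⁻¹ • (ρV s₁ v - v), ?_, ?_⟩
    · have hw := h1 s₁ hs₁ _ (h2 s₁ hs₁ v)
      rw [← hd₁] at hw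
      have e1 : ρV s₁ v = v + (ρV s₁ v - v) := by abel
      generalize ρV s₁ v - v = w at hw e1 ⊢
      rw [map_add, map_smul, hw, e1, smul_smul, add_assoc]
      congr 1
      have hc : (1 - d₁)⁻¹ * (1 - d₁) = 1 := inv_mul_cancel₀ hd1
      have : w + ((1 - d₁)⁻¹ * d₁) • w = (1 + (1 - d₁)⁻¹ * d₁) • w := by rw [add_smul, one_smul]
      rw [this]
      congr 1
      linear_combination -hc
    · rw [add_sub_cancel_left]
      exact Vt.smul_mem _ (h2 s₁ hs₁ v)
  -- the choice of `x`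
  have hx : ∃ x : V, ρV s₁ x = x ∧ x ∉ Vt ∧ (ρV τ₀ ≠ 1 → ρV τ₀ x ≠ x) := by
    by_cases hτ : ρV τ₀ = 1
    · have hne : ∃ v : V, v ∉ Vt := by
        by_contra hcon
        push Not at hcon
        apply h.not_eps I hI
        intro s hs
        ext v
        exact h1 s hs v (hcon v)
      obtain ⟨v, hv⟩ := hne
      obtain ⟨x, hx1, hx2⟩ := hπ v
      refine ⟨x, hx1, fun hxV => hv ?_, fun h' => absurd hτ h'⟩
      have := Vt.sub_mem hxV hx2
      rwa [sub_sub_cancel] at this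
    · have hne : ∃ v : V, ρV τ₀ v ≠ v := by
        by_contra hcon
        push Not at hcon
        apply hτ
        ext v
        exact hcon v
      obtain ⟨v, hv⟩ := hne
      obtain ⟨x, hx1, hx2⟩ := hπ v
      have hmove : ρV τ₀ x ≠ x := by
        intro hfx
        apply hv
        have e1 : x = v + (x - v) := by abel
        rw [e1, map_add, h1' τ₀ hτI hτε _ hx2] at hfx
        exact add_right_cancel hfx
      exact ⟨x, hx1, fun hxV => hmove (h1' τ₀ hτI hτε x hxV), fun _ => hmove⟩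
  obtain ⟨x, hx1, hx2, hx3⟩ := hx
  have hpowx : ∀ j : ℕ, (ρV τ₀ ^ j) x = x + (j : ZMod p) • (ρV τ₀ x - x) := by
    intro j
    rw [cmp_pow_unip _ hunτ j]
    simp
  refine ⟨x, τ₀, hx2, hτI, hτε, ?_, ?_⟩
  · intro s hs
    obtain ⟨i, hi⟩ := hzp s hs
    have hsi : s₁ ^ i ∈ I := I.zpow_mem hs₁ i
    have ht : (s₁ ^ i)⁻¹ * s ∈ I ⊓ ε.ker := by
      refine ⟨I.mul_mem (I.inv_mem hsi) hs, ?_⟩
      show ε ((s₁ ^ i)⁻¹ * s) = 1
      rw [map_mul, map_inv, map_zpow, hi, inv_mul_cancel]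
    obtain ⟨j, hj⟩ := hgen _ ht
    have hfixi : ρV (s₁ ^ i) x = x := by
      let St : Subgroup G :=
        { carrier := {g | ρV g x = x}
          mul_mem' := fun {a b} ha hb => by
            show ρV (a * b) x = x
            rw [map_mul, Module.End.mul_apply, hb, ha]
          one_mem' := by
            show ρV 1 x = x
            rw [map_one, Module.End.one_apply]
          inv_mem' := fun {a} ha => by
            show ρV a⁻¹ x = x
            have ha' : ρV a x = x := ha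
            conv_lhs => rw [← ha', ← Module.End.mul_apply, ← map_mul, inv_mul_cancel, map_one,
              Module.End.one_apply] }
      exact St.zpow_mem (show s₁ ∈ St from hx1) i
    refine ⟨(j : ZMod p) * ((ε (s₁ ^ i) : (ZMod p)ˣ) : ZMod p), ?_⟩
    have hs' : s = s₁ ^ i * ((s₁ ^ i)⁻¹ * s) := by group
    conv_lhs => rw [hs', map_mul, Module.End.mul_apply, hj, hpowx, map_add, map_smul, hfixi,
      h1 _ hsi _ (h2 τ₀ hτI x)]
    rw [add_sub_cancel_left, smul_smul]
  · intro s hs hε hfx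
    obtain ⟨j, hj⟩ := hgen s ⟨hs, hε⟩
    have hV : ρV s = 1 := by
      by_cases hτ : ρV τ₀ = 1
      · rw [hj, hτ, one_pow]
      · have hy : ρV τ₀ x - x ≠ 0 := sub_ne_zero.2 (hx3 hτ)
        rw [hj, hpowx] at hfx
        have hj0 : (j : ZMod p) = 0 := by
          have : (j : ZMod p) • (ρV τ₀ x - x) = 0 := by
            have := sub_eq_zero.2 hfx
            rwa [add_sub_cancel_left] at this
          exact (smul_eq_zero.1 this).resolve_right hy
        rw [hj, cmp_pow_unip _ hunτ j, hj0, zero_smul, add_zero]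
    exact ⟨hV, h.E_of_V hV⟩

end Cmp

end main3

end Fermat.Agent.S44.Top
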