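import Fermat.Agent.S44.Top.Wire
import Fermat.Agent.S44.Top.Compare

/-!
# S44/TOP-VPKG (abstract part) : the comparison package `Cmp` for an Eichler–Shimura module

`epsP p` : the mod `p` cyclotomic character `G_ℚ → (ZMod p)ˣ`.
`cmp_of_ES` : `V` a finite simple `𝔽_p[G_ℚ]`-module of finite level on which `a_ℓ(W) = σ + ℓ σ⁻¹` for the Frobenius lifts
at the good primes `ℓ ∤ B`; `E[p]` irreducible.  Then `Cmp ρ_{E,p} ρV (epsP p)`.
-/

set_option autoImplicit false

open Polynomial WeierstrassCurve WeierstrassCurve.Affine WeierstrassCurve.Affine.Point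

noncomputable section

namespace Fermat.Agent.S44.Top

open Fermat.Agent.S41.Eis

local notation "Qbar" => AlgebraicClosure ℚ
local notation "GQ" => (AlgebraicClosure ℚ ≃ₐ[ℚ] AlgebraicClosure ℚ)

section eps

variable (p : ℕ) [NeZero p]

/-- a primitive `p`-th root of unity -/
def zetaP : Qbar := (HasEnoughRootsOfUnity.exists_primitiveRoot Qbar p).choose

theorem zetaP_spec : IsPrimitiveRoot (zetaP p) p :=
  (HasEnoughRootsOfUnity.exists_primitiveRoot Qbar p).choose_spec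

/-- the mod `p` cyclotomic character -/
def epsP : GQ →* (ZMod p)ˣ := (zetaP_spec p).autToPow ℚ

variable {p}

theorem epsP_spec (g : GQ) (ζ : Qbar) (hζ : ζ ^ p = 1) :
    g ζ = ζ ^ ((epsP p g : (ZMod p)ˣ) : ZMod p).val := by
  obtain ⟨i, -, rfl⟩ := (zetaP_spec p).eq_pow_of_pow_eq_one hζ
  have h := (zetaP_spec p).autToPow_spec ℚ g
  rw [map_pow, ← pow_mul, mul_comm, pow_mul]
  congr 1
  exact h.symm

theorem epsP_eq_of (g : GQ) (c : ℕ) (h : ∀ ζ : Qbar, ζ ^ p = 1 → g ζ = ζ ^ c) :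
    ((epsP p g : (ZMod p)ˣ) : ZMod p) = (c : ZMod p) := by
  have h1 := h (zetaP p) (zetaP_spec p).pow_eq_one
  rw [epsP_spec g _ (zetaP_spec p).pow_eq_one] at h1
  have hfo : IsOfFinOrder (zetaP p) :=
    isOfFinOrder_iff_pow_eq_one.mpr ⟨p, Nat.pos_of_ne_zero (NeZero.ne p), (zetaP_spec p).pow_eq_one⟩
  have := hfo.pow_eq_pow_iff_modEq.mp h1
  rw [← (zetaP_spec p).eq_orderOf] at this
  have h2 := (ZMod.natCast_eq_natCast_iff _ _ _).mpr this
  rwa [ZMod.natCast_val, ZMod.cast_id', id] at h2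

theorem epsP_eq_one_iff (g : GQ) : epsP p g = 1 ↔ ∀ ζ : Qbar, ζ ^ p = 1 → g ζ = ζ := by
  constructor
  · intro h ζ hζ
    by_cases hp1 : p = 1
    · subst hp1
      rw [pow_one] at hζ
      rw [hζ, map_one]
    have : Fact (1 < p) := ⟨by have := NeZero.ne p; omega⟩
    rw [epsP_spec g ζ hζ, h, Units.val_one, ZMod.val_one, pow_one]
  · intro h
    apply Units.ext
    rw [epsP_eq_of g 1 (fun ζ hζ => by rw [pow_one]; exact h ζ hζ)]
    simp

end eps

/-- **[S44/TOP-VPKG, abstract]** -/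
theorem cmp_of_ES (E : WeierstrassCurve ℚ) [E.IsElliptic] {W : WeierstrassCurve ℤ}
    (hW : W.IsIntegralModelOf E) {p : ℕ} [hp : Fact p.Prime] (hp2 : p ≠ 2)
    (hirr : GaloisRepIsIrreducible (K := AlgebraicClosure ℚ) ℚ E p)
    {V : Type} [AddCommGroup V] [Module (ZMod p) V] [Finite V] [Nontrivial V]
    (ρV : GQ →* Module.End (ZMod p) V) (hfin : GaloisFactorsThroughFiniteLevel ρV)
    (irrV : ∀ U : Submodule (ZMod p) V, (∀ g, ∀ x ∈ U, ρV g x ∈ U) → U = ⊥ ∨ U = ⊤)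
    (B : ℕ) (hB : B ≠ 0)
    (hES : ∀ l : ℕ, l.Prime → ¬ l ∣ B → l ≠ p → W.IsGoodPrimeFor l →
      ∀ A : ValuationSubring Qbar, A.LiesOverPrime l → ∀ σ : GQ, A.IsFrobeniusAt σ l →
        ∀ v : V, ((W.apOfModel l : ℤ) : ZMod p) • v = ρV σ v + (l : ZMod p) • ρV σ⁻¹ v) :
    Cmp (galoisRepModuleEnd (S := ℚ) (K := Qbar) E.toAffine p) ρV (epsP p) := by
  classical
  have hpp := hp.out
  refine ⟨?_, ?_, inferInstance, inferInstance, irrV, ?_⟩
  · obtain ⟨b, hb⟩ : Odd p := hpp.odd_of_ne_two hp2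
    have hΔK : (E.toAffine⁄Qbar).Δ ≠ 0 := by
      show (E.map (algebraMap ℚ Qbar)).Δ ≠ 0
      rw [map_Δ]
      exact (_root_.map_ne_zero _).mpr E.isUnit_Δ.ne_zero
    have hpK : ((p : ℕ) : Qbar) ≠ 0 := by exact_mod_cast hpp.ne_zero
    have hcard := card_torsionBy (E.toAffine⁄Qbar) hΔK (n := p) ⟨b, hb⟩ hpK
    have hfinV : Finite (Submodule.torsionBy ℤ (E.toAffine⁄Qbar).Point ((p : ℕ) : ℤ)) :=
      (DivPoly.torsionBy_finite (E.toAffine⁄Qbar) ⟨b, hb⟩ hpK).1
    have hmf : Module.Finite (ZMod p)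
      (Submodule.torsionBy ℤ (E.toAffine⁄Qbar).Point ((p : ℕ) : ℤ)) := Module.Finite.of_finite
    have h := Module.natCard_eq_pow_finrank (K := ZMod p)
      (V := Submodule.torsionBy ℤ (E.toAffine⁄Qbar).Point ((p : ℕ) : ℤ))
    rw [Nat.card_zmod, hcard] at h
    exact (Nat.pow_right_injective hpp.two_le h).symm
  · intro U hU
    exact hirr.2 U (fun σ x hx => hU σ x hx)
  · intro g
    obtain ⟨l, A, σ, hl, hlB, hlp, hgood, hA, hσ, hr, hr', hζ, -, hiff⟩ :=
      wire E hW hpp hp2 ρV hfin B hB g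
    have hε : ((epsP p g : (ZMod p)ˣ) : ZMod p) = (l : ZMod p) := epsP_eq_of g l hζ
    refine ⟨((W.apOfModel l : ℤ) : ZMod p), ?_, ?_⟩
    · ext v
      have h1 := hES l hl hlB hlp hgood A hA σ hσ (ρV g v)
      rw [hr, hr'] at h1
      have h2 : ρV g⁻¹ (ρV g v) = v := by
        rw [← Module.End.mul_apply, ← map_mul, inv_mul_cancel, map_one, Module.End.one_apply]
      rw [h2] at h1
      simp only [LinearMap.add_apply, LinearMap.sub_apply, Module.End.mul_apply,
        LinearMap.smul_apply, Module.End.one_apply, LinearMap.zero_apply, hε]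
      rw [h1]
      abel
    · rw [hε]
      have h3 : (((W.apOfModel l : ℤ) : ZMod p) = 1 + (l : ZMod p)) ↔
          (p : ℤ) ∣ W.apOfModel l - (l + 1) := by
        rw [← ZMod.intCast_zmod_eq_zero_iff_dvd]
        push_cast
        rw [sub_eq_zero, add_comm]
      rw [h3, ← hiff]
      constructor
      · rintro ⟨v, hv0, hv⟩
        refine ⟨v, fun h => hv0 (Subtype.ext h), ?_, congrArg Subtype.val hv⟩
        have := v.2
        rwa [Submodule.mem_torsionBy_iff, natCast_zsmul] at this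
      · rintro ⟨P, hP0, hP, hgP⟩
        refine ⟨⟨P, ?_⟩, fun h => hP0 (congrArg Subtype.val h), Subtype.ext hgP⟩
        rw [Submodule.mem_torsionBy_iff, natCast_zsmul]
        exact hP

end Fermat.Agent.S44.Top
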