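import Fermat.Agent.S44.Top.VPkg
import Fermat.Agent.S33.Val.Cyc
import Fermat.Agent.S44.Top.VAbs

/-!
# S44/TOP : Theorem G on classes, the `UC2` contradiction, (P3), inertia is big          (helper10)
-/

set_option autoImplicit false
set_option synthInstance.maxHeartbeats 400000

open HahnSeries ModularCurve AlgebraicCurve Fermat.Agent.S24 Fermat.Agent.S29 Fermat.Agent.S18
  Fermat.Agent.ES Fermat.Agent.ES.Alg Fermat.Agent.S34.Mod Fermat.Agent.S05 Fermat.Agent.S55.B ExtCitation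
  Fermat.Agent.S33 CongruenceSubgroup
open Fermat.Agent.S55 (Dq Iq)

noncomputable section

namespace Fermat.Agent.S44.Top

theorem peq_iff_cl {N p : ℕ} (hp : p ≠ 0) {u v : FN N} (hu : u ≠ 0) (hv : v ≠ 0) :
    PEq p u v ↔ (cl u hu : WW N p) = cl v hv :=
  ⟨fun ⟨_, h⟩ => cl_eq_of_eq_mul hp hu hv h, fun h => kuAux_exists_of_cl_eq hu hv h⟩

theorem gal_ne_zero {N : ℕ} [NeZero N] (σ : GQ) {u : FN N} (hu : u ≠ 0) : gal N σ u ≠ 0 :=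
  (map_ne_zero_iff _ (gal N σ).injective).mpr hu

theorem cl_div {N p : ℕ} {u v : FN N} (hu : u ≠ 0) (hv : v ≠ 0) :
    (cl (u * v⁻¹) (mul_ne_zero hu (inv_ne_zero hv)) : WW N p) = cl u hu - cl v hv := by
  rw [cl_mul hu (inv_ne_zero hv), ← kuAux_neg_cl hv]
  exact (sub_eq_add_neg (cl u hu : WW N p) (cl v hv)).symm

theorem clAux_zero {W : Type*} [AddCommGroup W] (f : AddMonoid.End W) (z : W) (c : ℕ) :
    f (z - z) = c • (z - z) := by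
  rw [sub_self, map_zero, smul_zero]

theorem clAux_comm {W : Type*} [AddCommGroup W] (k c : ℕ) (z : W) : k • c • z = c • k • z :=
  smul_comm k c z

variable {q : Nat.Primes} {M1 : ℕ} [NeZero M1] [NeZero (q : ℕ)]

/-- Theorem G (`S33.thmGn`, `m = 1`) on classes -/
theorem thmG_cl (hq2 : (q : ℕ) ≠ 2) (hc : Nat.Coprime (q : ℕ) M1) {v : FN (M1 * (q : ℕ))} (hv0 : v ≠ 0)
    (hP : PDiv Kb (FN (M1 * (q : ℕ))) (q : ℕ) v) (hU : UC2 (AA q) M1 hc v)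
    {σ₀ : GQ} (hσ₀ : σ₀ ∈ Iq q) (hmv : ∃ ζ : Qb, ζ ^ (q : ℕ) = 1 ∧ σ₀ ζ ≠ ζ)
    (hfix : actW (M1 * (q : ℕ)) (q : ℕ) σ₀ (cl v hv0) = cl v hv0)
    (hquad : ∀ σ ∈ Iq q, ∀ σ' ∈ Iq q, ∀ c : ℕ, Cyc (q : ℕ) σ c →
      actW (M1 * (q : ℕ)) (q : ℕ) σ (actW (M1 * (q : ℕ)) (q : ℕ) σ' (cl v hv0) - cl v hv0) =
        c • (actW (M1 * (q : ℕ)) (q : ℕ) σ' (cl v hv0) - cl v hv0)) :
    (cl v hv0 : WW (M1 * (q : ℕ)) (q : ℕ)) = 0 := by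
  have hq0 : (q : ℕ) ≠ 0 := q.2.ne_zero
  have hG := thmGn q.2 hq2 hc 1
  unfold ThmGn at hG
  simp only [pow_one] at hG
  obtain ⟨g, hg⟩ := hG v hP hU ⟨v, rfl⟩ σ₀ hσ₀ hmv
    (by
      rw [actW_cl] at hfix
      exact kuAux_exists_of_cl_eq _ _ hfix)
    (by
      intro σ hσ σ' hσ' c hcy
      have h1 := hquad σ hσ σ' hσ' c hcy
      rw [actW_cl, ← cl_div (gal_ne_zero σ' hv0) hv0, actW_cl, ← cl_pow] at h1
      exact kuAux_exists_of_cl_eq _ _ h1)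
  have : (cl v hv0 : WW (M1 * (q : ℕ)) (q : ℕ)) = cl (1 : FN (M1 * (q : ℕ))) one_ne_zero :=
    cl_eq_of_eq_mul hq0 hv0 one_ne_zero (by rw [one_mul]; exact hg)
  rw [this, kuAux_cl_one]

/-- the `UC2` alternative of `geo_final` is impossible -/
theorem uc2_false (hq2 : (q : ℕ) ≠ 2) (hc : Nat.Coprime (q : ℕ) M1) {S : Set ℕ} {a : ℕ → ℤ}
    {u t : FN (M1 * (q : ℕ))} (H : NewHyp q M1 hc S a u t)
    (h : ∃ h : FN (M1 * (q : ℕ)), h ≠ 0 ∧ UC2 (AA q) M1 hc (u * h ^ (q : ℕ))) : False := by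
  have hq0 : (q : ℕ) ≠ 0 := q.2.ne_zero
  obtain ⟨h, hh0, hU⟩ := h
  have hu0 : u ≠ 0 := H.pdiv_u.1
  have ht0 : t ≠ 0 := H.pdiv_t.1
  have hv0 : u * h ^ (q : ℕ) ≠ 0 := mul_ne_zero hu0 (pow_ne_zero _ hh0)
  have hcl : (cl (u * h ^ (q : ℕ)) hv0 : WW (M1 * (q : ℕ)) (q : ℕ)) = cl u hu0 :=
    cl_eq_of_eq_mul hq0 hv0 hu0 rfl
  obtain ⟨σ₀, hσ₀, hmv, hfx⟩ := H.fix
  have hact : ∀ σ' ∈ Iq q, ∃ k : ℕ, actW (M1 * (q : ℕ)) (q : ℕ) σ' (cl u hu0) - cl u hu0 =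
      k • (cl t ht0 : WW (M1 * (q : ℕ)) (q : ℕ)) := by
    intro σ' hσ'
    obtain ⟨k, hk⟩ := H.act_u σ' hσ'
    refine ⟨k, ?_⟩
    rw [actW_cl, (peq_iff_cl hq0 (gal_ne_zero σ' hu0) (mul_ne_zero hu0 (pow_ne_zero k ht0))).1 hk,
      cl_mul hu0 (pow_ne_zero k ht0), cl_pow ht0]
    exact add_sub_cancel_left (cl u hu0 : WW (M1 * (q : ℕ)) (q : ℕ)) _
  have key : (cl (u * h ^ (q : ℕ)) hv0 : WW (M1 * (q : ℕ)) (q : ℕ)) = 0 := by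
    refine thmG_cl hq2 hc hv0 (H.pdiv_u.mul (S35.PDiv.pow_self hh0)) hU hσ₀ hmv ?_ ?_
    · rw [hcl, actW_cl]
      exact (peq_iff_cl hq0 (gal_ne_zero σ₀ hu0) hu0).1 hfx
    · intro σ hσ σ' hσ' c hcy
      rw [hcl]
      obtain ⟨k, hk⟩ := hact σ' hσ'
      rw [hk, map_nsmul, actW_cl,
        (peq_iff_cl hq0 (gal_ne_zero σ ht0) (pow_ne_zero c ht0)).1 (H.act_t σ hσ c hcy), cl_pow ht0]
      exact clAux_comm (W := WW (M1 * (q : ℕ)) (q : ℕ)) k c _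
  rw [hcl] at key
  obtain ⟨r, hr⟩ := cl_eq_zero _ key
  exact H.not_pow ⟨r, hr⟩

/-- clause (P3) -/
theorem p3_cl (hq2 : (q : ℕ) ≠ 2) (hc : Nat.Coprime (q : ℕ) M1) {u : FN (M1 * (q : ℕ))} (hu0 : u ≠ 0)
    (hP : PDiv Kb (FN (M1 * (q : ℕ))) (q : ℕ) u) {τ : GQ} (hτ : τ ∈ Iq q)
    (hfix : ∀ s ∈ Iq q, actW (M1 * (q : ℕ)) (q : ℕ) s (actW (M1 * (q : ℕ)) (q : ℕ) τ (cl u hu0) - cl u hu0) =
      actW (M1 * (q : ℕ)) (q : ℕ) τ (cl u hu0) - cl u hu0) :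
    actW (M1 * (q : ℕ)) (q : ℕ) τ (cl u hu0) - cl u hu0 = 0 := by
  have hg0 := gal_ne_zero τ hu0
  have hW0 : Wq hc u ≠ 0 := (map_ne_zero_iff _ (Wq hc).injective).mpr hu0
  have hcl : actW (M1 * (q : ℕ)) (q : ℕ) τ (cl u hu0) - cl u hu0 =
      cl (gal (M1 * (q : ℕ)) τ u * u⁻¹) (mul_ne_zero hg0 (inv_ne_zero hu0)) := by
    rw [actW_cl, cl_div hg0 hu0]
  rw [hcl] at hfix ⊢
  obtain ⟨σ₀, hσ₀, hmv⟩ := exists_moves q hq2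
  refine thmG_cl hq2 hc _ ((PDiv.gal hP τ).mul hP.inv) ⟨unit_cong_inertia hτ u hu0, ?_⟩ hσ₀ hmv
    (hfix σ₀ hσ₀) ?_
  · obtain ⟨a, ha⟩ := unit_cong_inertia hτ (Wq hc u) hW0
    refine ⟨a, ?_⟩
    rwa [map_mul, map_inv₀, ← gal_Wq q.2 hc]
  · intro σ hσ σ' hσ' c _
    rw [hfix σ' hσ']
    exact clAux_zero (W := WW (M1 * (q : ℕ)) (q : ℕ)) _ _ c

/-- inertia at `p ≥ 5` contains an element with `ε² ≠ 1` -/
theorem exists_moves2 (hq5 : 5 ≤ (q : ℕ)) : ∃ s ∈ Iq q, (epsP (q : ℕ) s) ^ 2 ≠ 1 := by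
  by_contra hcon
  push Not at hcon
  have : Fact (q : ℕ).Prime := ⟨q.2⟩
  obtain ⟨ζ, hζ⟩ := cycAux_exists_prim q
  have hζ0 : ζ ≠ 0 := hζ.ne_zero q.2.ne_zero
  have hs : ∀ s ∈ Iq q, s ζ = ζ ∨ s ζ = ζ⁻¹ := by
    intro s hs
    have h1 := hcon s hs
    have h2 : ((epsP (q : ℕ) s : (ZMod (q : ℕ))ˣ) : ZMod (q : ℕ)) *
        ((epsP (q : ℕ) s : (ZMod (q : ℕ))ˣ) : ZMod (q : ℕ)) = 1 := by
      rw [← Units.val_mul, ← sq, h1, Units.val_one]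
    rcases mul_self_eq_one_iff.1 h2 with h3 | h3
    · left
      exact (epsP_eq_one_iff s).1 (Units.ext h3) ζ hζ.pow_eq_one
    · right
      have h4 := epsP_spec s ζ hζ.pow_eq_one
      set k := ((epsP (q : ℕ) s : (ZMod (q : ℕ))ˣ) : ZMod (q : ℕ)).val with hk
      have h5 : ((k + 1 : ℕ) : ZMod (q : ℕ)) = 0 := by
        rw [Nat.cast_add, hk, ZMod.natCast_zmod_val, h3]
        simp
      have h6 : (q : ℕ) ∣ k + 1 := (ZMod.natCast_eq_zero_iff _ _).1 h5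
      have h7 : ζ ^ (k + 1) = 1 := (hζ.pow_eq_one_iff_dvd _).2 h6
      rw [h4]
      rw [pow_succ] at h7
      exact eq_inv_of_mul_eq_one_left h7
  have hne1 := cycAux_ne q hζ
  have hne2 := cycAux_ne q hζ.inv
  obtain ⟨k, hk⟩ := w_int_of_fixed q (a := (ζ - 1) * (ζ⁻¹ - 1))
    (fun σ hσ => by
      rcases hs σ hσ with h | h
      · rw [map_mul, map_sub, map_sub, map_inv₀, map_one, h]
      · rw [map_mul, map_sub, map_sub, map_inv₀, map_one, h, inv_inv, mul_comm])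
    (mul_ne_zero hne1 hne2)
  rw [((w_pi q hζ).mul (w_pi q hζ.inv)).2] at hk
  have hq5' : (5 : ℝ) ≤ (q : ℕ) := by exact_mod_cast hq5
  have h1 : (0 : ℝ) < 1 / (((q : ℕ) : ℝ) - 1) + 1 / (((q : ℕ) : ℝ) - 1) := by
    have : (0 : ℝ) < 1 / (((q : ℕ) : ℝ) - 1) := by apply div_pos one_pos; linarith
    linarith
  have h2 : 1 / (((q : ℕ) : ℝ) - 1) + 1 / (((q : ℕ) : ℝ) - 1) < 1 := by
    rw [← add_div, div_lt_one (by linarith)]; linarith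
  rw [hk] at h1 h2
  have h1' : (0 : ℤ) < k := by exact_mod_cast h1
  have h2' : k < (1 : ℤ) := by exact_mod_cast h2
  omega

end Fermat.Agent.S44.Top
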