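import Fermat.Agent.S44.Top.Id.Main
import Fermat.Agent.S44.E.Main
import Fermat.Agent.S55.B.Padic

/-!
# S44/TOP : the two local inputs on the Frey curve at `p`          (helper10)

* `frey_inertia_fix` : every element of the inertia group at `p` has a nonzero fixed vector in `E[p]` (copy of a step of helper25's `Id.frey_not_scenario`);
* `frey_ntr` : `E.frey_not_TR` at the place `primeLocalPlace ⟨p, _⟩`.
-/

set_option autoImplicit false

namespace Fermat.Agent.S44.Top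

open Fermat.Agent.S05 Fermat.Agent.S13 Fermat.Agent.DivPoly Fermat.Agent.S55.B ExtCitation
open WeierstrassCurve WeierstrassCurve.Affine WeierstrassCurve.Affine.Point
open Fermat.Agent.S55 (Dq Iq)

local notation "Qb" => AlgebraicClosure ℚ
local notation "GQ" => (AlgebraicClosure ℚ ≃ₐ[ℚ] AlgebraicClosure ℚ)

theorem frey_inertia_fix (P : FreyPackage) (hpabc : (P.p : ℤ) ∣ P.a * P.b * P.c) {σ : GQ}
    (hσ : σ ∈ Iq ⟨P.p, P.pp⟩) :
    ∃ g : (P.freyCurve⁄Qb).Point, g ≠ 0 ∧ P.p • g = 0 ∧ σ • g = g := by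
  have hp := P.pp
  have hpK : ((P.p : ℕ) : Qb) ≠ 0 := by exact_mod_cast P.hp0
  obtain ⟨hfin, -⟩ := torsionBy_finite (P.freyCurve⁄Qb) P.hp_odd hpK
  have hfinT : Finite (Tp P) := hfin
  have hA : (primeLocalPlace ⟨P.p, P.pp⟩).LiesOverPrime P.p :=
    Fermat.Agent.S55.D.liesOverPrime_primeLocalPlace ⟨P.p, P.pp⟩
  obtain ⟨v, hv⟩ := exists_rval _ hp hA
  obtain ⟨g₀, hg₀, hg₀E⟩ := Id.frey_exists_not_InE1 P hpabc hA hv
  let τ : Tp P →+ Tp P :=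
    { toFun := fun x => ⟨σ • (x : (P.freyCurve⁄Qb).Point) - x,
        (Tp P).sub_mem (Tp_stable P σ x x.2) x.2⟩
      map_zero' := by
        apply Subtype.ext
        show σ • (0 : (P.freyCurve⁄Qb).Point) - 0 = 0
        rw [gsmul_zero, sub_zero]
      map_add' := by
        intro x y
        apply Subtype.ext
        show σ • ((x : (P.freyCurve⁄Qb).Point) + y) - (x + y) = (σ • x - x) + (σ • y - y)
        rw [gsmul_add]
        abel }
  have hninj : ¬ Function.Injective τ := by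
    intro hinj
    obtain ⟨x, hx⟩ := (Finite.injective_iff_surjective.mp hinj) ⟨g₀, (mem_Tp P).mpr hg₀⟩
    apply hg₀E
    have h1 := frey_sub_mem_E1 P hA hv hσ ((mem_Tp P).mp x.2)
    have h2 : σ • (x : (P.freyCurve⁄Qb).Point) - x = g₀ := congrArg Subtype.val hx
    have h3 : Point.map σ.toAlgHom (x : (P.freyCurve⁄Qb).Point) - x = g₀ := h2
    rwa [h3] at h1
  rw [injective_iff_map_eq_zero] at hninj
  push Not at hninj
  obtain ⟨x, hx, hx0⟩ := hninj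
  have h2 : σ • (x : (P.freyCurve⁄Qb).Point) - x = 0 := congrArg Subtype.val hx
  exact ⟨x, fun h => hx0 (Subtype.ext h), (mem_Tp P).mp x.2, sub_eq_zero.mp h2⟩

theorem frey_ntr (P : FreyPackage) (hpabc : (P.p : ℤ) ∣ P.a * P.b * P.c)
    (ζ c0 : Qb) (hζ : IsPrimitiveRoot ζ P.p) (hc0 : c0 ≠ 0)
    (hpow : ∀ σ ∈ Iq ⟨P.p, P.pp⟩, σ ζ = ζ → σ (c0 ^ P.p) = c0 ^ P.p)
    (hL : ∀ σ ∈ Iq ⟨P.p, P.pp⟩, σ ζ = ζ →
      (σ c0 = c0 ↔ ∀ g : (P.freyCurve⁄Qb).Point, P.p • g = 0 → σ • g = g)) :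
    ∃ y : Qb, y ≠ 0 ∧ (∀ σ ∈ Iq ⟨P.p, P.pp⟩, σ ζ = ζ → σ y = y) ∧
      (wq ⟨P.p, P.pp⟩).w y = (wq ⟨P.p, P.pp⟩).w c0 :=
  E.frey_not_TR P hpabc (Fermat.Agent.S55.D.liesOverPrime_primeLocalPlace ⟨P.p, P.pp⟩)
    (v := wq ⟨P.p, P.pp⟩) (fun _ hx => wq_nonneg_iff ⟨P.p, P.pp⟩ hx) hζ hc0 hpow hL

end Fermat.Agent.S44.Top
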