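import Fermat.Agent.S44.Top.K3Na
import Fermat.Agent.S34.Mod.Wq

/-!
# S44 / TOP-K3N-b : the norm `F_{Mp} → F_M` of `W_p u` on Kummer elements        key `S44/TOP-K3N-b`

* `merZ A : Mer →+* Mer`, `f ↦ f ∘ A` for an integral matrix `A` of positive determinant
  (`merZ_mul`, `merZ_SL`, `merZ_smul`, `merZ_matD`);
* `iota_Wq` : `iota (M p) (W_p θ) = (iota (M p) θ) ∘ w`, `w = [[1,0],[0,p]] [[p s, t],[M, 1]]`, `p s - M t = 1`;
* `iota_normAlpha_Wq` : `iota M (normAlpha M p (W_p u)) = ∏ i, (iota (M p) u) ∘ (famB2 M p i)`;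
* `isKummer_normAlpha_Wq` : `IsKummer (M p) m c u`, `IsTr Γ₀(M p) Γ₀(M) (famB2 M p) c c'` imply
  `IsKummer M m c' (normAlpha M p (W_p u))`.
-/

set_option autoImplicit false

open UpperHalfPlane ModularForm ModularCurve AlgebraicCurve CongruenceSubgroup
open Fermat.Agent.S24 Fermat.Agent.S16.Lower Fermat.Agent.ES.Alg Fermat.Agent.S29 Fermat.Agent.S29.K3
open Fermat.Agent.S41 Fermat.Agent.S41.Hecke Fermat.Agent.S34.Mod
open Matrix.SpecialLinearGroup (mapGL)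
open scoped MatrixGroups Manifold

noncomputable section

namespace Fermat.Agent.S44.Top

/-! ### `f ↦ f ∘ A` for integral matrices -/

theorem k3nb_det_map (A : M2) : (A.map (Int.cast : ℤ → ℝ)).det = ((A.det : ℤ) : ℝ) := by
  rw [Matrix.det_fin_two, Matrix.det_fin_two]
  simp

/-- the real version of an integral matrix of positive determinant -/
def glZ (A : M2) (hA : 0 < A.det) : GL (Fin 2) ℝ :=
  Matrix.GeneralLinearGroup.mkOfDetNeZero (A.map (Int.cast : ℤ → ℝ)) (by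
    rw [k3nb_det_map]
    exact_mod_cast hA.ne')

theorem glZ_val (A : M2) (hA : 0 < A.det) : (glZ A hA).val = A.map (Int.cast : ℤ → ℝ) := rfl

theorem glZ_det_pos (A : M2) (hA : 0 < A.det) : 0 < (glZ A hA).det.val := by
  rw [Matrix.GeneralLinearGroup.val_det_apply, glZ_val, k3nb_det_map]
  exact_mod_cast hA

/-- `f ↦ f ∘ A` (junk if `det A ≤ 0`) -/
def merZ (A : M2) : Mer →+* Mer :=
  if hA : 0 < A.det then merGL (glZ A hA) (glZ_det_pos A hA) else RingHom.id _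

theorem merZ_eq {A : M2} (hA : 0 < A.det) (x : Mer) :
    merZ A x = merGL (glZ A hA) (glZ_det_pos A hA) x := by
  rw [merZ, dif_pos hA]

theorem merZ_eq_of_val {A : M2} (hA : 0 < A.det) (a : GL (Fin 2) ℝ) (ha : 0 < a.det.val)
    (h : a.val = A.map (Int.cast : ℤ → ℝ)) (x : Mer) : merZ A x = merGL a ha x := by
  rw [merZ_eq hA]
  exact merGL_congr (Units.ext (by rw [glZ_val, h])) _ _ _

theorem merZ_mul {A B : M2} (hA : 0 < A.det) (hB : 0 < B.det) (x : Mer) :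
    merZ (A * B) x = merZ B (merZ A x) := by
  have hAB : 0 < (A * B).det := by rw [Matrix.det_mul]; exact mul_pos hA hB
  have hpos : 0 < (glZ A hA * glZ B hB).det.val := by
    rw [map_mul, Units.val_mul]
    exact mul_pos (glZ_det_pos A hA) (glZ_det_pos B hB)
  rw [merZ_eq hA, merZ_eq hB, ← merGL_mul _ _ _ _ hpos]
  refine merZ_eq_of_val hAB _ hpos ?_ x
  rw [Units.val_mul, glZ_val, glZ_val]
  exact (Matrix.map_mul (f := Int.castRingHom ℝ)).symm

theorem k3nb_det_SL (g : SL(2, ℤ)) : 0 < ((g : SL(2, ℤ)) : M2).det := by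
  rw [g.2]; exact one_pos

theorem merZ_SL (g : SL(2, ℤ)) (x : Mer) :
    merZ ((g : SL(2, ℤ)) : M2) x = merGL (mapGL ℝ g) (det_SL_pos g) x := by
  refine merZ_eq_of_val (k3nb_det_SL g) _ _ ?_ x
  ext i j; simp

theorem merZ_const (A : M2) (c : ℂ) : merZ A (algebraMap ℂ Mer c) = algebraMap ℂ Mer c := by
  by_cases hA : 0 < A.det
  · rw [merZ_eq hA, merGL_const]
  · rw [merZ, dif_neg hA]; rfl

theorem k3nb_smul_eq {a b : GL (Fin 2) ℝ} (ha : 0 < a.det.val) (hb : 0 < b.det.val) {c : ℝ}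
    (hc : c ≠ 0) (h : a.val = c • b.val) (τ : ℍ) : a • τ = b • τ := by
  apply UpperHalfPlane.ext
  rw [coe_smul_of_det_pos ha, coe_smul_of_det_pos hb, num, denom, num, denom]
  have e : ∀ i j, (a i j : ℝ) = c * b i j := fun i j => by
    have := congrFun (congrFun h i) j
    simpa using this
  rw [e, e, e, e]
  have hc' : (c : ℂ) ≠ 0 := by exact_mod_cast hc
  push_cast
  rw [show (c : ℂ) * (b 0 0 : ℝ) * (τ : ℂ) + c * (b 0 1 : ℝ) = c * ((b 0 0 : ℝ) * (τ : ℂ) + (b 0 1 : ℝ)) by ring,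
    show (c : ℂ) * (b 1 0 : ℝ) * (τ : ℂ) + c * (b 1 1 : ℝ) = c * ((b 1 0 : ℝ) * (τ : ℂ) + (b 1 1 : ℝ)) by ring,
    mul_div_mul_left _ _ hc']

theorem merGL_eq_of_smul {a b : GL (Fin 2) ℝ} (ha : 0 < a.det.val) (hb : 0 < b.det.val) {c : ℝ}
    (hc : c ≠ 0) (h : a.val = c • b.val) (x : Mer) : merGL a ha x = merGL b hb x := by
  have : merGL a ha = merGL b hb := by
    apply mer_hom_ext
    intro f
    rw [merGL_algebraMap, merGL_algebraMap]
    congr 1
    ext τ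
    rw [holGL_apply, holGL_apply, k3nb_smul_eq ha hb hc h]
  rw [this]

theorem merZ_smul {A : M2} (hA : 0 < A.det) {c : ℤ} (hc : c ≠ 0) (x : Mer) :
    merZ (c • A) x = merZ A x := by
  have hcA : 0 < (c • A).det := by
    rw [Matrix.det_smul, Fintype.card_fin]
    exact mul_pos (by positivity) hA
  rw [merZ_eq hcA, merZ_eq hA]
  refine merGL_eq_of_smul _ _ (c := (c : ℝ)) (by exact_mod_cast hc) ?_ x
  rw [glZ_val, glZ_val]
  ext i j
  rw [Matrix.map_apply, Matrix.smul_apply, Matrix.smul_apply, Matrix.map_apply, smul_eq_mul,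
    smul_eq_mul, Int.cast_mul]

theorem merZ_matD {p : ℕ} (hp : p ≠ 0) (x : Mer) :
    merZ (matD p) x = merGL (PeriodAux.glT p none) (glT_det_pos' p none) x :=
  merZ_eq_of_val (A := matD p) (by rw [det_matD]; exact_mod_cast Nat.pos_of_ne_zero hp) _ _
    (PeriodAux.glT_val hp none) x

theorem merZ_iota_of_mem (N : ℕ) [NeZero N] {g : SL(2, ℤ)} (hg : g ∈ Gamma0 N) (θ : FN N) :
    merZ ((g : SL(2, ℤ)) : M2) (iota N θ) = iota N θ := by
  rw [merZ_SL, merGL_SL_iota N hg]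

theorem merAct_eq_merZ (g : SL(2, ℤ)) (x : Mer) :
    merAct g x = merZ ((g⁻¹ : SL(2, ℤ)) : M2) x := by
  rw [merAct_eq, merZ_SL]

/-! ### the Atkin–Lehner matrix -/

/-- `[[p s, t], [M, 1]]` -/
def alA (M p : ℕ) (s t : ℤ) (h : (p : ℤ) * s - M * t = 1) : SL(2, ℤ) :=
  ⟨!![(p : ℤ) * s, t; (M : ℤ), 1], by rw [Matrix.det_fin_two_of]; linarith⟩

/-- `[[s, t], [M, p]]` -/
def alB (M p : ℕ) (s t : ℤ) (h : (p : ℤ) * s - M * t = 1) : SL(2, ℤ) :=
  ⟨!![s, t; (M : ℤ), (p : ℤ)], by rw [Matrix.det_fin_two_of]; linarith⟩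

theorem alA_mem (M p : ℕ) (s t : ℤ) (h : (p : ℤ) * s - M * t = 1) : alA M p s t h ∈ Gamma0 M := by
  rw [Gamma0_mem]
  simp [alA]

theorem alB_mem (M p : ℕ) (s t : ℤ) (h : (p : ℤ) * s - M * t = 1) : alB M p s t h ∈ Gamma0 M := by
  rw [Gamma0_mem]
  simp [alB]

theorem alA_rel (M p : ℕ) (s t : ℤ) (h : (p : ℤ) * s - M * t = 1) :
    matU p 0 * ((alA M p s t h : SL(2, ℤ)) : M2) = ((alB M p s t h : SL(2, ℤ)) : M2) * matD p := by
  show matU p 0 * !![(p : ℤ) * s, t; (M : ℤ), 1] = !![s, t; (M : ℤ), (p : ℤ)] * matD p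
  rw [matD, matU]
  ext i j
  fin_cases i <;> fin_cases j <;> simp [Matrix.mul_apply, Fin.sum_univ_two] <;> ring

theorem alA_rel' (M p : ℕ) (s t : ℤ) (h : (p : ℤ) * s - M * t = 1) :
    matD p * (matU p 0 * ((alA M p s t h : SL(2, ℤ)) : M2)) =
      (p : ℤ) • ((alA M p s t h : SL(2, ℤ)) : M2) := by
  rw [← Matrix.mul_assoc, hswap_matD_mul_matU, Matrix.smul_mul, Matrix.one_mul]

theorem k3nb_det_matU {p : ℕ} (hp : p ≠ 0) : 0 < (matU p 0).det := by
  rw [det_matU]; exact_mod_cast Nat.pos_of_ne_zero hp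

theorem k3nb_det_matD {p : ℕ} (hp : p ≠ 0) : 0 < (matD p).det := by
  rw [det_matD]; exact_mod_cast Nat.pos_of_ne_zero hp

theorem k3nb_det_famB2 {M p : ℕ} (hp : p ≠ 0) (i : Option (Fin p)) : 0 < (famB2 M p i).det := by
  rw [det_famB2]; exact_mod_cast Nat.pos_of_ne_zero hp

/-- `W_p` is `f ↦ f ∘ w` -/
theorem iota_Wq {M p : ℕ} [NeZero M] [NeZero p] (hp : p.Prime) (hc : Nat.Coprime p M)
    (s t : ℤ) (h : (p : ℤ) * s - M * t = 1) (θ : FN (M * p)) :
    iota (M * p) (Wq hc θ) =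
      merZ (matU p 0 * ((alA M p s t h : SL(2, ℤ)) : M2)) (iota (M * p) θ) := by
  have hW : 0 < (matU p 0 * ((alA M p s t h : SL(2, ℤ)) : M2)).det := by
    rw [Matrix.det_mul]
    exact mul_pos (k3nb_det_matU hp.ne_zero) (k3nb_det_SL _)
  refine induction_alpha_beta hp (P := fun θ => iota (M * p) (Wq hc θ) =
      merZ (matU p 0 * ((alA M p s t h : SL(2, ℤ)) : M2)) (iota (M * p) θ))
    (fun f => ?_) (fun f => ?_) (fun x y hx hy => ?_) (fun x y hx hy => ?_) (fun x hx => ?_) θ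
  · rw [Wq_alpha, iota_beta, iota_alpha, ← merZ_matD hp.ne_zero, alA_rel,
      merZ_mul (k3nb_det_SL _) (k3nb_det_matD hp.ne_zero), merZ_iota_of_mem M (alB_mem M p s t h)]
  · rw [Wq_beta, iota_alpha, iota_beta, ← merZ_matD hp.ne_zero,
      ← merZ_mul (k3nb_det_matD hp.ne_zero) hW, alA_rel',
      merZ_smul (k3nb_det_SL _) (by exact_mod_cast hp.ne_zero),
      merZ_iota_of_mem M (alA_mem M p s t h)]
  · rw [map_add (Wq hc), RingHom.map_add, RingHom.map_add, RingHom.map_add, hx, hy]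
  · rw [map_mul (Wq hc), RingHom.map_mul, RingHom.map_mul, RingHom.map_mul, hx, hy]
  · rw [map_inv₀ (Wq hc), map_inv₀ (iota (M * p)), map_inv₀ (iota (M * p)), map_inv₀ (merZ _), hx]

theorem iota_normAlpha_Wq {M p : ℕ} [NeZero M] [NeZero p] (hp : p.Prime) (hM : ¬ p ∣ M)
    (hc : Nat.Coprime p M) (u : FN (M * p)) :
    iota M (normAlpha M p (Wq hc u)) = ∏ i : Option (Fin p), merZ (famB2 M p i) (iota (M * p) u) := by
  obtain ⟨s, b, hsb⟩ : IsCoprime (p : ℤ) (M : ℤ) := Nat.isCoprime_iff_coprime.mpr hc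
  have h : (p : ℤ) * s - M * (-b) = 1 := by linarith
  set g := alA M p s (-b) h with hg
  have hgm : g ∈ Gamma0 M := alA_mem M p s (-b) h
  have hex : ∀ i : Option (Fin p), ∃ (j : Option (Fin p)) (δ : Gamma0 (M * p)),
      matU p 0 * ((g : SL(2, ℤ)) : M2) * ((rA M p i : SL(2, ℤ)) : M2) =
        ((δ : SL(2, ℤ)) : M2) * famB2 M p j := by
    intro i
    obtain ⟨j, δ, hj⟩ := complete_b2 hp hM (⟨g, hgm⟩ * ⟨rA M p i, rA_mem M p i⟩)
    refine ⟨j, δ, ?_⟩
    rw [← hj, Matrix.mul_assoc]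
    rfl
  choose π δ hrel using hex
  have hW : 0 < (matU p 0 * ((g : SL(2, ℤ)) : M2)).det := by
    rw [Matrix.det_mul]
    exact mul_pos (k3nb_det_matU hp.ne_zero) (k3nb_det_SL _)
  have hterm : ∀ (i : Option (Fin p)) (θ : FN (M * p)),
      merZ ((rA M p i : SL(2, ℤ)) : M2) (iota (M * p) (Wq hc θ)) =
        merZ (famB2 M p (π i)) (iota (M * p) θ) := by
    intro i θ
    rw [iota_Wq hp hc s (-b) h, ← merZ_mul hW (k3nb_det_SL _), hrel,
      merZ_mul (k3nb_det_SL _) (k3nb_det_famB2 hp.ne_zero _), merZ_iota_of_mem (M * p) (δ i).2]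
  have hinj : Function.Injective π := by
    intro i j hij
    apply rA_inj hp hM
    have h1 : sigma (M * p) (((rA M p i)⁻¹ : SL(2, ℤ)) : QN (M * p)) =
        sigma (M * p) (((rA M p j)⁻¹ : SL(2, ℤ)) : QN (M * p)) := by
      ext θ
      rw [sigma_mk, sigma_mk]
      have h2 : merAct (rA M p i)⁻¹ (iota (M * p) θ) = merAct (rA M p j)⁻¹ (iota (M * p) θ) := by
        rw [merAct_eq_merZ, merAct_eq_merZ, inv_inv, inv_inv, ← Wq_Wq hc θ, hterm, hterm, hij]
      exact h2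
    have h2 := QuotientGroup.eq.mp (sigma_injective (M * p) h1)
    rwa [inv_inv] at h2
  have hbij : Function.Bijective π := Finite.injective_iff_bijective.mp hinj
  rw [iota_normAlpha hp hM]
  rw [← Equiv.prod_comp (Equiv.ofBijective π hbij)
    (fun i => merZ (famB2 M p i) (iota (M * p) u))]
  refine Finset.prod_congr rfl fun i _ => ?_
  rw [← merZ_SL, hterm]
  rfl

/-- **S44/TOP-K3N-b** -/
theorem isKummer_normAlpha_Wq {M m p : ℕ} [NeZero M] [NeZero p] (hp : p.Prime) (hM : ¬ p ∣ M)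
    (hcop : Nat.Coprime p M)
    {c : Additive (Gamma0 (M * p)) →+ ℤ} {c' : Additive (Gamma0 M) →+ ℤ} {u : FN (M * p)}
    (hu : IsKummer (M * p) m c u)
    (hc : IsTr (Gamma0 (M * p)) (Gamma0 M) (famB2 M p) c c') :
    IsKummer M m c' (normAlpha M p (Wq hcop u)) := by
  obtain ⟨h, h0, hpow, hchar⟩ := hu
  refine ⟨∏ i : Option (Fin p), merZ (famB2 M p i) h, ?_, ?_, ?_⟩
  · exact Finset.prod_ne_zero_iff.mpr fun i _ => (map_ne_zero _).mpr h0
  · rw [iota_normAlpha_Wq hp hM, hpow, ← Finset.prod_pow]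
    exact Finset.prod_congr rfl fun i _ => map_pow _ _ _
  · intro γ
    obtain ⟨D⟩ := (isFam_b2 hp hM).ex γ⁻¹
    have hterm : ∀ i, merAct (γ : SL(2, ℤ)) (merZ (famB2 M p i) h) =
        algebraMap ℂ Mer (zet m (-c (Additive.ofMul (D.δ i)))) *
          merZ (famB2 M p (D.σ i)) h := by
      intro i
      have hγ : (((γ : SL(2, ℤ))⁻¹ : SL(2, ℤ)) : M2) = (((γ⁻¹ : Gamma0 M) : SL(2, ℤ)) : M2) := rfl
      rw [merAct_eq_merZ, ← merZ_mul (k3nb_det_famB2 hp.ne_zero _) (k3nb_det_SL _), hγ, D.rel i,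
        merZ_mul (k3nb_det_SL _) (k3nb_det_famB2 hp.ne_zero _), merZ_SL,
        merGL_SL_of_hasChar hchar, map_mul, merZ_const]
    rw [map_prod]
    simp only [hterm]
    rw [Finset.prod_mul_distrib, ← map_prod, ← zet_sum, Finset.sum_neg_distrib, ← hc γ⁻¹ D,
      ofMul_inv, map_neg, neg_neg]
    congr 1
    exact Equiv.prod_comp D.σ (fun i => merZ (famB2 M p i) h)

end Fermat.Agent.S44.Top
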