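import Fermat.Agent.S44.Top.Cl
import Fermat.Agent.S44.Top.K3Nb

/-!
# S44/TOP : the Kummer element of a `p`-new eigenvector is good          (helper10)
-/

set_option autoImplicit false
set_option synthInstance.maxHeartbeats 400000

open HahnSeries ModularCurve AlgebraicCurve Fermat.Agent.S24 Fermat.Agent.S29 Fermat.Agent.S18
  Fermat.Agent.ES Fermat.Agent.ES.Alg Fermat.Agent.S34.Mod Fermat.Agent.S05 Fermat.Agent.S55.B ExtCitation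
  Fermat.Agent.S33 CongruenceSubgroup Fermat.Agent.S41 Fermat.Agent.S31
open Fermat.Agent.S55 (Dq Iq)

noncomputable section

namespace Fermat.Agent.S44.Top

theorem cl_zpow {N p : ℕ} {u : FN N} (hu : u ≠ 0) (n : ℤ) :
    (cl (u ^ n) (zpow_ne_zero n hu) : WW N p) = n • cl u hu := by
  have h : Units.mk0 (u ^ n) (zpow_ne_zero n hu) = (Units.mk0 u hu) ^ n := by
    apply Units.ext
    rw [Units.val_zpow_eq_zpow_val]
    rfl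
  rw [cl, h]
  rfl

/-- a Kummer element of a class divisible by `p` is a `p`-th power -/
theorem isPow_of_isKummer_divP {N p : ℕ} [NeZero N] (hp : p ≠ 0) {c : XN N} {u : FN N}
    (hk : IsKummer N p c u) (hd : DivP p c) : IsPow p u := by
  have hD := desc_holds N p hp
  obtain ⟨z, hz⟩ := hd
  have h1 := Theta_eq hp hD c hk
  have h2 : Theta hp hD c = 0 := by rw [hz, map_zsmul, natCast_zsmul, nsmul_WW]
  obtain ⟨r, hr⟩ := cl_eq_zero _ (h1.symm.trans h2)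
  exact ⟨r, hr⟩

variable {q : Nat.Primes} {M1 : ℕ} [NeZero M1] [NeZero (q : ℕ)]

theorem goodU_uK {W : WeierstrassCurve ℤ} (hc : Nat.Coprime (q : ℕ) M1) (hpM : ¬ (q : ℕ) ∣ M1)
    (D : Deg M1 (q : ℕ) q.2 hpM) (hD : Desc (M1 * (q : ℕ)) (q : ℕ)) (x₀ : XN (M1 * (q : ℕ)))
    (hE : IsEig W (q : ℕ) (M1 * (q : ℕ)) x₀) (h1 : DivP (q : ℕ) (D.b1 x₀)) (h2 : DivP (q : ℕ) (D.b2 x₀)) :
    GoodU q M1 hc {ℓ | W.IsGoodPrimeFor ℓ ∧ ℓ ≠ (q : ℕ)} (fun ℓ => W.apOfModel ℓ) (uK hD x₀) := by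
  have hq0 : (q : ℕ) ≠ 0 := q.2.ne_zero
  have hk := isKummer_uK hD x₀
  have a1 : IsPow (q : ℕ) (normAlpha M1 (q : ℕ) (uK hD x₀)) :=
    isPow_of_isKummer_divP hq0 (c := D.b1 x₀) (isKummer_normAlpha q.2 hpM hk (D.b1_tr x₀)) h1
  have a2 : IsPow (q : ℕ) (normAlpha M1 (q : ℕ) (Wq hc (uK hD x₀))) :=
    isPow_of_isKummer_divP hq0 (c := D.b2 x₀) (isKummer_normAlpha_Wq q.2 hpM hc hk (D.b2_tr x₀)) h2
  refine ⟨uK_ne_zero hD x₀, pdiv_of_isKummer (M1 * (q : ℕ)) (q : ℕ) x₀ x₀.2 _ hk, a1, a2, ?_⟩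
  intro ℓ hℓ hN hS
  have : NeZero ℓ := ⟨hℓ.ne_zero⟩
  have hk3 := k3_holds' (M1 * (q : ℕ)) (q : ℕ) ℓ hℓ hN x₀ (heckeX (M1 * (q : ℕ)) hℓ hN x₀) (uK hD x₀) x₀.2 hk
    (isTransfer_heckeX (M1 * (q : ℕ)) hℓ hN x₀)
  obtain ⟨z, hz⟩ := hE ℓ hℓ hN hS.1 hS.2
  have e1 := Theta_eq hq0 hD _ hk3
  have e2 : heckeX (M1 * (q : ℕ)) hℓ hN x₀ = (W.apOfModel ℓ : ℤ) • x₀ + ((q : ℕ) : ℤ) • z := by
    rw [← hz]; abel
  have e3 : Theta hq0 hD (heckeX (M1 * (q : ℕ)) hℓ hN x₀) =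
      cl (uK hD x₀ ^ (W.apOfModel ℓ : ℤ)) (zpow_ne_zero _ (uK_ne_zero hD x₀)) := by
    rw [e2, map_add, map_zsmul, map_zsmul, natCast_zsmul, nsmul_WW, Theta_apply, ← cl_zpow]
    exact add_zero (M := WW (M1 * (q : ℕ)) (q : ℕ)) _
  exact kuAux_exists_of_cl_eq _ _ (e1.symm.trans e3)

end Fermat.Agent.S44.Top
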