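import Fermat.Agent.S44.Top.Out0
import Fermat.Agent.S41.Top.In
import Fermat.Agent.S41.Hecke.Main
import Fermat.Prelude.Def_FreyPackage_IsConductorLevel

/-!
# S44/TOP : the old case, and the reduction of S44 to the refutation of the `p`-new case

Everything is in the lattice language of S41: `XN N = Hom_par(Γ₀(N), ℤ)`, `heckeX`, `Deg M p`
(`b1, b2 : XN (M * p) → XN M` the two transfers).
-/

set_option autoImplicit false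

open UpperHalfPlane ModularForm ModularFormClass ModularCurve CongruenceSubgroup
open ModularCurve.Period Fermat.Agent.S16.Lower Fermat.Agent.S29 Fermat.Agent.S29.HeckeXAux
open Fermat.Agent.S49 Fermat.Agent.S41 Fermat.Agent.S41.Top
open scoped MatrixGroups

noncomputable section

namespace Fermat.Agent.S44.Top

/-- `x` is an eigenvector mod `p` with the eigenvalues of `W` -/
def IsEig (W : WeierstrassCurve ℤ) (p N : ℕ) [NeZero N] (x : XN N) : Prop :=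
  ∀ (ℓ : ℕ) (hℓ : ℓ.Prime) (hN : ¬ ℓ ∣ N), W.IsGoodPrimeFor ℓ → ℓ ≠ p →
    DivP p (heckeX N hℓ hN x - (W.apOfModel ℓ : ℤ) • x)

/-- an eigenvector mod `p` in the lattice of level `M` gives an eigenform of level `M` -/
theorem exists_eigenform_of_isEig {W : WeierstrassCurve ℤ} {p M : ℕ} [NeZero M] (hp : p.Prime)
    (𝔪 : Ideal (integralClosure ℤ ℂ)) (hmax : 𝔪.IsMaximal) (hpm : (p : integralClosure ℤ ℂ) ∈ 𝔪)
    (y : XN M) (hy : ¬ DivP p y) (hE : IsEig W p M y) :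
    ∃ g : CuspForm (Gamma0 M) 2, g.IsNormalizedEigenform ∧
      ∀ ℓ : ℕ, ℓ.Prime → W.IsGoodPrimeFor ℓ → ¬ ℓ ∣ M → ℓ ≠ p →
        ∃ α : integralClosure ℤ ℂ, (α : ℂ) = qCoeff g ℓ ∧
          α - ((W.apOfModel ℓ : ℤ) : integralClosure ℤ ℂ) ∈ 𝔪 := by
  obtain ⟨g, hg, hc⟩ := top_out0 hp 𝔪 hmax hpm y hy {ℓ | W.IsGoodPrimeFor ℓ ∧ ℓ ≠ p}
    (fun ℓ => W.apOfModel ℓ) (fun ℓ hℓ hN hS => hE ℓ hℓ hN hS.1 hS.2)
  exact ⟨g, hg, fun ℓ hℓ hgood hM hℓp => hc ℓ hℓ hM ⟨hgood, hℓp⟩⟩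

/-- an eigenform gives an eigenvector mod `p` in the lattice -/
theorem exists_isEig_of_eigenform {W : WeierstrassCurve ℤ} {p N : ℕ} [NeZero N] (hp : p.Prime)
    (f : CuspForm (Gamma0 N) 2) (hf : f.IsNormalizedEigenform)
    (𝔪 : Ideal (integralClosure ℤ ℂ)) (hmax : 𝔪.IsMaximal) (hpm : (p : integralClosure ℤ ℂ) ∈ 𝔪)
    (hcong : ∀ ℓ : ℕ, ℓ.Prime → W.IsGoodPrimeFor ℓ → ¬ ℓ ∣ N → ℓ ≠ p →
      ∃ a : integralClosure ℤ ℂ, (a : ℂ) = qCoeff f ℓ ∧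
        a - ((W.apOfModel ℓ : ℤ) : integralClosure ℤ ℂ) ∈ 𝔪) :
    ∃ x₀ : XN N, ¬ DivP p x₀ ∧ IsEig W p N x₀ := by
  obtain ⟨x₀, hx₀, hT⟩ := top_in hp f hf 𝔪 hmax hpm
    {ℓ | ℓ.Prime ∧ W.IsGoodPrimeFor ℓ ∧ ¬ ℓ ∣ N ∧ ℓ ≠ p} (fun ℓ => W.apOfModel ℓ)
    (fun ℓ h => hcong ℓ h.1 h.2.1 h.2.2.1 h.2.2.2)
  exact ⟨x₀, hx₀, fun ℓ hℓ hN hgood hℓp => hT ℓ hℓ hN ⟨hℓ, hgood, hN, hℓp⟩⟩

theorem DivP.map {p : ℕ} {X Y : Type*} [AddCommGroup X] [AddCommGroup Y] (φ : X →ₗ[ℤ] Y) {x : X}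
    (h : DivP p x) : DivP p (φ x) := by
  obtain ⟨z, rfl⟩ := h
  exact ⟨φ z, map_smul φ _ _⟩

theorem IsEig.b1 {W : WeierstrassCurve ℤ} {p M : ℕ} [NeZero M] [NeZero (M * p)] {hp : p.Prime}
    {hpM : ¬ p ∣ M} (D : Deg M p hp hpM) {x : XN (M * p)} (h : IsEig W p (M * p) x) :
    IsEig W p M (D.b1 x) := by
  intro ℓ hℓ hN hgood hℓp
  have hN' : ¬ ℓ ∣ M * p := by
    intro hd
    rcases (Nat.Prime.dvd_mul hℓ).1 hd with h1 | h1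
    · exact hN h1
    · exact hℓp ((Nat.prime_dvd_prime_iff_eq hℓ hp).1 h1)
  have := DivP.map D.b1 (h ℓ hℓ hN' hgood hℓp)
  rwa [map_sub, map_smul, D.b1_T ℓ hℓ hN hN'] at this

theorem IsEig.b2 {W : WeierstrassCurve ℤ} {p M : ℕ} [NeZero M] [NeZero (M * p)] {hp : p.Prime}
    {hpM : ¬ p ∣ M} (D : Deg M p hp hpM) {x : XN (M * p)} (h : IsEig W p (M * p) x) :
    IsEig W p M (D.b2 x) := by
  intro ℓ hℓ hN hgood hℓp
  have hN' : ¬ ℓ ∣ M * p := by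
    intro hd
    rcases (Nat.Prime.dvd_mul hℓ).1 hd with h1 | h1
    · exact hN h1
    · exact hℓp ((Nat.prime_dvd_prime_iff_eq hℓ hp).1 h1)
  have := DivP.map D.b2 (h ℓ hℓ hN' hgood hℓp)
  rwa [map_sub, map_smul, D.b2_T ℓ hℓ hN hN'] at this

/-- **Reduction of S44.**  It is enough to refute the `p`-new case: a primitive eigenvector mod `p` of
level `M * p` both of whose transfers to level `M` are divisible by `p`. -/
theorem result_of_new (P : FreyPackage) {N : ℕ} (hcond : P.IsConductorLevel N) (hpN : P.p ∣ N)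
    (hmod : P.ModularRepOfLevel N)
    (hnew : ∀ (M : ℕ) [NeZero M] [NeZero (M * P.p)] (hpM : ¬ P.p ∣ M), N = M * P.p →
      ∀ (W : WeierstrassCurve ℤ), W.IsIntegralModelOf P.freyCurve →
      ∀ (D : Deg M P.p P.pp hpM) (x₀ : XN (M * P.p)), ¬ DivP P.p x₀ → IsEig W P.p (M * P.p) x₀ →
        DivP P.p (D.b1 x₀) → DivP P.p (D.b2 x₀) → False) :
    ∃ M : ℕ, M ∣ N ∧ ¬ P.p ∣ M ∧ P.ModularRepOfLevel M := by
  obtain ⟨M, rfl⟩ : ∃ M, N = M * P.p := ⟨N / P.p, (Nat.div_mul_cancel hpN).symm⟩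
  have hMp : M * P.p ≠ 0 := hcond.pos.ne'
  have hM0 : M ≠ 0 := fun h => hMp (by rw [h, zero_mul])
  have : NeZero M := ⟨hM0⟩
  have : NeZero (M * P.p) := ⟨hMp⟩
  have hpM : ¬ P.p ∣ M := by
    rintro ⟨k, rfl⟩
    apply hcond.sq_not_dvd P.pp
    exact ⟨k, by ring⟩
  obtain ⟨f, W, 𝔪, hf, hW, hmax, hpm, hcong⟩ := hmod
  obtain ⟨x₀, hx₀, hE⟩ := exists_isEig_of_eigenform P.pp f hf 𝔪 hmax hpm hcong
  obtain ⟨D⟩ := Hecke.nonempty_deg M P.p P.pp hpM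
  refine ⟨M, Dvd.intro _ rfl, hpM, ?_⟩
  by_cases h1 : DivP P.p (D.b1 x₀)
  · by_cases h2 : DivP P.p (D.b2 x₀)
    · exact (hnew M hpM rfl W hW D x₀ hx₀ hE h1 h2).elim
    · obtain ⟨g, hg, hc⟩ := exists_eigenform_of_isEig P.pp 𝔪 hmax hpm _ h2 (hE.b2 D)
      exact ⟨g, W, 𝔪, hg, hW, hmax, hpm, hc⟩
  · obtain ⟨g, hg, hc⟩ := exists_eigenform_of_isEig P.pp 𝔪 hmax hpm _ h1 (hE.b1 D)
    exact ⟨g, W, 𝔪, hg, hW, hmax, hpm, hc⟩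

end Fermat.Agent.S44.Top
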