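import Fermat.Agent.S44.Top.Out0
import Fermat.Agent.S44.IfTop

/-!
# S44/TOP-OUTQ : Deligne–Serre lifting from a `q`-expansion congruence

`g ∈ S_2(Γ0(M))`, `S ⊆ ℂ` a module over the algebraic integers (think: the image of the maximal ideal of a
valuation ring of `ℚ̄` over `p`), `𝔪` a maximal ideal of the algebraic integers with `𝔪 · a_n(g) ⊆ S`.
If `g ≢ 0 mod S` and `T_ℓ g ≡ a_ℓ g mod S` (coefficientwise) for `ℓ ∈ G`, then there is a normalized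
eigenform `f` of level `M` with `a_ℓ(f) ≡ a_ℓ mod 𝔪` for `ℓ ∈ G`.
(copy of the argument of `S49.result` / `top_out0`.)
-/

set_option autoImplicit false

open UpperHalfPlane ModularForm ModularFormClass ModularCurve CongruenceSubgroup
open Fermat.Agent.S49 Fermat.Agent.S41 Fermat.Agent.S41.Top
open scoped MatrixGroups

noncomputable section

namespace Fermat.Agent.S44.Top

variable {N : ℕ}

/-- all `q`-coefficients lie in `S` -/
def QIn (S : Submodule (integralClosure ℤ ℂ) ℂ) (g : CuspForm (Gamma0 N) 2) : Prop :=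
  ∀ n : ℕ, qCoeff g n ∈ S

theorem QIn.add {S : Submodule (integralClosure ℤ ℂ) ℂ} {g g' : CuspForm (Gamma0 N) 2}
    (hg : QIn S g) (hg' : QIn S g') : QIn S (g + g') := by
  intro n
  rw [qCoeff_add]
  exact S.add_mem (hg n) (hg' n)

theorem QIn.smul {S : Submodule (integralClosure ℤ ℂ) ℂ} {g : CuspForm (Gamma0 N) 2}
    (hg : QIn S g) (r : integralClosure ℤ ℂ) : QIn S ((r : ℂ) • g) := by
  intro n
  rw [qCoeff_smul]
  exact S.smul_mem r (hg n)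

theorem QIn.zero (S : Submodule (integralClosure ℤ ℂ) ℂ) :
    QIn S (0 : CuspForm (Gamma0 N) 2) := by
  intro n
  have := qCoeff_smul (0 : ℂ) (0 : CuspForm (Gamma0 N) 2) n
  rw [zero_smul, zero_mul] at this
  rw [this]
  exact S.zero_mem

theorem QIn.heckeTLin {S : Submodule (integralClosure ℤ ℂ) ℂ} {g : CuspForm (Gamma0 N) 2}
    (hg : QIn S g) {p : ℕ} (hp : p.Prime) (hpN : ¬ p ∣ N) :
    QIn S (CuspForm.heckeTLin 2 hp hpN g) := by
  intro n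
  rw [qCoeff_heckeTLin]
  by_cases hdvd : p ∣ n
  · rw [if_pos hdvd]
    refine S.add_mem (hg _) ?_
    have := S.smul_mem (p : integralClosure ℤ ℂ) (hg (n / p))
    have h2 : (p : integralClosure ℤ ℂ) • qCoeff g (n / p) = (p : ℂ) ^ (2 - 1) * qCoeff g (n / p) := by
      show ((p : integralClosure ℤ ℂ) : ℂ) * _ = _
      norm_num
    rwa [h2] at this
  · rw [if_neg hdvd, add_zero]
    exact hg _

theorem QIn.heckeULin [NeZero N] {S : Submodule (integralClosure ℤ ℂ) ℂ}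
    {g : CuspForm (Gamma0 N) 2} (hg : QIn S g) {p : ℕ} (hp : p.Prime) (hpN : p ∣ N) :
    QIn S (CuspForm.heckeULin 2 hpN g) := by
  intro n
  rw [qCoeff_heckeULin hp.ne_zero]
  exact hg (n * p)

theorem QIn.of_mem_bigHecke [NeZero N] {S : Submodule (integralClosure ℤ ℂ) ℂ}
    {t : Module.End ℂ (CuspForm (Gamma0 N) 2)} (ht : t ∈ bigHecke N) :
    ∀ g : CuspForm (Gamma0 N) 2, QIn S g → QIn S (t g) := by
  induction ht using Algebra.adjoin_induction with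
  | mem x hx =>
    intro g hg
    rcases hx with ⟨ℓ, hℓ, hℓN, -, rfl⟩ | ⟨q, hqN, hq, -, rfl⟩
    · exact hg.heckeTLin hℓ hℓN
    · exact hg.heckeULin hq hqN
  | algebraMap r =>
    intro g hg
    rw [algebraMap_apply_eq_smul]
    exact hg.smul r
  | add x y _ _ hx hy =>
    intro g hg
    rw [LinearMap.add_apply]
    exact (hx g hg).add (hy g hg)
  | mul x y _ _ hx hy =>
    intro g hg
    rw [Module.End.mul_apply]
    exact hx _ (hy g hg)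

/-- the ideal of operators sending `f` into the forms with coefficients in `S` -/
def qIdeal [NeZero N] (S : Submodule (integralClosure ℤ ℂ) ℂ) (f : CuspForm (Gamma0 N) 2) :
    Ideal (bigHecke N) where
  carrier := {t | QIn S ((t : Module.End ℂ (CuspForm (Gamma0 N) 2)) f)}
  add_mem' := by
    intro a b ha hb
    exact QIn.add ha hb
  zero_mem' := QIn.zero S
  smul_mem' := by
    intro c x hx
    exact QIn.of_mem_bigHecke c.2 _ hx

theorem mem_qIdeal [NeZero N] {S : Submodule (integralClosure ℤ ℂ) ℂ}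
    {f : CuspForm (Gamma0 N) 2} {t : bigHecke N} :
    t ∈ qIdeal S f ↔ QIn S ((t : Module.End ℂ (CuspForm (Gamma0 N) 2)) f) :=
  Iff.rfl

/-- **[S44/TOP-OUTQ]** -/
theorem top_outq {M : ℕ} [NeZero M]
    (𝔪 : Ideal (integralClosure ℤ ℂ)) (hmax : 𝔪.IsMaximal)
    (S : Submodule (integralClosure ℤ ℂ) ℂ) (g₀ : CuspForm (Gamma0 M) 2)
    (hg₀ : ∃ n, qCoeff g₀ n ∉ S) (h𝔪 : ∀ c ∈ 𝔪, ∀ n, (c : ℂ) * qCoeff g₀ n ∈ S)
    (G : Set ℕ) (a : ℕ → ℤ)
    (heig : ∀ ℓ : ℕ, ℓ.Prime → ¬ ℓ ∣ M → ℓ ∈ G → ∀ n : ℕ,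
      qCoeff g₀ (n * ℓ) + (if ℓ ∣ n then (ℓ : ℂ) * qCoeff g₀ (n / ℓ) else 0)
        - (a ℓ : ℂ) * qCoeff g₀ n ∈ S) :
    ∃ f : CuspForm (Gamma0 M) 2, f.IsNormalizedEigenform ∧
      (∀ ℓ : ℕ, ℓ.Prime → ¬ ℓ ∣ M → ℓ ∈ G → ∃ α : integralClosure ℤ ℂ, (α : ℂ) = qCoeff f ℓ ∧
          α - ((a ℓ : ℤ) : integralClosure ℤ ℂ) ∈ 𝔪) := by
  classical
  have := Fermat.Agent.S21.finiteDimensional_cuspForm M
  set J := qIdeal S g₀ with hJ
  have hJne : J ≠ ⊤ := by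
    intro htop
    have h1 : (1 : bigHecke M) ∈ J := by rw [htop]; exact Submodule.mem_top
    rw [hJ, mem_qIdeal] at h1
    obtain ⟨n, hn⟩ := hg₀
    exact hn (h1 n)
  obtain ⟨Mx, hMmax, hJM⟩ := Ideal.exists_le_maximal J hJne
  have hMprime : Mx.IsPrime := hMmax.isPrime
  have hcomap : 𝔪 = Mx.comap (algebraMap (integralClosure ℤ ℂ) (bigHecke M)) := by
    apply hmax.eq_of_le (Ideal.comap_ne_top _ hMprime.ne_top)
    intro c hc
    apply hJM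
    rw [hJ, mem_qIdeal]
    intro n
    change qCoeff ⇑((c : ℂ) • g₀) n ∈ S
    rw [qCoeff_smul]
    exact h𝔪 c hc n
  obtain ⟨g, hg0, hg⟩ := exists_common_eigenvector (K := ℂ)
    (V := CuspForm (Gamma0 M) 2)
    (A := bigHecke M) (algebraMap (integralClosure ℤ ℂ) ℂ) (bigHecke M).val.toRingHom
    (algebraMap (integralClosure ℤ ℂ) (bigHecke M)) (fun c => rfl) Mx
    (fun t ht => by
      have : t = 0 := Subtype.ext ht
      rw [this]; exact Mx.zero_mem)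
  have key : ∀ ℓ : ℕ, ∃ μ : integralClosure ℤ ℂ, ℓ.Prime →
      (∀ (hℓ : ℓ.Prime) (hℓN : ¬ ℓ ∣ M), CuspForm.heckeTLin 2 hℓ hℓN g = (μ : ℂ) • g ∧
        (ℓ ∈ G → μ - ((a ℓ : ℤ) : integralClosure ℤ ℂ) ∈ 𝔪)) ∧
      (∀ hℓN : ℓ ∣ M, CuspForm.heckeULin 2 hℓN g = (μ : ℂ) • g) := by
    intro ℓ
    by_cases hℓ : ℓ.Prime
    · by_cases hℓN : ℓ ∣ M
      · have hmem : CuspForm.heckeULin 2 hℓN ∈ bigHecke M :=
          Algebra.subset_adjoin (CuspForm.heckeULin_mem_heckeGenerators hℓ hℓN (Set.notMem_empty _))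
        obtain ⟨μ, hμ, -⟩ := hg ⟨_, hmem⟩ (fun ν hν =>
          ⟨⟨ν, isIntegral_eigenvalue_U hℓ hℓN hν⟩, rfl⟩)
        exact ⟨μ, fun _ => ⟨fun _ hℓN' => absurd hℓN hℓN', fun _ => hμ⟩⟩
      · have hmem : CuspForm.heckeTLin 2 hℓ hℓN ∈ bigHecke M :=
          Algebra.subset_adjoin (CuspForm.heckeTLin_mem_heckeGenerators hℓ hℓN (Set.notMem_empty _))
        obtain ⟨μ, hμ, hμM⟩ := hg ⟨_, hmem⟩ (fun ν hν =>
          ⟨⟨ν, isIntegral_eigenvalue_T hℓ hℓN hν⟩, rfl⟩)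
        refine ⟨μ, fun _ => ⟨fun _ _ => ⟨hμ, fun hℓS => ?_⟩, fun hℓN' => absurd hℓN' hℓN⟩⟩
        -- the congruence
        have hTJ : (⟨_, hmem⟩ : bigHecke M) -
            algebraMap (integralClosure ℤ ℂ) (bigHecke M) ((a ℓ : ℤ) : integralClosure ℤ ℂ) ∈ J := by
          rw [hJ, mem_qIdeal]
          intro n
          change qCoeff ⇑(CuspForm.heckeTLin 2 hℓ hℓN g₀ -
            (((a ℓ : ℤ) : integralClosure ℤ ℂ) : ℂ) • g₀) n ∈ S
          rw [sub_eq_add_neg (CuspForm.heckeTLin 2 hℓ hℓN g₀), ← _root_.neg_smul, qCoeff_add, qCoeff_smul,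
            qCoeff_heckeTLin]
          have h1 := heig ℓ hℓ hℓN hℓS n
          by_cases hd : ℓ ∣ n
          · simp only [if_pos hd] at h1 ⊢
            convert h1 using 1
            norm_num
            ring
          · simp only [if_neg hd] at h1 ⊢
            convert h1 using 1
            norm_num
            ring
        have h2 := Mx.sub_mem (hJM hTJ) hμM
        rw [sub_sub_sub_cancel_left, ← map_sub] at h2
        rw [hcomap]
        exact h2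
    · exact ⟨0, fun h => absurd h hℓ⟩
  choose μ hμ using key
  obtain ⟨f, hf, hfμ⟩ := exists_normalizedEigenform_of_eigenvector g hg0 (fun ℓ => (μ ℓ : ℂ))
    (fun ℓ hℓ hℓN => ((hμ ℓ hℓ).1 hℓ hℓN).1) (fun ℓ hℓ hℓN => (hμ ℓ hℓ).2 hℓN)
  exact ⟨f, hf, fun ℓ hℓ hℓN hℓS => ⟨μ ℓ, (hfμ ℓ hℓ).symm, ((hμ ℓ hℓ).1 hℓ hℓN).2 hℓS⟩⟩

theorem outq_qCoeff_zero (n : ℕ) : qCoeff ⇑(0 : CuspForm (Gamma0 N) 2) n = 0 := by
  have := qCoeff_smul (0 : ℂ) (0 : CuspForm (Gamma0 N) 2) n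
  rwa [zero_smul, zero_mul] at this

theorem outq_qCoeff_sum {ι : Type*} (s : Finset ι) (d : ι → ℂ) (f : ι → CuspForm (Gamma0 N) 2)
    (n : ℕ) : qCoeff ⇑(∑ i ∈ s, d i • f i) n = ∑ i ∈ s, d i * qCoeff (f i) n := by
  classical
  induction s using Finset.induction_on with
  | empty => simpa using outq_qCoeff_zero (N := N) n
  | insert x s hx ih => rw [Finset.sum_insert hx, Finset.sum_insert hx, qCoeff_add, qCoeff_smul, ih]

/-- the maximal ideal as a module of complex numbers -/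
def outqS (𝔪 : Ideal (integralClosure ℤ ℂ)) : Submodule (integralClosure ℤ ℂ) ℂ :=
  Submodule.map (Algebra.linearMap (integralClosure ℤ ℂ) ℂ) 𝔪

theorem mem_outqS {𝔪 : Ideal (integralClosure ℤ ℂ)} {z : ℂ} :
    z ∈ outqS 𝔪 ↔ ∃ c ∈ 𝔪, (c : ℂ) = z := Iff.rfl

theorem intCast_mem_outqS {p : ℕ} (hp : p.Prime) {𝔪 : Ideal (integralClosure ℤ ℂ)}
    (hmax : 𝔪.IsMaximal) (hpm : (p : integralClosure ℤ ℂ) ∈ 𝔪) (z : ℤ) :
    (z : ℂ) ∈ outqS 𝔪 ↔ (p : ℤ) ∣ z := by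
  rw [← intCast_mem_iff hp hmax hpm, mem_outqS]
  constructor
  · rintro ⟨c, hc, hcz⟩
    have : c = (z : integralClosure ℤ ℂ) := Subtype.ext (by rw [hcz]; simp)
    rwa [← this]
  · intro h
    exact ⟨_, h, by simp⟩

/-- the core of `outq`: descent of the eigenvector to `𝔽_p` by a linear form, then `top_outq` -/
theorem outq_core {p M : ℕ} [NeZero M] (hp : p.Prime)
    (𝔪 : Ideal (integralClosure ℤ ℂ)) (hmax : 𝔪.IsMaximal) (hpm : (p : integralClosure ℤ ℂ) ∈ 𝔪)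
    {k : Type*} [Field k] [CharP k p] (G : Set ℕ) (a : ℕ → ℤ) {m : ℕ}
    (f : Fin m → CuspForm (Gamma0 M) 2) (af : Fin m → ℕ → ℤ) (c : Fin m → k)
    (haf : ∀ i n, (af i n : ℂ) = qCoeff (f i) n)
    (hne : ∃ n, ∑ i, c i * (af i n : k) ≠ 0)
    (heig : ∀ ℓ : ℕ, ℓ.Prime → ¬ ℓ ∣ M → ℓ ∈ G → ∀ n : ℕ,
      (∑ i, c i * (af i (ℓ * n) : k)) +
          (if ℓ ∣ n then (ℓ : k) * ∑ i, c i * (af i (n / ℓ) : k) else 0) =
        (a ℓ : k) * ∑ i, c i * (af i n : k)) :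
    ∃ g : CuspForm (Gamma0 M) 2, g.IsNormalizedEigenform ∧
      (∀ ℓ : ℕ, ℓ.Prime → ¬ ℓ ∣ M → ℓ ∈ G → ∃ α : integralClosure ℤ ℂ, (α : ℂ) = qCoeff g ℓ ∧
          α - ((a ℓ : ℤ) : integralClosure ℤ ℂ) ∈ 𝔪) := by
  classical
  have : Fact p.Prime := ⟨hp⟩
  let _ : Algebra (ZMod p) k := ZMod.algebra k p
  obtain ⟨n₀, hn₀⟩ := hne
  obtain ⟨lam, hlam⟩ : ∃ lam : Module.Dual (ZMod p) k, lam (∑ i, c i * (af i n₀ : k)) ≠ 0 := by
    by_contra hcon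
    push Not at hcon
    exact hn₀ ((Module.forall_dual_apply_eq_zero_iff (ZMod p) _).mp hcon)
  have hmulz : ∀ (x : k) (z : ℤ), lam (x * (z : k)) = (z : ZMod p) * lam x := by
    intro x z
    have : x * (z : k) = (z : ZMod p) • x := by
      rw [Algebra.smul_def, map_intCast, mul_comm]
    rw [this, map_smul, smul_eq_mul]
  let d : Fin m → ℤ := fun i => ((lam (c i)).val : ℤ)
  have hd : ∀ i, ((d i : ℤ) : ZMod p) = lam (c i) := fun i => by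
    simp only [d, Int.cast_natCast, ZMod.natCast_zmod_val]
  let b : ℕ → ℤ := fun n => ∑ i, d i * af i n
  have hb : ∀ n, ((b n : ℤ) : ZMod p) = lam (∑ i, c i * (af i n : k)) := by
    intro n
    simp only [b]
    rw [map_sum, Int.cast_sum]
    refine Finset.sum_congr rfl fun i _ => ?_
    rw [hmulz, Int.cast_mul, hd, mul_comm]
  let g₀ : CuspForm (Gamma0 M) 2 := ∑ i, (d i : ℂ) • f i
  have hg₀ : ∀ n, qCoeff g₀ n = (b n : ℂ) := by
    intro n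
    simp only [g₀, b]
    rw [outq_qCoeff_sum, Int.cast_sum]
    refine Finset.sum_congr rfl fun i _ => ?_
    rw [← haf, Int.cast_mul]
  have hS := intCast_mem_outqS hp hmax hpm
  refine top_outq 𝔪 hmax (outqS 𝔪) g₀ ⟨n₀, ?_⟩ ?_ G a ?_
  · rw [hg₀, hS, ← ZMod.intCast_zmod_eq_zero_iff_dvd, hb]
    exact hlam
  · intro x hx n
    rw [hg₀, mem_outqS]
    exact ⟨x * (b n : integralClosure ℤ ℂ), 𝔪.mul_mem_right _ hx, by simp⟩
  · intro ℓ hℓ hℓM hℓG n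
    have h1 := congrArg lam (heig ℓ hℓ hℓM hℓG n)
    have hmulz' : ∀ (x : k) (z : ℤ), lam ((z : k) * x) = (z : ZMod p) * lam x := by
      intro x z
      rw [mul_comm, hmulz]
    rw [hg₀, hg₀, hg₀]
    by_cases hdv : ℓ ∣ n
    · simp only [if_pos hdv] at h1 ⊢
      have h2 : ((ℓ : ℕ) : k) = ((ℓ : ℤ) : k) := by simp
      rw [map_add, h2, hmulz', hmulz', ← hb, ← hb, ← hb] at h1
      have h3 : ((b (n * ℓ) : ℂ) + (ℓ : ℂ) * (b (n / ℓ) : ℂ) - (a ℓ : ℂ) * (b n : ℂ)) =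
          ((b (n * ℓ) + (ℓ : ℤ) * b (n / ℓ) - a ℓ * b n : ℤ) : ℂ) := by push_cast; ring
      rw [h3, hS, ← ZMod.intCast_zmod_eq_zero_iff_dvd]
      push_cast
      rw [mul_comm n ℓ]
      push_cast at h1
      rw [h1, sub_self]
    · simp only [if_neg hdv, add_zero] at h1 ⊢
      rw [hmulz', ← hb, ← hb] at h1
      have h3 : ((b (n * ℓ) : ℂ) - (a ℓ : ℂ) * (b n : ℂ)) =
          ((b (n * ℓ) - a ℓ * b n : ℤ) : ℂ) := by push_cast; ring
      rw [h3, hS, ← ZMod.intCast_zmod_eq_zero_iff_dvd]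
      push_cast
      rw [mul_comm n ℓ, h1, sub_self]

/-- **[S44/TOP-OUTQ]** `RegOut` gives the eigenform of level `M1` -/
theorem outq {q : Nat.Primes} {M1 : ℕ} [NeZero M1] [NeZero (q : ℕ)]
    (𝔪 : Ideal (integralClosure ℤ ℂ)) (hmax : 𝔪.IsMaximal)
    (hpm : ((q : ℕ) : integralClosure ℤ ℂ) ∈ 𝔪) (S : Set ℕ) (a : ℕ → ℤ) (H : RegOut q M1 S a) :
    ∃ g : CuspForm (Gamma0 M1) 2, g.IsNormalizedEigenform ∧
      (∀ ℓ : ℕ, ℓ.Prime → ¬ ℓ ∣ M1 → ℓ ≠ (q : ℕ) → ℓ ∈ S →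
        ∃ α : integralClosure ℤ ℂ, (α : ℂ) = qCoeff g ℓ ∧
          α - ((a ℓ : ℤ) : integralClosure ℤ ℂ) ∈ 𝔪) := by
  obtain ⟨m, f, af, c, haf, hne, heig⟩ := H
  have : CharP (Fermat.Agent.S18.kA (Fermat.Agent.S33.AA q)) (q : ℕ) :=
    Fermat.Agent.ES.Alg.charP_kA q.2 (Fermat.Agent.S55.D.liesOverPrime_primeLocalPlace q)
  obtain ⟨g, hg, hc⟩ := outq_core q.2 𝔪 hmax hpm {ℓ | ℓ ∈ S ∧ ℓ ≠ (q : ℕ)} a f af c haf hne
    (fun ℓ hℓ hℓM hℓG n => heig ℓ hℓ (by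
      intro hd
      rcases (Nat.Prime.dvd_mul hℓ).mp hd with h | h
      · exact hℓM h
      · exact hℓG.2 ((Nat.prime_dvd_prime_iff_eq hℓ q.2).mp h)) hℓG.1 n)
  exact ⟨g, hg, fun ℓ hℓ hℓM hℓq hℓS => hc ℓ hℓ hℓM ⟨hℓS, hℓq⟩⟩

end Fermat.Agent.S44.Top
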