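import Fermat.Agent.S41.Top.Out

/-!
# S44/TOP : from a lattice vector `y ∈ XN M \ p XN M`, eigen mod `p`, to an eigenform of level `M`
(copy of `S41/Top/Out.lean` without the condition at `q`)
-/

set_option autoImplicit false

open UpperHalfPlane ModularForm ModularFormClass ModularCurve CongruenceSubgroup
open ModularCurve.Period Fermat.Agent.S16.Lower Fermat.Agent.S29 Fermat.Agent.S29.HeckeXAux
open Fermat.Agent.S49 Fermat.Agent.S41 Fermat.Agent.S41.Top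
open scoped MatrixGroups

noncomputable section

namespace Fermat.Agent.S44.Top

theorem top_out0 {M p : ℕ} [NeZero M] (hp : p.Prime)
    (𝔪 : Ideal (integralClosure ℤ ℂ)) (hmax : 𝔪.IsMaximal) (hpm : (p : integralClosure ℤ ℂ) ∈ 𝔪)
    (y : XN M) (hy : ¬ DivP p y)
    (S : Set ℕ) (a : ℕ → ℤ)
    (hS : ∀ (ℓ : ℕ) (hℓ : ℓ.Prime) (hN : ¬ ℓ ∣ M), ℓ ∈ S → DivP p (heckeX M hℓ hN y - a ℓ • y)) :
    ∃ g : CuspForm (Gamma0 M) 2, g.IsNormalizedEigenform ∧
      (∀ ℓ : ℕ, ℓ.Prime → ¬ ℓ ∣ M → ℓ ∈ S → ∃ α : integralClosure ℤ ℂ, (α : ℂ) = qCoeff g ℓ ∧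
          α - ((a ℓ : ℤ) : integralClosure ℤ ℂ) ∈ 𝔪) := by
  classical
  have := Fermat.Agent.S21.finiteDimensional_cuspForm M
  obtain ⟨f₀, g₀, h₀⟩ := exists_pair (castC_mem y.2)
  have hint := intCast_mem_iff hp hmax hpm
  set J := valsIdeal 𝔪 (f₀, g₀) with hJ
  have hJne : J ≠ ⊤ := by
    intro htop
    have h1 : (1 : bigHecke M) ∈ J := by rw [htop]; exact Submodule.mem_top
    rw [hJ, mem_valsIdeal] at h1
    have h2 : ValsIn 𝔪 (castC M (y : Additive (Gamma0 M) →+ ℤ)) := by rw [← h₀]; exact h1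
    apply hy
    apply divP_of_forall_dvd hp.ne_zero
    intro γ
    obtain ⟨c, hc, hc'⟩ := h2 γ
    rw [← hint]
    have : c = (((y : Additive (Gamma0 M) →+ ℤ) γ : ℤ) : integralClosure ℤ ℂ) := by
      apply Subtype.ext
      rw [hc', castC_apply]
      simp
    rwa [← this]
  obtain ⟨Mx, hMmax, hJM⟩ := Ideal.exists_le_maximal J hJne
  have hMprime : Mx.IsPrime := hMmax.isPrime
  have hcomap : 𝔪 = Mx.comap (algebraMap (integralClosure ℤ ℂ) (bigHecke M)) := by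
    apply hmax.eq_of_le (Ideal.comap_ne_top _ hMprime.ne_top)
    intro c hc
    apply hJM
    rw [hJ, mem_valsIdeal]
    have h1 : pp ((algebraMap (integralClosure ℤ ℂ) (bigHecke M) c : bigHecke M) :
        Module.End ℂ (CuspForm (Gamma0 M) 2)) (f₀, g₀) =
        (c : ℂ) • castC M (y : Additive (Gamma0 M) →+ ℤ) := by
      rw [← h₀, ← map_smul]
      rfl
    rw [h1]
    intro γ
    refine ⟨c * (((y : Additive (Gamma0 M) →+ ℤ) γ : ℤ) : integralClosure ℤ ℂ),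
      𝔪.mul_mem_right _ hc, ?_⟩
    show _ = (c : ℂ) * castC M (y : Additive (Gamma0 M) →+ ℤ) γ
    rw [castC_apply]
    simp
  obtain ⟨g, hg0, hg⟩ := exists_common_eigenvector (K := ℂ)
    (V := CuspForm (Gamma0 M) 2)
    (A := bigHecke M) (algebraMap (integralClosure ℤ ℂ) ℂ) (bigHecke M).val.toRingHom
    (algebraMap (integralClosure ℤ ℂ) (bigHecke M)) (fun c => rfl) Mx
    (fun t ht => by
      have : t = 0 := Subtype.ext ht
      rw [this]; exact Mx.zero_mem)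
  have key : ∀ ℓ : ℕ, ∃ μ : integralClosure ℤ ℂ, ℓ.Prime →
      (∀ (hℓ : ℓ.Prime) (hℓN : ¬ ℓ ∣ M), CuspForm.heckeTLin 2 hℓ hℓN g = (μ : ℂ) • g ∧
        (ℓ ∈ S → μ - ((a ℓ : ℤ) : integralClosure ℤ ℂ) ∈ 𝔪)) ∧
      (∀ hℓN : ℓ ∣ M, CuspForm.heckeULin 2 hℓN g = (μ : ℂ) • g) := by
    intro ℓ
    by_cases hℓ : ℓ.Prime
    · by_cases hℓN : ℓ ∣ M
      · have hmem : CuspForm.heckeULin 2 hℓN ∈ bigHecke M :=
          Algebra.subset_adjoin (CuspForm.heckeULin_mem_heckeGenerators hℓ hℓN (Set.notMem_empty _))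
        obtain ⟨μ, hμ, -⟩ := hg ⟨_, hmem⟩ (fun ν hν =>
          ⟨⟨ν, isIntegral_eigenvalue_U hℓ hℓN hν⟩, rfl⟩)
        exact ⟨μ, fun _ => ⟨fun _ hℓN' => absurd hℓN hℓN', fun _ => hμ⟩⟩
      · have hmem : CuspForm.heckeTLin 2 hℓ hℓN ∈ bigHecke M :=
          Algebra.subset_adjoin (CuspForm.heckeTLin_mem_heckeGenerators hℓ hℓN (Set.notMem_empty _))
        obtain ⟨μ, hμ, hμM⟩ := hg ⟨_, hmem⟩ (fun ν hν =>
          ⟨⟨ν, isIntegral_eigenvalue_T hℓ hℓN hν⟩, rfl⟩)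
        refine ⟨μ, fun _ => ⟨fun _ _ => ⟨hμ, fun hℓS => ?_⟩, fun hℓN' => absurd hℓN' hℓN⟩⟩
        -- the congruence
        have hTJ : (⟨_, hmem⟩ : bigHecke M) -
            algebraMap (integralClosure ℤ ℂ) (bigHecke M) ((a ℓ : ℤ) : integralClosure ℤ ℂ) ∈ J := by
          rw [hJ, mem_valsIdeal]
          obtain ⟨z, hz⟩ := hS ℓ hℓ hℓN hℓS
          have h1 : pp (((⟨_, hmem⟩ : bigHecke M) -
              algebraMap (integralClosure ℤ ℂ) (bigHecke M) ((a ℓ : ℤ) : integralClosure ℤ ℂ) :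
              bigHecke M) : Module.End ℂ (CuspForm (Gamma0 M) 2)) (f₀, g₀) =
              castC M (((p : ℤ) • z : XN M) : Additive (Gamma0 M) →+ ℤ) := by
            rw [← hz]
            have h2 := castC_heckeX hℓ hℓN y f₀ g₀ h₀
            have h3 : castC M ((heckeX M hℓ hℓN y - a ℓ • y : XN M) : Additive (Gamma0 M) →+ ℤ) =
                castC M (heckeX M hℓ hℓN y : Additive (Gamma0 M) →+ ℤ) -
                  ((a ℓ : ℤ) : ℂ) • castC M (y : Additive (Gamma0 M) →+ ℤ) := by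
              refine AddMonoidHom.ext fun γ => ?_
              simp [castC_apply]
            rw [h3, ← h2, ← h₀, ← map_smul, ← map_sub]
            congr 1
          rw [h1]
          intro γ
          refine ⟨(((p : ℤ) * (z : Additive (Gamma0 M) →+ ℤ) γ : ℤ) : integralClosure ℤ ℂ),
            (hint _).2 (dvd_mul_right _ _), ?_⟩
          rw [castC_apply]
          simp
        have h2 := Mx.sub_mem (hJM hTJ) hμM
        rw [sub_sub_sub_cancel_left, ← map_sub] at h2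
        rw [hcomap]
        exact h2
    · exact ⟨0, fun h => absurd h hℓ⟩
  choose μ hμ using key
  obtain ⟨f, hf, hfμ⟩ := exists_normalizedEigenform_of_eigenvector g hg0 (fun ℓ => (μ ℓ : ℂ))
    (fun ℓ hℓ hℓN => ((hμ ℓ hℓ).1 hℓ hℓN).1) (fun ℓ hℓ hℓN => (hμ ℓ hℓ).2 hℓN)
  exact ⟨f, hf, fun ℓ hℓ hℓN hℓS => ⟨μ ℓ, (hfμ ℓ hℓ).symm, ((hμ ℓ hℓ).1 hℓ hℓN).2 hℓS⟩⟩

end Fermat.Agent.S44.Top
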