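import Fermat.Agent.S44.Top.Kum
import Fermat.Agent.S44.Top.Out0

/-!
# S44/TOP : `SpOut` gives the eigenform of level `M1`          (helper10)
-/

set_option autoImplicit false
set_option synthInstance.maxHeartbeats 400000

open HahnSeries ModularCurve AlgebraicCurve Fermat.Agent.S24 Fermat.Agent.S29 Fermat.Agent.S18
  Fermat.Agent.ES Fermat.Agent.ES.Alg Fermat.Agent.S34.Mod Fermat.Agent.S05 Fermat.Agent.S55.B ExtCitation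
  Fermat.Agent.S33 CongruenceSubgroup Fermat.Agent.S41 Fermat.Agent.S31
open CuspForm ModularFormClass
open Fermat.Agent.S55 (Dq Iq)

noncomputable section

namespace Fermat.Agent.S44.Top

theorem spout {q : Nat.Primes} {M1 : ℕ} [NeZero M1] [NeZero (q : ℕ)]
    (𝔪 : Ideal (integralClosure ℤ ℂ)) (hmax : 𝔪.IsMaximal)
    (hpm : ((q : ℕ) : integralClosure ℤ ℂ) ∈ 𝔪) (S : Set ℕ) (a : ℕ → ℤ) (H : SpOut q M1 S a) :
    ∃ g : CuspForm (Gamma0 M1) 2, g.IsNormalizedEigenform ∧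
      (∀ ℓ : ℕ, ℓ.Prime → ¬ ℓ ∣ M1 → ℓ ≠ (q : ℕ) → ℓ ∈ S →
        ∃ α : integralClosure ℤ ℂ, (α : ℂ) = qCoeff g ℓ ∧
          α - ((a ℓ : ℤ) : integralClosure ℤ ℂ) ∈ 𝔪) := by
  have hq0 : (q : ℕ) ≠ 0 := q.2.ne_zero
  obtain ⟨u, hP, hnp, heig⟩ := H
  obtain ⟨c, hk⟩ := Fermat.Agent.S30.Surj.exists_isKummer_of_pdiv M1 (q : ℕ) hq0 u hP
  have hD := desc_holds M1 (q : ℕ) hq0
  have hc : ¬ DivP (q : ℕ) c := fun hd => hnp (isPow_of_isKummer_divP hq0 hk hd)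
  obtain ⟨g, hg, hcg⟩ := top_out0 q.2 𝔪 hmax hpm c hc {ℓ | ℓ ∈ S ∧ ℓ ≠ (q : ℕ)} a (by
    intro ℓ hℓ hN hS
    have : NeZero ℓ := ⟨hℓ.ne_zero⟩
    have hN' : ¬ ℓ ∣ M1 * (q : ℕ) := by
      intro hd
      rcases (Nat.Prime.dvd_mul hℓ).mp hd with h | h
      · exact hN h
      · exact hS.2 ((Nat.prime_dvd_prime_iff_eq hℓ q.2).mp h)
    obtain ⟨r, hr⟩ := heig ℓ hℓ hN' hS.1
    have hk3 := k3_holds' M1 (q : ℕ) ℓ hℓ hN c (heckeX M1 hℓ hN c) u c.2 hk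
      (isTransfer_heckeX M1 hℓ hN c)
    have e1 := Theta_eq hq0 hD _ hk3
    have e0 := Theta_eq hq0 hD _ hk
    have e2 : (cl (Tl M1 ℓ u) hk3.ne_zero : WW M1 (q : ℕ)) =
        cl (u ^ (a ℓ)) (zpow_ne_zero _ hP.1) := cl_eq_of_eq_mul hq0 _ _ hr
    have e3 : Theta hq0 hD (heckeX M1 hℓ hN c - a ℓ • c) = 0 := by
      rw [map_sub, map_zsmul, e1, e0, e2, cl_zpow]
      exact sub_self (G := WW M1 (q : ℕ)) _
    obtain ⟨c', hc'⟩ := Theta_ker hq0 hD _ e3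
    exact ⟨c', by rw [hc', natCast_zsmul]⟩)
  exact ⟨g, hg, fun ℓ hℓ hℓM hℓq hℓS => hcg ℓ hℓ hℓM ⟨hℓS, hℓq⟩⟩

end Fermat.Agent.S44.Top
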