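import Fermat.Agent.S44.Top.New
import Fermat.Agent.S44.Top.Kum
import Fermat.Agent.S44.Top.FreyI
import Fermat.Agent.S44.Top.OutQ
import Fermat.Agent.S44.Top.SpOut
import Fermat.Agent.S44.Geo.Final
import Fermat.Agent.S41.Eis.Two

/-!
# S44/TOP : assembly          (helper10)

`new_case` : a primitive `p`-new eigenvector mod `p` of level `M p` gives an eigenform of level `M` (through `geo_final`).
`result_main` : the statement of S44.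
-/

set_option autoImplicit false
set_option synthInstance.maxHeartbeats 400000

open HahnSeries ModularCurve AlgebraicCurve Fermat.Agent.S24 Fermat.Agent.S29 Fermat.Agent.S18
  Fermat.Agent.ES Fermat.Agent.ES.Alg Fermat.Agent.S34.Mod Fermat.Agent.S05 Fermat.Agent.S55.B ExtCitation
  Fermat.Agent.S33 CongruenceSubgroup Fermat.Agent.S41 Fermat.Agent.S31
open WeierstrassCurve WeierstrassCurve.Affine WeierstrassCurve.Affine.Point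
open CuspForm ModularFormClass
open Fermat.Agent.S55 (Dq Iq)

noncomputable section

namespace Fermat.Agent.S44.Top

theorem frey_isElliptic (P : FreyPackage) : P.freyCurve.IsElliptic := by
  refine ⟨isUnit_iff_ne_zero.2 ?_⟩
  intro h
  apply S13.frey_Δ_ne_zero P
  show (P.freyCurve.map (algebraMap ℚ (AlgebraicClosure ℚ))).Δ = 0
  rw [map_Δ, h, _root_.map_zero]

theorem new_case (P : FreyPackage) (hpabc : (P.p : ℤ) ∣ P.a * P.b * P.c)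
    (hirr : GaloisRepIsIrreducible (K := AlgebraicClosure ℚ) ℚ P.freyCurve P.p)
    (M : ℕ) [NeZero M] [NeZero (M * P.p)] (hpM : ¬ P.p ∣ M)
    (W : WeierstrassCurve ℤ) (hW : W.IsIntegralModelOf P.freyCurve)
    (𝔪 : Ideal (integralClosure ℤ ℂ)) (hmax : 𝔪.IsMaximal) (hpm : (P.p : integralClosure ℤ ℂ) ∈ 𝔪)
    (D : Deg M P.p P.pp hpM) (x₀ : XN (M * P.p)) (hx₀ : ¬ DivP P.p x₀) (hE : IsEig W P.p (M * P.p) x₀)
    (h1 : DivP P.p (D.b1 x₀)) (h2 : DivP P.p (D.b2 x₀)) :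
    ∃ g : CuspForm (Gamma0 M) 2, g.IsNormalizedEigenform ∧
      ∀ ℓ : ℕ, ℓ.Prime → W.IsGoodPrimeFor ℓ → ¬ ℓ ∣ M → ℓ ≠ P.p →
        ∃ α : integralClosure ℤ ℂ, (α : ℂ) = qCoeff g ℓ ∧
          α - ((W.apOfModel ℓ : ℤ) : integralClosure ℤ ℂ) ∈ 𝔪 := by
  have hell := frey_isElliptic P
  have hFact : Fact P.p.Prime := ⟨P.pp⟩
  have hNZ : NeZero P.p := ⟨P.hp0⟩
  have hq5 : 5 ≤ P.p := P.hp5
  have hq2 : P.p ≠ 2 := by omega
  have hq0 : P.p ≠ 0 := P.hp0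
  have hc : Nat.Coprime P.p M := (Nat.Prime.coprime_iff_not_dvd P.pp).2 hpM
  have hB : M * P.p ≠ 0 := NeZero.ne _
  have hD : Desc (M * P.p) P.p := desc_holds (M * P.p) P.p hq0
  have hgood := goodU_uK (q := ⟨P.p, P.pp⟩) (W := W) hc hpM D hD x₀ hE h1 h2
  have hx : Theta hq0 hD x₀ ∈ VG ⟨P.p, P.pp⟩ M hc {ℓ | W.IsGoodPrimeFor ℓ ∧ ℓ ≠ P.p}
      (fun ℓ => W.apOfModel ℓ) := ⟨_, hgood, Theta_apply hq0 hD x₀⟩
  have hx0 : Theta hq0 hD x₀ ≠ 0 := by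
    intro h
    obtain ⟨c', hc'⟩ := Theta_ker hq0 hD x₀ h
    exact hx₀ ⟨c', by rw [hc', natCast_zsmul]⟩
  obtain ⟨V, hV, hVG, hfin, hnt, hirrV, hlevel⟩ := exists_V (q := ⟨P.p, P.pp⟩) hx hx0
  have hC : Cmp (galoisRepModuleEnd (S := ℚ) (K := AlgebraicClosure ℚ) P.freyCurve.toAffine P.p)
      (rhoV V hV) (epsP P.p) := by
    refine cmp_of_ES P.freyCurve hW hq2 hirr (rhoV V hV) hlevel hirrV (M * P.p) hB ?_
    intro l hl hlB hlp hlg A hA σ hσ v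
    apply Subtype.ext
    have := VG_ES (hVG v v.2) l hl hlB ⟨hlg, hlp⟩ A hA σ hσ
    rw [Int.cast_smul_eq_zsmul, Nat.cast_smul_eq_nsmul]
    exact this
  obtain ⟨u, t, H⟩ := exists_newHyp (q := ⟨P.p, P.pp⟩) hq5 _ V hV hVG hC
    (fun s hs => (Id.hasFix_torsion_iff P.freyCurve P.p s).2 (frey_inertia_fix P hpabc hs))
    (fun ζ c0 hζ hc0 hpow hL => frey_ntr P hpabc ζ c0 hζ hc0 hpow (fun σ hσ hσζ => by
      rw [hL σ hσ hσζ]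
      exact Id.torsion_eq_one_iff P.freyCurve P.p σ))
  obtain ⟨l, hl, hlg, hlB, hlp, hla⟩ := Eis.exists_prime_ap_ne P.freyCurve hW P.pp hq2 hirr
    (6 * (M * P.p)) (mul_ne_zero (by norm_num) hB)
  rcases geo_final (q := ⟨P.p, P.pp⟩) hq5 hc {ℓ | W.IsGoodPrimeFor ℓ ∧ ℓ ≠ P.p}
      (fun ℓ => W.apOfModel ℓ) ⟨l, hl, hlB, ⟨hlg, hlp⟩, hla⟩ H with h | h | h
  · exact (uc2_false hq2 hc H h).elim
  · obtain ⟨g, hg, hcg⟩ := outq (q := ⟨P.p, P.pp⟩) 𝔪 hmax hpm _ _ h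
    exact ⟨g, hg, fun ℓ hℓ hgd hM hℓp => hcg ℓ hℓ hM hℓp ⟨hgd, hℓp⟩⟩
  · obtain ⟨g, hg, hcg⟩ := spout (q := ⟨P.p, P.pp⟩) 𝔪 hmax hpm _ _ h
    exact ⟨g, hg, fun ℓ hℓ hgd hM hℓp => hcg ℓ hℓ hM hℓp ⟨hgd, hℓp⟩⟩

/-- **S44** -/
theorem result_main (P : FreyPackage) {N : ℕ} (hcond : P.IsConductorLevel N) (hpN : P.p ∣ N)
    (hirr : GaloisRepIsIrreducible (K := AlgebraicClosure ℚ) ℚ P.freyCurve P.p)
    (hmod : P.ModularRepOfLevel N) :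
    ∃ M : ℕ, M ∣ N ∧ ¬ P.p ∣ M ∧ P.ModularRepOfLevel M := by
  have hpabc := hcond.p_dvd_abc hpN
  obtain ⟨M, rfl⟩ : ∃ M, N = M * P.p := ⟨N / P.p, (Nat.div_mul_cancel hpN).symm⟩
  have hMp : M * P.p ≠ 0 := hcond.pos.ne'
  have hM0 : M ≠ 0 := fun h => hMp (by rw [h, zero_mul])
  have : NeZero M := ⟨hM0⟩
  have : NeZero (M * P.p) := ⟨hMp⟩
  have hpM : ¬ P.p ∣ M := by
    rintro ⟨k, rfl⟩
    apply hcond.sq_not_dvd P.pp
    exact ⟨k, by ring⟩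
  obtain ⟨f, W, 𝔪, hf, hW, hmax, hpm, hcong⟩ := hmod
  obtain ⟨x₀, hx₀, hE⟩ := exists_isEig_of_eigenform P.pp f hf 𝔪 hmax hpm hcong
  obtain ⟨D⟩ := Hecke.nonempty_deg M P.p P.pp hpM
  refine ⟨M, Dvd.intro _ rfl, hpM, ?_⟩
  by_cases h1 : DivP P.p (D.b1 x₀)
  · by_cases h2 : DivP P.p (D.b2 x₀)
    · obtain ⟨g, hg, hc⟩ := new_case P hpabc hirr M hpM W hW 𝔪 hmax hpm D x₀ hx₀ hE h1 h2
      exact ⟨g, W, 𝔪, hg, hW, hmax, hpm, hc⟩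
    · obtain ⟨g, hg, hc⟩ := exists_eigenform_of_isEig P.pp 𝔪 hmax hpm _ h2 (hE.b2 D)
      exact ⟨g, W, 𝔪, hg, hW, hmax, hpm, hc⟩
  · obtain ⟨g, hg, hc⟩ := exists_eigenform_of_isEig P.pp 𝔪 hmax hpm _ h1 (hE.b1 D)
    exact ⟨g, W, 𝔪, hg, hW, hmax, hpm, hc⟩

end Fermat.Agent.S44.Top
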