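import Fermat.Agent.S41.Eis.Red

/-!
# S44/TOP-CARD : a Frobenius at `ℓ` fixes a nonzero point of `E[p]` ⟹ `p ∣ a_ℓ(W) - (ℓ + 1)`

Converse of `S41.Eis.exists_fixed_point`.  `P = (x₀, y₀)`, `h(x₀) = 0` so `x₀ ∈ A` (`root_mem`), `y₀ ∈ A`;
`σ x₀ = x₀` gives `res x₀ ^ ℓ = res x₀`, so `res x₀ ∈ 𝔽_ℓ`, the same for `y₀`: a point of `W(𝔽_ℓ)`,
nonzero, killed by `p` (`odd_nsmul_eq_zero_iff`).  Lagrange.
-/

set_option autoImplicit false

open Polynomial WeierstrassCurve WeierstrassCurve.Affine WeierstrassCurve.Affine.Point IsLocalRing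

namespace Fermat.Agent.S44.Top

open Fermat.Agent.S41.Eis

local notation "Qbar" => AlgebraicClosure ℚ
local notation "GQ" => (AlgebraicClosure ℚ ≃ₐ[ℚ] AlgebraicClosure ℚ)

/-- an element of a field of characteristic `l` fixed by the Frobenius comes from `ZMod l` -/
theorem card_exists_zmod {κ : Type*} [Field κ] {l : ℕ} [Fact l.Prime] [CharP κ l] {x : κ}
    (hx : x ^ l = x) : ∃ z : ZMod l, ZMod.castHom (dvd_refl l) κ z = x := by
  let _ : Algebra (ZMod l) κ := (ZMod.castHom (dvd_refl l) κ).toAlgebra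
  have h1 : x ∈ (⊥ : Subfield κ) := (Subfield.mem_bot_iff_pow_eq_self κ l).mpr hx
  rw [Subfield.bot_eq_of_zMod_algebra l] at h1
  obtain ⟨z, hz⟩ := h1
  exact ⟨z, hz⟩

/-- Lagrange: a nonzero point of `W(𝔽_ℓ)` killed by `p` -/
theorem card_dvd_of_point (W : WeierstrassCurve ℤ) {b l : ℕ} (hb : (2 * b + 1).Prime)
    [Fact l.Prime] {x y : ZMod l}
    (h : (W.map (Int.castRingHom (ZMod l))).toAffine.Nonsingular x y)
    (hP : (2 * b + 1) • Point.some x y h = 0) :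
    ((2 * b + 1 : ℕ) : ℤ) ∣ W.apOfModel l - (l + 1) := by
  have h1 : W.apOfModel l - (l + 1) =
      - (Nat.card (W.map (Int.castRingHom (ZMod l))).toAffine.Point : ℤ) := by
    simp only [apOfModel, traceOfFrobenius, reductionMod, WeierstrassCurve.card, Nat.card_zmod]
    ring
  rw [h1, dvd_neg, Int.natCast_dvd_natCast]
  have h2 : addOrderOf (Point.some x y h) = 2 * b + 1 := by
    have h3 := addOrderOf_dvd_of_nsmul_eq_zero hP
    rcases (Nat.dvd_prime hb).mp h3 with h4 | h4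
    · rw [AddMonoid.addOrderOf_eq_one_iff] at h4
      exact absurd h4 (Point.some_ne_zero h)
    · exact h4
  rw [← h2]
  exact addOrderOf_dvd_natCard _

/-- **[S44/TOP-CARD]** -/
theorem dvd_of_fixed_point (W : WeierstrassCurve ℤ) {b l : ℕ} (hb : (2 * b + 1).Prime)
    (hl : l.Prime) (hlp : l ≠ 2 * b + 1) (A : ValuationSubring Qbar) (hA : A.LiesOverPrime l)
    (hgood : W.IsGoodPrimeFor l) (σ : GQ) (hσ : A.IsFrobeniusAt σ l)
    (P : Submodule.torsionBy ℤ ((W.map (Int.castRingHom ℚ)).toAffine⁄Qbar).Point (2 * b + 1 : ℕ))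
    (hP0 : P ≠ 0) (hfix : σ • P = P) :
    ((2 * b + 1 : ℕ) : ℤ) ∣ W.apOfModel l - (l + 1) := by
  have : Fact l.Prime := ⟨hl⟩
  have := redb_charP A hl hA
  let φ : ZMod l →+* ResidueField A := ZMod.castHom (dvd_refl l) (ResidueField A)
  let fK : ℤ →+* Qbar := (algebraMap ℚ Qbar).comp (Int.castRingHom ℚ)
  have hWK : ((W.map (Int.castRingHom ℚ)).toAffine⁄Qbar) = (W.map fK).toAffine := rfl
  obtain ⟨P, hPt⟩ := P
  have hfix' : σ • P = P := congrArg Subtype.val hfix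
  have hP0' : P ≠ 0 := fun h => hP0 (Subtype.ext h)
  rw [Submodule.mem_torsionBy_iff, natCast_zsmul] at hPt
  rcases P with _ | ⟨x0, y0, h0⟩
  · exact absurd rfl hP0'
  have h0' : (W.map fK).toAffine.Nonsingular x0 y0 := h0
  have hPt' : (2 * b + 1) • (Point.some x0 y0 h0' : (W.map fK).toAffine.Point) = 0 := hPt
  rw [DivPoly.odd_nsmul_eq_zero_iff, redb_eval_half] at hPt'
  have hx0A : x0 ∈ A := root_mem W hb hl hlp A hA hPt'
  have heq0 := (redb_equation_iff W fK x0 y0).mp h0'.1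
  have hy0A : y0 ∈ A := by
    refine redb_mem_of_quadratic A ((W.a₁ : A) * ⟨x0, hx0A⟩ + (W.a₃ : A))
      ((⟨x0, hx0A⟩ : A) ^ 3 + (W.a₂ : A) * (⟨x0, hx0A⟩ : A) ^ 2 + (W.a₄ : A) * ⟨x0, hx0A⟩
        + (W.a₆ : A)) ?_
    push_cast
    linear_combination heq0
  rw [algEquiv_smul_def, Point.map_some] at hfix'
  simp only [Point.some.injEq] at hfix'
  obtain ⟨hσx, hσy⟩ := hfix'
  have hσx' : σ x0 = x0 := hσx
  have hσy' : σ y0 = y0 := hσy
  obtain ⟨xb, hxb⟩ : ∃ z : ZMod l, φ z = residue A ⟨x0, hx0A⟩ := by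
    apply card_exists_zmod
    rw [← redb_residue_map hσ ⟨x0, hx0A⟩]
    congr 1
    exact Subtype.ext hσx'
  obtain ⟨yb, hyb⟩ : ∃ z : ZMod l, φ z = residue A ⟨y0, hy0A⟩ := by
    apply card_exists_zmod
    rw [← redb_residue_map hσ ⟨y0, hy0A⟩]
    congr 1
    exact Subtype.ext hσy'
  have eqA : (⟨y0, hy0A⟩ : A) ^ 2 + (W.a₁ : A) * ⟨x0, hx0A⟩ * ⟨y0, hy0A⟩ + (W.a₃ : A) * ⟨y0, hy0A⟩ =
      (⟨x0, hx0A⟩ : A) ^ 3 + (W.a₂ : A) * (⟨x0, hx0A⟩ : A) ^ 2 + (W.a₄ : A) * ⟨x0, hx0A⟩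
        + (W.a₆ : A) := by
    apply Subtype.ext
    push_cast
    exact heq0
  have eqκ := congrArg (residue A) eqA
  simp only [map_add, map_mul, map_pow, map_intCast, ← hxb, ← hyb] at eqκ
  have heqb : (W.map (Int.castRingHom (ZMod l))).toAffine.Equation xb yb := by
    rw [redb_equation_iff]
    apply φ.injective
    simp only [map_add, map_mul, map_pow, map_intCast]
    exact eqκ
  have hΔb : (W.map (Int.castRingHom (ZMod l))).toAffine.Δ ≠ 0 := by
    rw [WeierstrassCurve.map_Δ, eq_intCast, Ne, ZMod.intCast_zmod_eq_zero_iff_dvd]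
    exact hgood
  have hnsb := (Affine.equation_iff_nonsingular_of_Δ_ne_zero hΔb).mp heqb
  refine card_dvd_of_point W hb hnsb ?_
  rw [DivPoly.odd_nsmul_eq_zero_iff, redb_eval_half]
  apply φ.injective
  rw [_root_.map_zero]
  have h3 := Polynomial.aeval_algHom_apply φ.toIntAlgHom xb (DivPoly.half W b)
  have h4 := Polynomial.aeval_algHom_apply (residue A).toIntAlgHom (⟨x0, hx0A⟩ : A)
    (DivPoly.half W b)
  have h5 := Polynomial.aeval_algHom_apply A.subtype.toIntAlgHom (⟨x0, hx0A⟩ : A)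
    (DivPoly.half W b)
  have h6 : aeval (⟨x0, hx0A⟩ : A) (DivPoly.half W b) = 0 := by
    apply Subtype.ext
    exact h5.symm.trans hPt'
  rw [h6, _root_.map_zero] at h4
  refine h3.symm.trans ?_
  refine Eq.trans ?_ h4
  have h7 : φ.toIntAlgHom xb = (residue A).toIntAlgHom (⟨x0, hx0A⟩ : A) := hxb
  rw [h7]
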