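import Fermat.Agent.S44.Top.Compare

/-!
# S44 / TOP / Compare2 : (C3.5) the `ε`-part `Vt` from `(Q_I)` + `(P3)`; the final package `exists_pair`
key `S44/TOP-COMPARE2` (helper19)

`I ≤ G` such that every `s ∈ I` has a nonzero fixed vector on `E`, some `s ∈ I` has `ε s ^ 2 ≠ 1`, and
`(P3)` an `I`-fixed vector of the form `τ v - v` (`τ ∈ I`) is zero.
Then `Vt = ` the `ε s₀`-eigenspace of a generator `s₀` satisfies the hypotheses `h1`, `h2` of `Cmp.exists_good`.
-/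

set_option autoImplicit false

namespace Fermat.Agent.S44.Top

variable {p : ℕ} [Fact p.Prime] {G E V : Type*} [Group G]
  [AddCommGroup E] [Module (ZMod p) E] [AddCommGroup V] [Module (ZMod p) V]

namespace Cmp

variable {ρE : G →* Module.End (ZMod p) E} {ρV : G →* Module.End (ZMod p) V} {ε : G →* (ZMod p)ˣ}

/-- (C3.5) -/
theorem exists_Vt (h : Cmp ρE ρV ε) (I : Subgroup G) (hI2 : ∃ s ∈ I, (ε s) ^ 2 ≠ 1)
    (hF : ∀ s ∈ I, ∃ v : E, v ≠ 0 ∧ ρE s v = v)
    (P3 : ∀ y : V, (∃ τ ∈ I, ∃ v, y = ρV τ v - v) → (∀ s ∈ I, ρV s y = y) → y = 0) :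
    ∃ Vt : Submodule (ZMod p) V,
      (∀ s ∈ I, ∀ v ∈ Vt, ρV s v = ((ε s : (ZMod p)ˣ) : ZMod p) • v) ∧
      (∀ s ∈ I, ∀ v, ρV s v - v ∈ Vt) := by
  have hQ : ∀ s ∈ I, ∀ v : V, ρV s (ρV s v - ((ε s : (ZMod p)ˣ) : ZMod p) • v) =
      ρV s v - ((ε s : (ZMod p)ˣ) : ZMod p) • v := by
    intro s hs v
    have := LinearMap.congr_fun (h.quad_of_fixed (hF s hs)) v
    simp only [Module.End.mul_apply, LinearMap.sub_apply, LinearMap.smul_apply,
      Module.End.one_apply, LinearMap.zero_apply] at this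
    exact sub_eq_zero.1 this
  have hun : ∀ s ∈ I ⊓ ε.ker, (ρV s - 1) * (ρV s - 1) = 0 := by
    rintro s ⟨hs, hε⟩
    replace hε : ε s = 1 := hε
    have := h.quad_of_fixed (hF s hs)
    rwa [hε, Units.val_one, one_smul] at this
  obtain ⟨τ₀, ⟨hτI, hτε⟩, hgen⟩ := h.exists_gen (I ⊓ ε.ker) hun
  replace hτε : ε τ₀ = 1 := hτε
  have hunτ := hun τ₀ ⟨hτI, hτε⟩
  obtain ⟨⟨q, s₀, hs₀, rfl⟩, hq⟩ := IsCyclic.exists_generator (α := I.map ε)
  replace hs₀ : s₀ ∈ I := hs₀
  have hzp : ∀ s ∈ I, ∃ i : ℤ, ε s₀ ^ i = ε s := by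
    intro s hs
    obtain ⟨i, hi⟩ := Subgroup.mem_zpowers_iff.1 (hq ⟨ε s, s, hs, rfl⟩)
    exact ⟨i, by simpa using congrArg Subtype.val hi⟩
  have hu2 : (ε s₀) ^ 2 ≠ 1 := by
    intro h0
    obtain ⟨s, hs, hε⟩ := hI2
    obtain ⟨i, hi⟩ := hzp s hs
    apply hε
    rw [← hi, ← zpow_natCast, ← zpow_mul, mul_comm, zpow_mul, zpow_natCast, h0, one_zpow]
  set e₀ : ZMod p := ((ε s₀ : (ZMod p)ˣ) : ZMod p) with he₀
  have he0 : e₀ ≠ 0 := Units.ne_zero _
  have he2 : e₀ ^ 2 ≠ 1 := by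
    intro h0
    apply hu2
    apply Units.ext
    rw [Units.val_pow_eq_pow_val, Units.val_one]
    exact h0
  have he1 : e₀ ≠ 1 := by
    intro h0
    apply he2
    rw [h0, one_pow]
  have he1' : 1 - e₀ ≠ 0 := sub_ne_zero.2 he1.symm
  -- notation
  set S := ρV s₀ with hS
  set n : Module.End (ZMod p) V := ρV τ₀ - 1 with hn
  have hnn : ∀ v, n (n v) = 0 := fun v => LinearMap.congr_fun hunτ v
  have hτv : ∀ v, ρV τ₀ v = v + n v := by
    intro v
    rw [hn]
    simp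
  have hQS : ∀ v, S (S v - e₀ • v) = S v - e₀ • v := hQ s₀ hs₀
  have hQS' : ∀ v, S (S v - v) = e₀ • (S v - v) := by
    intro v
    have := hQS v
    rw [map_sub, map_smul] at this
    rw [map_sub, smul_sub]
    have e : S (S v) = S v - e₀ • v + e₀ • S v := by rw [← this]; abel
    rw [e]
    abel
  -- the elements of `I₁` act by `1 + j n`
  have hI1 : ∀ t ∈ I, ε t = 1 → ∃ c : ZMod p, ∀ v, ρV t v = v + c • n v := by
    intro t ht hε
    obtain ⟨j, hj⟩ := hgen t ⟨ht, hε⟩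
    refine ⟨j, fun v => ?_⟩
    rw [hj, cmp_pow_unip _ hunτ j]
    simp [hn]
  -- conjugation
  obtain ⟨k, hk⟩ : ∃ k : ZMod p, ∀ v, S (n v) = k • n (S v) := by
    have hmem : s₀ * τ₀ * s₀⁻¹ ∈ I := I.mul_mem (I.mul_mem hs₀ hτI) (I.inv_mem hs₀)
    have hε : ε (s₀ * τ₀ * s₀⁻¹) = 1 := by
      rw [map_mul, map_mul, hτε, mul_one, map_inv, mul_inv_cancel]
    obtain ⟨c, hc⟩ := hI1 _ hmem hε
    refine ⟨c, fun v => ?_⟩
    have h1 := hc (S v)
    have h2 : ρV (s₀ * τ₀ * s₀⁻¹) (S v) = S (ρV τ₀ v) := by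
      rw [hS, ← Module.End.mul_apply, ← Module.End.mul_apply, ← map_mul, ← map_mul]
      congr 2
      group
    rw [h2, hτv, map_add] at h1
    exact add_left_cancel h1
  -- eigenvalue analysis
  have heig : ∀ (w : V) (μ : ZMod p), S w = μ • w → w = 0 ∨ μ = 1 ∨ μ = e₀ := by
    intro w μ hw
    have := hQS w
    rw [hw, ← sub_smul, map_smul, hw, smul_smul] at this
    have h0 : ((μ - e₀) * (μ - 1)) • w = 0 := by
      have e : ((μ - e₀) * (μ - 1)) • w = ((μ - e₀) * μ) • w - (μ - e₀) • w := by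
        rw [← sub_smul]; congr 1; ring
      rw [e, this, sub_self]
    rcases smul_eq_zero.1 h0 with h1 | h1
    · rcases mul_eq_zero.1 h1 with h2 | h2
      · exact Or.inr (Or.inr (sub_eq_zero.1 h2))
      · exact Or.inr (Or.inl (sub_eq_zero.1 h2))
    · exact Or.inl h1
  -- the case `k = 1`
  have hk1 : k = 1 → ∀ (v : V) (μ : ZMod p), (μ = 1 ∨ μ = e₀) → S v = μ • v → n v = 0 := by
    intro hk1 v μ hμ hv
    have hw : S (n v) = μ • n v := by rw [hk, hk1, one_smul, hv, map_smul]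
    have hX : ∀ z, ρV (s₀ * τ₀) z = S (z + n z) := by
      intro z
      rw [map_mul, Module.End.mul_apply, hτv]
    have hε : ((ε (s₀ * τ₀) : (ZMod p)ˣ) : ZMod p) = e₀ := by rw [map_mul, hτε, mul_one]
    have := hQ (s₀ * τ₀) (I.mul_mem hs₀ hτI) v
    have hXv : ρV (s₀ * τ₀) v = μ • v + μ • n v := by rw [hX, map_add, hv, hw]
    rw [hε, hXv, hX] at this
    have e1 : μ • v + μ • n v - e₀ • v + n (μ • v + μ • n v - e₀ • v) =
        (μ - e₀) • v + (2 * μ - e₀) • n v := by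
      simp only [map_add, map_sub, map_smul, hnn, smul_zero, add_zero]
      module
    rw [e1, map_add, map_smul, map_smul, hv, hw] at this
    have h0 : (μ * (2 * μ - e₀ - 1) ) • n v + ((μ - e₀) * (μ - 1)) • v = 0 := by
      have e2 : (μ * (2 * μ - e₀ - 1) ) • n v + ((μ - e₀) * (μ - 1)) • v =
          ((μ - e₀) • μ • v + (2 * μ - e₀) • μ • n v) - (μ • v + μ • n v - e₀ • v) := by
        module
      rw [e2, this, sub_self]
    rcases hμ with rfl | rfl
    · rw [sub_self, mul_zero, zero_smul, add_zero] at h0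
      rcases smul_eq_zero.1 h0 with h1 | h1
      · exfalso
        apply he1'
        linear_combination h1
      · exact h1
    · rw [sub_self, zero_mul, zero_smul, add_zero] at h0
      rcases smul_eq_zero.1 h0 with h1 | h1
      · exfalso
        rcases mul_eq_zero.1 h1 with h2 | h2
        · exact he0 h2
        · apply he1'
          linear_combination -h2
      · exact h1
  -- every element of `I` is `s₀ ^ i * t`
  have hdecI : ∀ s ∈ I, ∃ (i : ℤ) (t : G), t ∈ I ∧ ε t = 1 ∧ s = s₀ ^ i * t := by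
    intro s hs
    obtain ⟨i, hi⟩ := hzp s hs
    refine ⟨i, (s₀ ^ i)⁻¹ * s, I.mul_mem (I.inv_mem (I.zpow_mem hs₀ i)) hs, ?_, by group⟩
    rw [map_mul, map_inv, map_zpow, hi, inv_mul_cancel]
  -- Claim A
  have hA : ∀ v, S v = e₀ • v → n v = 0 := by
    intro v hv
    by_cases hk1' : k = 1
    · exact hk1 hk1' v e₀ (Or.inr rfl) hv
    have hw : S (n v) = (k * e₀) • n v := by rw [hk, hv, map_smul, smul_smul]
    rcases heig _ _ hw with h0 | h0 | h0
    · exact h0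
    · -- `k e₀ = 1` : use (P3)
      apply P3 (n v) ⟨τ₀, hτI, v, by rw [hτv, add_sub_cancel_left]⟩
      have hfixS : S (n v) = n v := by rw [hw, h0, one_smul]
      let St : Subgroup G :=
        { carrier := {g | ρV g (n v) = n v}
          mul_mem' := fun {a b} ha hb => by
            show ρV (a * b) (n v) = n v
            rw [map_mul, Module.End.mul_apply, hb, ha]
          one_mem' := by
            show ρV 1 (n v) = n v
            rw [map_one, Module.End.one_apply]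
          inv_mem' := fun {a} ha => by
            show ρV a⁻¹ (n v) = n v
            have ha' : ρV a (n v) = n v := ha
            conv_lhs => rw [← ha', ← Module.End.mul_apply, ← map_mul, inv_mul_cancel, map_one,
              Module.End.one_apply] }
      intro s hs
      obtain ⟨i, t, ht, hεt, rfl⟩ := hdecI s hs
      have h1 : s₀ ^ i ∈ St := St.zpow_mem (show s₀ ∈ St from hfixS) i
      have h2 : t ∈ St := by
        obtain ⟨c, hc⟩ := hI1 t ht hεt
        show ρV t (n v) = n v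
        rw [hc, hnn, smul_zero, add_zero]
      exact St.mul_mem h1 h2
    · exfalso
      apply hk1'
      have : (k - 1) * e₀ = 0 := by linear_combination h0
      rcases mul_eq_zero.1 this with h1 | h1
      · exact sub_eq_zero.1 h1
      · exact absurd h1 he0
  -- Claim B
  have hB : ∀ v, S v = v → S (n v) = e₀ • n v := by
    intro v hv
    by_cases hk1' : k = 1
    · rw [hk1 hk1' v 1 (Or.inl rfl) (by rw [one_smul]; exact hv), map_zero, smul_zero]
    have hw : S (n v) = k • n v := by rw [hk, hv]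
    rcases heig _ _ hw with h0 | h0 | h0
    · rw [h0, map_zero, smul_zero]
    · exact absurd h0 hk1'
    · rw [hw, h0]
  -- `n v` lies in the `e₀`-eigenspace for every `v`
  have hC : ∀ v, S (n v) = e₀ • n v := by
    intro v
    have hdec : v = (1 - e₀)⁻¹ • (S v - e₀ • v) - (1 - e₀)⁻¹ • (S v - v) := by
      rw [← smul_sub]
      have : S v - e₀ • v - (S v - v) = (1 - e₀) • v := by module
      rw [this, smul_smul, inv_mul_cancel₀ he1', one_smul]
    have h1 : n v = (1 - e₀)⁻¹ • n (S v - e₀ • v) := by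
      conv_lhs => rw [hdec, map_sub, map_smul, map_smul, hA _ (hQS' v), smul_zero, sub_zero]
    rw [h1, map_smul, hB _ (hQS v), smul_comm]
  let Vt : Submodule (ZMod p) V :=
    { carrier := {v | S v = e₀ • v}
      zero_mem' := by simp
      add_mem' := fun {a b} ha hb => by
        show S (a + b) = e₀ • (a + b)
        rw [map_add, smul_add, ha, hb]
      smul_mem' := fun d a ha => by
        show S (d • a) = e₀ • (d • a)
        rw [map_smul, ha, smul_comm] }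
  let T : Subgroup G :=
    { carrier := {g | (∀ v ∈ Vt, ρV g v = ((ε g : (ZMod p)ˣ) : ZMod p) • v) ∧
        ∀ v, ρV g v - v ∈ Vt}
      mul_mem' := fun {a b} ha hb => by
        refine ⟨fun v hv => ?_, fun v => ?_⟩
        · rw [map_mul, Module.End.mul_apply, hb.1 v hv, map_smul, ha.1 v hv, smul_smul, map_mul,
            Units.val_mul, mul_comm]
        · have e : ρV (a * b) v - v = ρV a (ρV b v - v) + (ρV a v - v) := by
            rw [map_mul, Module.End.mul_apply, map_sub]; abel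
          rw [e, ha.1 _ (hb.2 v)]
          exact Vt.add_mem (Vt.smul_mem _ (hb.2 v)) (ha.2 v)
      one_mem' := by
        refine ⟨fun v _ => ?_, fun v => ?_⟩
        · rw [map_one, map_one, Units.val_one, one_smul, Module.End.one_apply]
        · rw [map_one, Module.End.one_apply, sub_self]
          exact Vt.zero_mem
      inv_mem' := fun {a} ha => by
        have hinv : ∀ v ∈ Vt, ρV a⁻¹ v = ((ε a⁻¹ : (ZMod p)ˣ) : ZMod p) • v := by
          intro v hv
          have h1 : ρV a⁻¹ (ρV a v) = v := by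
            rw [← Module.End.mul_apply, ← map_mul, inv_mul_cancel, map_one, Module.End.one_apply]
          rw [ha.1 v hv, map_smul] at h1
          have h2 : ((ε a⁻¹ : (ZMod p)ˣ) : ZMod p) * ((ε a : (ZMod p)ˣ) : ZMod p) = 1 := by
            rw [← Units.val_mul, ← map_mul, inv_mul_cancel, map_one, Units.val_one]
          calc ρV a⁻¹ v = (((ε a⁻¹ : (ZMod p)ˣ) : ZMod p) * ((ε a : (ZMod p)ˣ) : ZMod p)) • ρV a⁻¹ v := by
                rw [h2, one_smul]
            _ = _ := by rw [mul_smul, h1]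
        refine ⟨hinv, fun v => ?_⟩
        have e : ρV a⁻¹ v - v = - ρV a⁻¹ (ρV a v - v) := by
          rw [map_sub, ← Module.End.mul_apply, ← map_mul, inv_mul_cancel, map_one,
            Module.End.one_apply]
          abel
        rw [e, hinv _ (ha.2 v)]
        exact Vt.neg_mem (Vt.smul_mem _ (ha.2 v)) }
  have hs₀T : s₀ ∈ T := ⟨fun v hv => hv, fun v => hQS' v⟩
  have hI1T : ∀ t ∈ I, ε t = 1 → t ∈ T := by
    intro t ht hεt
    obtain ⟨c, hc⟩ := hI1 t ht hεt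
    refine ⟨fun v hv => ?_, fun v => ?_⟩
    · rw [hc, hA v hv, smul_zero, add_zero, hεt, Units.val_one, one_smul]
    · rw [hc, add_sub_cancel_left]
      exact Vt.smul_mem _ (hC v)
  have hIT : ∀ s ∈ I, s ∈ T := by
    intro s hs
    obtain ⟨i, t, ht, hεt, rfl⟩ := hdecI s hs
    exact T.mul_mem (T.zpow_mem hs₀T i) (hI1T t ht hεt)
  exact ⟨Vt, fun s hs => (hIT s hs).1, fun s hs => (hIT s hs).2⟩

/-- the final package: `x ↔ u`, `y ↔ t`, `s₁ ↔ σ₀` -/
theorem exists_pair (h : Cmp ρE ρV ε) (I : Subgroup G) (hI2 : ∃ s ∈ I, (ε s) ^ 2 ≠ 1)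
    (hF : ∀ s ∈ I, ∃ v : E, v ≠ 0 ∧ ρE s v = v)
    (P3 : ∀ y : V, (∃ τ ∈ I, ∃ v, y = ρV τ v - v) → (∀ s ∈ I, ρV s y = y) → y = 0) :
    ∃ (x y : V) (s₁ : G), x ≠ 0 ∧ s₁ ∈ I ∧ ε s₁ ≠ 1 ∧ ρV s₁ x = x ∧
      (∀ s ∈ I, ∃ a : ZMod p, ρV s x - x = a • y) ∧
      (∀ s ∈ I, ρV s y = ((ε s : (ZMod p)ˣ) : ZMod p) • y) ∧
      (∀ s ∈ I, ε s = 1 → ρV s x = x → ρV s = 1 ∧ ρE s = 1) := by
  obtain ⟨Vt, h1, h2⟩ := h.exists_Vt I hI2 hF P3
  have hI : ∃ s ∈ I, ε s ≠ 1 := by
    obtain ⟨s, hs, hε⟩ := hI2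
    exact ⟨s, hs, fun h0 => hε (by rw [h0, one_pow])⟩
  obtain ⟨x, τ₀, hx, hτI, hτε, hact, hker⟩ := h.exists_good I hI Vt h1 h2
  set y := ρV τ₀ x - x with hy
  have hyV : y ∈ Vt := h2 τ₀ hτI x
  have hτy : ρV τ₀ y = y := by rw [h1 τ₀ hτI y hyV, hτε, Units.val_one, one_smul]
  have hτx : ρV τ₀ x = x + y := by rw [hy]; abel
  have hpy : ∀ j : ℕ, ρV (τ₀ ^ j) y = y := by
    intro j
    induction j with
    | zero => simp
    | succ j ih => rw [pow_succ, map_mul, Module.End.mul_apply, hτy, ih]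
  have hpx : ∀ j : ℕ, ρV (τ₀ ^ j) x = x + (j : ZMod p) • y := by
    intro j
    induction j with
    | zero => simp
    | succ j ih =>
      rw [pow_succ, map_mul, Module.End.mul_apply, hτx, map_add, ih, hpy]
      push_cast
      rw [add_smul, one_smul, add_assoc]
  obtain ⟨s, hs, hε⟩ := hI
  obtain ⟨a, ha⟩ := hact s hs
  refine ⟨x, y, τ₀ ^ (-a).val * s, fun h0 => hx (h0 ▸ Vt.zero_mem),
    I.mul_mem (I.pow_mem hτI _) hs, ?_, ?_, hact, fun s hs => h1 s hs y hyV, hker⟩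
  · rw [map_mul, map_pow, hτε, one_pow, one_mul]
    exact hε
  · have hsx : ρV s x = x + a • y := by rw [← ha]; abel
    rw [map_mul, Module.End.mul_apply, hsx, map_add, map_smul, hpx, hpy, ZMod.natCast_zmod_val,
      add_assoc, ← add_smul, neg_add_cancel, zero_smul, add_zero]

/-- `exists_Vt` with `(P3)` in helper10's shape -/
theorem exists_Vt' (h : Cmp ρE ρV ε) (I : Subgroup G)
    (hQ : ∀ s ∈ I, ∃ v : E, v ≠ 0 ∧ ρE s v = v) (hI2 : ∃ s ∈ I, (ε s) ^ 2 ≠ 1)
    (hP3 : ∀ τ ∈ I, ∀ v : V, (∀ s ∈ I, ρV s (ρV τ v - v) = ρV τ v - v) → ρV τ v = v) :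
    ∃ Vt : Submodule (ZMod p) V,
      (∀ s ∈ I, ∀ v ∈ Vt, ρV s v = ((ε s : (ZMod p)ˣ) : ZMod p) • v) ∧
      (∀ s ∈ I, ∀ v, ρV s v - v ∈ Vt) := by
  refine h.exists_Vt I hI2 hQ ?_
  rintro y ⟨τ, hτ, v, rfl⟩ hfix
  exact sub_eq_zero.2 (hP3 τ hτ v hfix)

/-- `exists_good` + a tame element fixing `x` -/
theorem exists_good' (h : Cmp ρE ρV ε) (I : Subgroup G) (hI : ∃ s ∈ I, ε s ≠ 1)
    (Vt : Submodule (ZMod p) V)
    (h1 : ∀ s ∈ I, ∀ v ∈ Vt, ρV s v = ((ε s : (ZMod p)ˣ) : ZMod p) • v)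
    (h2 : ∀ s ∈ I, ∀ v, ρV s v - v ∈ Vt) :
    ∃ (x : V) (τ₀ : G), x ∉ Vt ∧ τ₀ ∈ I ∧ ε τ₀ = 1 ∧
      (∀ s ∈ I, ∃ a : ZMod p, ρV s x - x = a • (ρV τ₀ x - x)) ∧
      (∀ s ∈ I, ε s = 1 → ρV s x = x → ρV s = 1 ∧ ρE s = 1) ∧
      (∃ s₁ ∈ I, ε s₁ ≠ 1 ∧ ρV s₁ x = x) := by
  obtain ⟨x, τ₀, hx, hτI, hτε, hact, hker⟩ := h.exists_good I hI Vt h1 h2
  refine ⟨x, τ₀, hx, hτI, hτε, hact, hker, ?_⟩
  set y := ρV τ₀ x - x with hy
  have hyV : y ∈ Vt := h2 τ₀ hτI x
  have hτy : ρV τ₀ y = y := by rw [h1 τ₀ hτI y hyV, hτε, Units.val_one, one_smul]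
  have hτx : ρV τ₀ x = x + y := by rw [hy]; abel
  have hpy : ∀ j : ℕ, ρV (τ₀ ^ j) y = y := by
    intro j
    induction j with
    | zero => simp
    | succ j ih => rw [pow_succ, map_mul, Module.End.mul_apply, hτy, ih]
  have hpx : ∀ j : ℕ, ρV (τ₀ ^ j) x = x + (j : ZMod p) • y := by
    intro j
    induction j with
    | zero => simp
    | succ j ih =>
      rw [pow_succ, map_mul, Module.End.mul_apply, hτx, map_add, ih, hpy]
      push_cast
      rw [add_smul, one_smul, add_assoc]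
  obtain ⟨s, hs, hε⟩ := hI
  obtain ⟨a, ha⟩ := hact s hs
  refine ⟨τ₀ ^ (-a).val * s, I.mul_mem (I.pow_mem hτI _) hs, ?_, ?_⟩
  · rw [map_mul, map_pow, hτε, one_pow, one_mul]
    exact hε
  · have hsx : ρV s x = x + a • y := by rw [← ha]; abel
    rw [map_mul, Module.End.mul_apply, hsx, map_add, map_smul, hpx, hpy, ZMod.natCast_zmod_val,
      add_assoc, ← add_smul, neg_add_cancel, zero_smul, add_zero]

end Cmp

end Fermat.Agent.S44.Top
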