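import Fermat.Agent.S44.IfTop
import Fermat.Agent.S35.Nu
import Fermat.Agent.S30.Surj
import Fermat.Agent.S31.ES

/-!
# S44/TOP : the group `VG` of good Kummer classes          key `S44/TOP-GOOD`

`GoodU q M1 hc S a u` : `u ≠ 0`, `PDiv`, both norms to level `M1` are `p`-th powers, `T_ℓ u ~ u ^ a_ℓ` (`ℓ ∈ S`).
`VG q M1 hc S a ⊆ WW (M1 p) p` : the classes of the good `u`; a Galois stable subgroup of the finite group `WK`.

PROOFS.  `one/mul/inv/gal/mul_pow`: `normAlpha`, `Wq hc`, `Tl` are multiplicative (`map_mul`, `map_inv₀`, `map_pow`, `map_zpow₀`),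
`gal_normAlpha`, `gal_Wq`, `gal_Tl` (ES/AlgGal, S34/Mod/Wq), `PDiv.one/mul/inv/gal`, `S35.PDiv.pow_self`.
`VG_le_WK`: `S30.Surj.exists_isKummer_of_pdiv` : `u` is the Kummer element of some `c`, `cl u = Theta c` (`Theta_eq`) `= actW 1 (Theta c)`.
`finite_WK`, `exists_level_WK`: `S31.exists_level` (with `Theta_level`), `S31.finite_W1` (`nsmul_WW`), `S31.act1_eq_one_of_fixes`.
-/

set_option autoImplicit false
set_option synthInstance.maxHeartbeats 400000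

open HahnSeries ModularCurve AlgebraicCurve Fermat.Agent.S24 Fermat.Agent.S29 Fermat.Agent.S18
  Fermat.Agent.ES Fermat.Agent.ES.Alg Fermat.Agent.S34.Mod Fermat.Agent.S05 Fermat.Agent.S55.B ExtCitation
  Fermat.Agent.S33 CongruenceSubgroup
open Fermat.Agent.S55 (Dq Iq)

noncomputable section

namespace Fermat.Agent.S44.Top

variable (q : Nat.Primes) (M1 : ℕ) [NeZero M1] [NeZero (q : ℕ)]

/-- good Kummer elements -/
structure GoodU (hc : Nat.Coprime (q : ℕ) M1) (S : Set ℕ) (a : ℕ → ℤ) (u : FN (M1 * (q : ℕ))) : Prop where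
  ne : u ≠ 0
  pdiv : PDiv Kb (FN (M1 * (q : ℕ))) (q : ℕ) u
  nm : IsPow (q : ℕ) (normAlpha M1 (q : ℕ) u)
  nmW : IsPow (q : ℕ) (normAlpha M1 (q : ℕ) (Wq hc u))
  eig : ∀ (ℓ : ℕ) (hℓ : ℓ.Prime), ¬ ℓ ∣ M1 * (q : ℕ) → ℓ ∈ S →
    ∃ g : FN (M1 * (q : ℕ)), @Tl (M1 * (q : ℕ)) ℓ _ ⟨hℓ.ne_zero⟩ u = u ^ (a ℓ) * g ^ (q : ℕ)

variable {q M1} {hc : Nat.Coprime (q : ℕ) M1} {S : Set ℕ} {a : ℕ → ℤ}

theorem good_map_inv {F F' : Type*} [Field F] [Field F'] (f : F →* F') {u : F} (hu : u ≠ 0) :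
    f u⁻¹ = (f u)⁻¹ := by
  apply eq_inv_of_mul_eq_one_left
  rw [← map_mul, inv_mul_cancel₀ hu, map_one]

theorem good_map_ne_zero {F F' : Type*} [Field F] [Field F'] (f : F →* F') {u : F} (hu : u ≠ 0) :
    f u ≠ 0 := by
  intro h
  have := map_mul f u u⁻¹
  rw [mul_inv_cancel₀ hu, map_one, h, zero_mul] at this
  exact one_ne_zero this

theorem good_cl_zpow {N n : ℕ} {u : FN N} (hu : u ≠ 0) (k : ℤ) :
    (cl (u ^ k) (zpow_ne_zero k hu) : WW N n) = k • cl u hu := by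
  rcases k with m | m
  · have h1 : (cl (u ^ (Int.ofNat m)) (zpow_ne_zero _ hu) : WW N n) = cl (u ^ m) (pow_ne_zero _ hu) :=
      cl_congr _ (zpow_natCast u m)
    rw [h1, cl_pow]
    exact (natCast_zsmul (cl u hu : WW N n) m).symm
  · have h1 : (cl (u ^ (Int.negSucc m)) (zpow_ne_zero _ hu) : WW N n) =
        cl (u ^ (m + 1))⁻¹ (inv_ne_zero (pow_ne_zero _ hu)) := cl_congr _ (zpow_negSucc u m)
    rw [h1, ← kuAux_neg_cl (pow_ne_zero _ hu), cl_pow]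
    exact (negSucc_zsmul (cl u hu : WW N n) m).symm

theorem good_isPow_one {N : ℕ} (p : ℕ) : IsPow p (1 : FN N) := ⟨1, (one_pow p).symm⟩

theorem good_isPow_mul {N p : ℕ} {u v : FN N} (hu : IsPow p u) (hv : IsPow p v) :
    IsPow p (u * v) := by
  obtain ⟨g, rfl⟩ := hu
  obtain ⟨g', rfl⟩ := hv
  exact ⟨g * g', (_root_.mul_pow g g' p).symm⟩

theorem good_isPow_inv {N p : ℕ} {u : FN N} (hu : IsPow p u) : IsPow p u⁻¹ := by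
  obtain ⟨g, rfl⟩ := hu
  exact ⟨g⁻¹, (inv_pow g p).symm⟩

theorem GoodU.one : GoodU q M1 hc S a 1 where
  ne := one_ne_zero
  pdiv := PDiv.one
  nm := by rw [map_one]; exact good_isPow_one _
  nmW := by rw [map_one, map_one]; exact good_isPow_one _
  eig := fun ℓ hℓ _ _ => ⟨1, by rw [map_one, one_zpow, one_pow, one_mul]⟩

theorem GoodU.mul {u v : FN (M1 * (q : ℕ))} (hu : GoodU q M1 hc S a u) (hv : GoodU q M1 hc S a v) :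
    GoodU q M1 hc S a (u * v) where
  ne := mul_ne_zero hu.ne hv.ne
  pdiv := hu.pdiv.mul hv.pdiv
  nm := by rw [map_mul]; exact good_isPow_mul hu.nm hv.nm
  nmW := by rw [map_mul, map_mul]; exact good_isPow_mul hu.nmW hv.nmW
  eig := fun ℓ hℓ h1 h2 => by
    obtain ⟨g, hg⟩ := hu.eig ℓ hℓ h1 h2
    obtain ⟨g', hg'⟩ := hv.eig ℓ hℓ h1 h2
    refine ⟨g * g', ?_⟩
    rw [map_mul, hg, hg', mul_zpow, _root_.mul_pow]
    ring

theorem GoodU.inv {u : FN (M1 * (q : ℕ))} (hu : GoodU q M1 hc S a u) : GoodU q M1 hc S a u⁻¹ where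
  ne := inv_ne_zero hu.ne
  pdiv := hu.pdiv.inv
  nm := by rw [good_map_inv _ hu.ne]; exact good_isPow_inv hu.nm
  nmW := by
    rw [map_inv₀, good_map_inv _ ((map_ne_zero_iff _ (Wq hc).injective).mpr hu.ne)]
    exact good_isPow_inv hu.nmW
  eig := fun ℓ hℓ h1 h2 => by
    obtain ⟨g, hg⟩ := hu.eig ℓ hℓ h1 h2
    refine ⟨g⁻¹, ?_⟩
    rw [good_map_inv _ hu.ne, hg, mul_inv, inv_zpow, inv_pow]

theorem GoodU.gal {u : FN (M1 * (q : ℕ))} (hu : GoodU q M1 hc S a u) (σ : GQ) :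
    GoodU q M1 hc S a (gal (M1 * (q : ℕ)) σ u) where
  ne := (map_ne_zero_iff _ (Fermat.Agent.S29.gal (M1 * (q : ℕ)) σ).injective).mpr hu.ne
  pdiv := PDiv.gal hu.pdiv σ
  nm := by
    obtain ⟨g, hg⟩ := hu.nm
    exact ⟨Fermat.Agent.S29.gal M1 σ g, by rw [← gal_normAlpha, hg, map_pow]⟩
  nmW := by
    obtain ⟨g, hg⟩ := hu.nmW
    exact ⟨Fermat.Agent.S29.gal M1 σ g, by rw [← gal_Wq q.2 hc, ← gal_normAlpha, hg, map_pow]⟩
  eig := fun ℓ hℓ h1 h2 => by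
    obtain ⟨g, hg⟩ := hu.eig ℓ hℓ h1 h2
    have : NeZero ℓ := ⟨hℓ.ne_zero⟩
    refine ⟨Fermat.Agent.S29.gal (M1 * (q : ℕ)) σ g, ?_⟩
    rw [← gal_Tl, hg, map_mul, map_zpow₀, map_pow]

theorem GoodU.mul_pow {u g : FN (M1 * (q : ℕ))} (hu : GoodU q M1 hc S a u) (hg : g ≠ 0) :
    GoodU q M1 hc S a (u * g ^ (q : ℕ)) := by
  refine hu.mul ?_
  exact
    { ne := pow_ne_zero _ hg
      pdiv := Fermat.Agent.S35.PDiv.pow_self hg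
      nm := ⟨normAlpha M1 (q : ℕ) g, map_pow _ _ _⟩
      nmW := ⟨normAlpha M1 (q : ℕ) (Wq hc g), by rw [map_pow, map_pow]⟩
      eig := fun ℓ hℓ _ _ => by
        have : NeZero ℓ := ⟨hℓ.ne_zero⟩
        refine ⟨Tl (M1 * (q : ℕ)) ℓ g * (g ^ (a ℓ))⁻¹, ?_⟩
        have h0 : g ^ (a ℓ) ≠ 0 := zpow_ne_zero _ hg
        have h1 : (g ^ (q : ℕ)) ^ (a ℓ) = (g ^ (a ℓ)) ^ (q : ℕ) := by
          rw [← zpow_natCast, ← zpow_mul, ← zpow_natCast, ← zpow_mul]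
          exact congrArg _ (mul_comm _ _)
        rw [map_pow, h1, ← _root_.mul_pow]
        congr 1
        field_simp }

variable (q M1 hc S a)

/-- the group of good classes -/
def VG : AddSubgroup (WW (M1 * (q : ℕ)) (q : ℕ)) where
  carrier := {w | ∃ (u : FN (M1 * (q : ℕ))) (h : GoodU q M1 hc S a u), w = cl u h.ne}
  zero_mem' := ⟨1, GoodU.one, kuAux_cl_one.symm⟩
  add_mem' := by
    rintro _ _ ⟨u, hu, rfl⟩ ⟨v, hv, rfl⟩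
    exact ⟨u * v, hu.mul hv, (cl_mul hu.ne hv.ne).symm⟩
  neg_mem' := by
    rintro _ ⟨u, hu, rfl⟩
    exact ⟨u⁻¹, hu.inv, kuAux_neg_cl hu.ne⟩

variable {q M1 hc S a}

theorem mem_VG {w : WW (M1 * (q : ℕ)) (q : ℕ)} :
    w ∈ VG q M1 hc S a ↔ ∃ (u : FN (M1 * (q : ℕ))) (h : GoodU q M1 hc S a u), w = cl u h.ne := Iff.rfl

theorem actW_mem_VG (σ : GQ) {w : WW (M1 * (q : ℕ)) (q : ℕ)} (hw : w ∈ VG q M1 hc S a) :
    actW (M1 * (q : ℕ)) (q : ℕ) σ w ∈ VG q M1 hc S a := by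
  obtain ⟨u, hu, rfl⟩ := hw
  exact ⟨_, hu.gal σ, actW_cl σ hu.ne⟩

/-- every representative of a good class is good -/
theorem goodU_of_cl_mem {u : FN (M1 * (q : ℕ))} (hu : u ≠ 0)
    (h : (cl u hu : WW (M1 * (q : ℕ)) (q : ℕ)) ∈ VG q M1 hc S a) : GoodU q M1 hc S a u := by
  obtain ⟨v, hv, he⟩ := h
  have h1 : (cl (u * v⁻¹) (mul_ne_zero hu (inv_ne_zero hv.ne)) : WW (M1 * (q : ℕ)) (q : ℕ)) = 0 := by
    rw [cl_mul hu (inv_ne_zero hv.ne), ← kuAux_neg_cl, he]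
    exact add_neg_cancel (cl v hv.ne : WW (M1 * (q : ℕ)) (q : ℕ))
  obtain ⟨r, hr⟩ := cl_eq_zero _ h1
  have hr0 : r ≠ 0 := by
    rintro rfl
    rw [zero_pow q.2.ne_zero] at hr
    exact mul_ne_zero hu (inv_ne_zero hv.ne) hr
  have h2 : u = v * r ^ (q : ℕ) := by
    rw [← hr, mul_comm u, mul_inv_cancel_left₀ hv.ne]
  rw [h2]
  exact hv.mul_pow hr0

theorem VG_le_WK (hD : Desc (M1 * (q : ℕ)) (q : ℕ)) :
    VG q M1 hc S a ≤ WK q.2.ne_zero hD := by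
  rintro _ ⟨u, hu, rfl⟩
  obtain ⟨c, hcK⟩ := Fermat.Agent.S30.Surj.exists_isKummer_of_pdiv (M1 * (q : ℕ)) (q : ℕ) q.2.ne_zero u
    hu.pdiv
  have h1 := Fermat.Agent.S31.gen_mem_W1 (𝒲 := WW (M1 * (q : ℕ)) (q : ℕ))
    (X := XN (M1 * (q : ℕ))) (actW (M1 * (q : ℕ)) (q : ℕ)) (Theta q.2.ne_zero hD) 1 c
  rw [map_one, Theta_eq q.2.ne_zero hD c hcK] at h1
  exact h1

theorem finite_WK (hD : Desc (M1 * (q : ℕ)) (q : ℕ)) : Finite (WK q.2.ne_zero hD) := by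
  obtain ⟨L, hLfin, -, hL⟩ := Fermat.Agent.S31.exists_level (𝒲 := WW (M1 * (q : ℕ)) (q : ℕ))
    (X := XN (M1 * (q : ℕ))) (actW (M1 * (q : ℕ)) (q : ℕ))
    (Theta q.2.ne_zero hD) (Theta_level q.2.ne_zero hD)
  exact Fermat.Agent.S31.finite_W1 (𝒲 := WW (M1 * (q : ℕ)) (q : ℕ)) (X := XN (M1 * (q : ℕ))) _ _
    (q : ℕ) q.2.pos nsmul_WW L hL

/-- a common finite level -/
theorem exists_level_WK (hD : Desc (M1 * (q : ℕ)) (q : ℕ)) :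
    ∃ L : IntermediateField ℚ Qb, FiniteDimensional ℚ L ∧
      ∀ g : GQ, (∀ x ∈ L, g x = x) → ∀ w ∈ WK q.2.ne_zero hD, actW (M1 * (q : ℕ)) (q : ℕ) g w = w := by
  obtain ⟨L, hLfin, hLn, hL⟩ := Fermat.Agent.S31.exists_level (𝒲 := WW (M1 * (q : ℕ)) (q : ℕ))
    (X := XN (M1 * (q : ℕ))) (actW (M1 * (q : ℕ)) (q : ℕ))
    (Theta q.2.ne_zero hD) (Theta_level q.2.ne_zero hD)
  refine ⟨L, hLfin, fun g hg w hw => ?_⟩
  have h1 := Fermat.Agent.S31.act1_eq_one_of_fixes (𝒲 := WW (M1 * (q : ℕ)) (q : ℕ))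
    (X := XN (M1 * (q : ℕ))) _ _ L hL g hg
  have h2 := congrArg (fun E : AddMonoid.End (WK q.2.ne_zero hD) => ((E ⟨w, hw⟩ : WK q.2.ne_zero hD) :
    WW (M1 * (q : ℕ)) (q : ℕ))) h1
  exact h2

/-- Eichler–Shimura on good classes -/
theorem VG_ES {w : WW (M1 * (q : ℕ)) (q : ℕ)} (hw : w ∈ VG q M1 hc S a)
    (ℓ : ℕ) (hℓ : ℓ.Prime) (hM : ¬ ℓ ∣ M1 * (q : ℕ)) (hS : ℓ ∈ S) (A : ValuationSubring Qb)
    (hA : A.LiesOverPrime ℓ) (σ : GQ) (hσ : A.IsFrobeniusAt σ ℓ) :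
    a ℓ • w = actW (M1 * (q : ℕ)) (q : ℕ) σ w + ℓ • actW (M1 * (q : ℕ)) (q : ℕ) σ⁻¹ w := by
  obtain ⟨u, hu, rfl⟩ := hw
  have : NeZero ℓ := ⟨hℓ.ne_zero⟩
  have hM' : ¬ ℓ ∣ M1 * (q : ℕ) * (q : ℕ) := by
    intro h
    rcases (Nat.Prime.dvd_mul hℓ).mp h with h | h
    · exact hM h
    · exact hM (Dvd.dvd.mul_left h _)
  obtain ⟨r, hr⟩ := es1_of_KL (M1 * (q : ℕ)) (q : ℕ) (Fermat.Agent.S31.klAll _) ℓ hℓ hM' A hA σ hσ u
    hu.pdiv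
  obtain ⟨g, hg⟩ := hu.eig ℓ hℓ hM hS
  have hT0 : Tl (M1 * (q : ℕ)) ℓ u ≠ 0 := good_map_ne_zero _ hu.ne
  have h1 : (cl (Tl (M1 * (q : ℕ)) ℓ u) hT0 : WW (M1 * (q : ℕ)) (q : ℕ)) =
      cl (u ^ (a ℓ)) (zpow_ne_zero _ hu.ne) := cl_eq_of_eq_mul q.2.ne_zero _ _ hg
  have hs : ∀ τ : GQ, gal (M1 * (q : ℕ)) τ u ≠ 0 := fun τ =>
    (map_ne_zero_iff _ (gal (M1 * (q : ℕ)) τ).injective).mpr hu.ne
  have h2 : (cl (Tl (M1 * (q : ℕ)) ℓ u) hT0 : WW (M1 * (q : ℕ)) (q : ℕ)) =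
      cl (gal (M1 * (q : ℕ)) σ u * (gal (M1 * (q : ℕ)) σ⁻¹ u) ^ ℓ)
        (mul_ne_zero (hs σ) (pow_ne_zero _ (hs σ⁻¹))) := cl_eq_of_eq_mul q.2.ne_zero _ _ hr
  rw [← good_cl_zpow, ← h1, h2, cl_mul (hs σ) (pow_ne_zero _ (hs σ⁻¹)), cl_pow, actW_cl, actW_cl]

end Fermat.Agent.S44.Top
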