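import Fermat.Agent.S29.K3
import Fermat.Agent.S41.Hecke.Fam

/-!
# S44 / TOP-K3N-a : the norm `F_{Mp} → F_M` on Kummer elements        key `S44/TOP-K3N-a`

* `iota_normAlpha` : `iota M (normAlpha M p u) = ∏ i : Option (Fin p), (iota (M p) u) ∘ (rA M p i)`
  (`S24.norm_eq_prod_of_card` with the `p + 1` embeddings `merAct (rA M p i)⁻¹ ∘ iota (M p)`).
* `isKummer_normAlpha` : `IsKummer (M p) m c u`, `IsTr Γ₀(M p) Γ₀(M) (famB1 M p) c c'` imply `IsKummer M m c' (normAlpha M p u)`.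
-/

set_option autoImplicit false

open UpperHalfPlane ModularForm ModularCurve AlgebraicCurve CongruenceSubgroup
open Fermat.Agent.S24 Fermat.Agent.S16.Lower Fermat.Agent.ES.Alg Fermat.Agent.S29 Fermat.Agent.S29.K3
open Fermat.Agent.S41 Fermat.Agent.S41.Hecke
open Matrix.SpecialLinearGroup (mapGL)
open scoped MatrixGroups Manifold

noncomputable section

namespace Fermat.Agent.S44.Top

theorem k3na_merAct_inv (g : SL(2, ℤ)) (x : Mer) :
    merAct g⁻¹ x = merGL (mapGL ℝ g) (det_SL_pos _) x := by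
  rw [merAct_eq]
  exact merGL_congr (by rw [inv_inv]) _ _ _

theorem iota_normAlpha {M p : ℕ} [NeZero M] [NeZero p] (hp : p.Prime) (hM : ¬ p ∣ M)
    (u : FN (M * p)) :
    iota M (normAlpha M p u) =
      ∏ i : Option (Fin p), merGL (mapGL ℝ (rA M p i)) (det_SL_pos _) (iota (M * p) u) := by
  let _ := algebraAlong (heckeAlphaBar Kb M p)
  have : FiniteDimensional (FN M) (FN (M * p)) := finite_alpha M p
  let σ : Option (Fin p) → FN (M * p) →+* Mer := fun i =>
    (merAct (rA M p i)⁻¹).toRingHom.comp (iota (M * p))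
  have hσ : Function.Injective σ := by
    intro i j hij
    apply rA_inj hp hM
    have h1 : sigma (M * p) (((rA M p i)⁻¹ : SL(2, ℤ)) : QN (M * p)) =
        sigma (M * p) (((rA M p j)⁻¹ : SL(2, ℤ)) : QN (M * p)) := by
      ext θ
      rw [sigma_mk, sigma_mk]
      exact RingHom.congr_fun hij θ
    have h2 := QuotientGroup.eq.mp (sigma_injective (M * p) h1)
    rwa [inv_inv] at h2
  have hcard : Fintype.card (Option (Fin p)) = Module.finrank (FN M) (FN (M * p)) := by
    rw [Fintype.card_option, Fintype.card_fin]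
    exact (finrank_alpha M p hp hM).symm
  have hα : ∀ i (a : FN M), σ i (algebraMap (FN M) (FN (M * p)) a) = iota M a := by
    intro i a
    show merAct (rA M p i)⁻¹ (iota (M * p) (heckeAlphaBar Kb M p a)) = _
    rw [iota_alpha, merAct_iota_of_mem M (inv_mem (rA_mem M p i))]
  have h := norm_eq_prod_of_card σ hσ hcard (fun i j a => by rw [hα, hα]) none u
  rw [hα] at h
  refine h.trans (Finset.prod_congr rfl fun i _ => ?_)
  show merAct (rA M p i)⁻¹ (iota (M * p) u) = _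
  exact k3na_merAct_inv _ _

/-- **S44/TOP-K3N-a** -/
theorem isKummer_normAlpha {M m p : ℕ} [NeZero M] [NeZero p] (hp : p.Prime) (hM : ¬ p ∣ M)
    {c : Additive (Gamma0 (M * p)) →+ ℤ} {c' : Additive (Gamma0 M) →+ ℤ} {u : FN (M * p)}
    (hu : IsKummer (M * p) m c u)
    (hc : IsTr (Gamma0 (M * p)) (Gamma0 M) (famB1 M p) c c') :
    IsKummer M m c' (normAlpha M p u) := by
  obtain ⟨h, h0, hpow, hchar⟩ := hu
  refine ⟨∏ i : Option (Fin p), merGL (mapGL ℝ (rA M p i)) (det_SL_pos _) h, ?_, ?_, ?_⟩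
  · exact Finset.prod_ne_zero_iff.mpr fun i _ => (map_ne_zero _).mpr h0
  · rw [iota_normAlpha hp hM, hpow, ← Finset.prod_pow]
    exact Finset.prod_congr rfl fun i _ => map_pow _ _ _
  · intro γ
    obtain ⟨D⟩ := (isFam_b1 hp hM).ex γ⁻¹
    have hterm : ∀ i, merAct (γ : SL(2, ℤ)) (merGL (mapGL ℝ (rA M p i)) (det_SL_pos _) h) =
        algebraMap ℂ Mer (zet m (-c (Additive.ofMul (D.δ i)))) *
          merGL (mapGL ℝ (rA M p (D.σ i))) (det_SL_pos _) h := by
      intro i
      have hrel0 : rA M p i * ((γ⁻¹ : Gamma0 M) : SL(2, ℤ)) = (D.δ i : SL(2, ℤ)) * rA M p (D.σ i) := by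
        apply Subtype.ext
        rw [Matrix.SpecialLinearGroup.coe_mul, Matrix.SpecialLinearGroup.coe_mul]
        exact D.rel i
      have hrel : mapGL ℝ (rA M p i) * mapGL ℝ ((γ⁻¹ : Gamma0 M) : SL(2, ℤ)) =
          mapGL ℝ (D.δ i : SL(2, ℤ)) * mapGL ℝ (rA M p (D.σ i)) := by
        rw [← map_mul, ← map_mul, hrel0]
      have hpos1 : 0 < (mapGL ℝ (rA M p i) * mapGL ℝ ((γ⁻¹ : Gamma0 M) : SL(2, ℤ))).det.val := by
        rw [map_mul, Units.val_mul]
        exact mul_pos (det_SL_pos _) (det_SL_pos _)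
      have hpos2 : 0 < (mapGL ℝ (D.δ i : SL(2, ℤ)) * mapGL ℝ (rA M p (D.σ i))).det.val := by
        rw [map_mul, Units.val_mul]
        exact mul_pos (det_SL_pos _) (det_SL_pos _)
      have hγ : mapGL ℝ (γ : SL(2, ℤ))⁻¹ = mapGL ℝ ((γ⁻¹ : Gamma0 M) : SL(2, ℤ)) := rfl
      rw [merAct_eq, merGL_congr hγ _ (det_SL_pos _),
        ← merGL_mul _ _ _ _ hpos1, merGL_congr hrel hpos1 hpos2,
        merGL_mul _ _ (det_SL_pos _) (det_SL_pos _), merGL_SL_of_hasChar hchar, map_mul,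
        merGL_const]
    rw [map_prod]
    simp only [hterm]
    rw [Finset.prod_mul_distrib, ← map_prod, ← zet_sum, Finset.sum_neg_distrib, ← hc γ⁻¹ D,
      ofMul_inv, map_neg, neg_neg]
    congr 1
    exact Equiv.prod_comp D.σ
      (fun i => merGL (mapGL ℝ (rA M p i)) (det_SL_pos _) h)

end Fermat.Agent.S44.Top
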