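import Fermat.Agent.S44.Top.Cl
import Fermat.Agent.S44.Top.Compare2

/-!
# S44/TOP : `NewHyp` from the comparison package          (helper10)
-/

set_option autoImplicit false
set_option synthInstance.maxHeartbeats 400000

open HahnSeries ModularCurve AlgebraicCurve Fermat.Agent.S24 Fermat.Agent.S29 Fermat.Agent.S18
  Fermat.Agent.ES Fermat.Agent.ES.Alg Fermat.Agent.S34.Mod Fermat.Agent.S05 Fermat.Agent.S55.B ExtCitation
  Fermat.Agent.S33 CongruenceSubgroup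
open Fermat.Agent.S55 (Dq Iq)

noncomputable section

namespace Fermat.Agent.S44.Top

variable {q : Nat.Primes} {M1 : ℕ} [NeZero M1] [NeZero (q : ℕ)] [Fact (q : ℕ).Prime]
  {hc : Nat.Coprime (q : ℕ) M1} {S : Set ℕ} {a : ℕ → ℤ}

theorem newAux_smul {N p : ℕ} (k : ℕ) (w : WW N p) : ((k : ZMod p)) • w = k • w :=
  Nat.cast_smul_eq_nsmul (ZMod p) k w

theorem exists_newHyp (hq5 : 5 ≤ (q : ℕ))
    {E : Type*} [AddCommGroup E] [Module (ZMod (q : ℕ)) E] (ρE : GQ →* Module.End (ZMod (q : ℕ)) E)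
    (V : Submodule (ZMod (q : ℕ)) (WW (M1 * (q : ℕ)) (q : ℕ)))
    (hV : ∀ g : GQ, ∀ w ∈ V, actW (M1 * (q : ℕ)) (q : ℕ) g w ∈ V)
    (hVG : ∀ w ∈ V, w ∈ VG q M1 hc S a)
    (hC : Cmp ρE (rhoV V hV) (epsP (q : ℕ)))
    (hF : ∀ s ∈ Iq q, ∃ v : E, v ≠ 0 ∧ ρE s v = v)
    (hNTR : ∀ ζ c0 : Qb, IsPrimitiveRoot ζ (q : ℕ) → c0 ≠ 0 →
      (∀ σ ∈ Iq q, σ ζ = ζ → σ (c0 ^ (q : ℕ)) = c0 ^ (q : ℕ)) →
      (∀ σ ∈ Iq q, σ ζ = ζ → (σ c0 = c0 ↔ ρE σ = 1)) →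
      ∃ y : Qb, y ≠ 0 ∧ (∀ σ ∈ Iq q, σ ζ = ζ → σ y = y) ∧ (wq q).w y = (wq q).w c0) :
    ∃ u t : FN (M1 * (q : ℕ)), NewHyp q M1 hc S a u t := by
  have hq0 : (q : ℕ) ≠ 0 := q.2.ne_zero
  have hq2 : (q : ℕ) ≠ 2 := by omega
  have P3 : ∀ y : V, (∃ τ ∈ Iq q, ∃ v, y = rhoV V hV τ v - v) →
      (∀ s ∈ Iq q, rhoV V hV s y = y) → y = 0 := by
    rintro y ⟨τ, hτ, v, rfl⟩ hfix
    obtain ⟨u, hu, hvu⟩ := hVG v v.2
    apply Subtype.ext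
    have h1 := p3_cl hq2 hc hu.ne hu.pdiv hτ (fun s hs => by
      have := congrArg Subtype.val (hfix s hs)
      rw [← hvu]
      exact this)
    rw [← hvu] at h1
    exact h1
  obtain ⟨x, y, s₁, hx0, hs₁, hε₁, hfx, hact, hy, hker⟩ := hC.exists_pair (Iq q) (exists_moves2 hq5) hF P3
  obtain ⟨u, hu, hxu⟩ := hVG x x.2
  obtain ⟨t, ht, hyt⟩ := hVG y y.2
  have hxact : ∀ σ : GQ, ((rhoV V hV σ x : V) : WW (M1 * (q : ℕ)) (q : ℕ)) =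
      cl (gal (M1 * (q : ℕ)) σ u) (gal_ne_zero σ hu.ne) := by
    intro σ
    rw [coe_rhoV, hxu, actW_cl]
  have hyact : ∀ σ : GQ, ((rhoV V hV σ y : V) : WW (M1 * (q : ℕ)) (q : ℕ)) =
      cl (gal (M1 * (q : ℕ)) σ t) (gal_ne_zero σ ht.ne) := by
    intro σ
    rw [coe_rhoV, hyt, actW_cl]
  have hfixiff : ∀ σ : GQ, PEq (q : ℕ) (gal (M1 * (q : ℕ)) σ u) u ↔ rhoV V hV σ x = x := by
    intro σ
    rw [peq_iff_cl hq0 (gal_ne_zero σ hu.ne) hu.ne, ← hxact, ← hxu]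
    exact ⟨fun h => Subtype.ext h, fun h => congrArg Subtype.val h⟩
  refine ⟨u, t, ⟨hu.pdiv, ht.pdiv, ?_, hu.nm, hu.nmW, ht.nm, ht.nmW, hu.eig, ht.eig, ?_, ?_, ?_, ?_⟩⟩
  · rintro ⟨g, hg⟩
    apply hx0
    apply Subtype.ext
    rw [hxu]
    have : (cl u hu.ne : WW (M1 * (q : ℕ)) (q : ℕ)) = cl (1 : FN (M1 * (q : ℕ))) one_ne_zero :=
      cl_eq_of_eq_mul hq0 hu.ne one_ne_zero (by rw [one_mul]; exact hg)
    rw [this, kuAux_cl_one]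
    rfl
  · intro σ hσ
    obtain ⟨b, hb⟩ := hact σ hσ
    refine ⟨b.val, ?_⟩
    rw [peq_iff_cl hq0 (gal_ne_zero σ hu.ne) (mul_ne_zero hu.ne (pow_ne_zero _ ht.ne)), ← hxact,
      cl_mul hu.ne (pow_ne_zero _ ht.ne), cl_pow ht.ne, ← hxu, ← hyt, ← newAux_smul,
      ZMod.natCast_zmod_val]
    have := congrArg Subtype.val (sub_eq_iff_eq_add'.1 hb)
    exact this
  · intro σ hσ c hcy
    rw [peq_iff_cl hq0 (gal_ne_zero σ ht.ne) (pow_ne_zero _ ht.ne), ← hyact, cl_pow ht.ne, ← hyt,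
      ← newAux_smul, ← epsP_eq_of σ c hcy]
    exact congrArg Subtype.val (hy σ hσ)
  · refine ⟨s₁, hs₁, ?_, (hfixiff s₁).2 hfx⟩
    by_contra hcon
    push Not at hcon
    exact hε₁ ((epsP_eq_one_iff s₁).2 hcon)
  · intro ζ c0 hζ hc0 hpow hiff
    refine hNTR ζ c0 hζ hc0 hpow (fun σ hσ hσζ => ?_)
    have hε : epsP (q : ℕ) σ = 1 := by
      rw [epsP_eq_one_iff]
      intro μ hμ
      obtain ⟨i, -, rfl⟩ := hζ.eq_pow_of_pow_eq_one hμ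
      rw [map_pow, hσζ]
    rw [hiff σ hσ hσζ, hfixiff]
    constructor
    · intro h
      exact (hker σ hσ hε h).2
    · intro h
      rw [hC.V_of_E h, Module.End.one_apply]

end Fermat.Agent.S44.Top
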