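import Fermat.Agent.S44.Top.VPkg
import Fermat.Agent.S44.Top.VAbs
import Fermat.Agent.S55.E.Chi

/-!
# S44/TOP-QUAD : the comparison package `Cmp` for an irreducible `V ⊆ VG`          key `S44/TOP-QUAD`

`epsP_eq_cycloChar` : `epsP p = ExtCitation.cycloChar p`.
`cmp_V` : `Cmp ρ_{E,p} (rhoV V hV) (cycloChar p)` from `cmp_of_ES` (`Top/VAbs.lean` = `Wire.wire` + Eichler–Shimura `VG_ES`).
-/

set_option autoImplicit false
set_option synthInstance.maxHeartbeats 400000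

open ModularCurve AlgebraicCurve Fermat.Agent.S24 Fermat.Agent.S29 Fermat.Agent.S18
  Fermat.Agent.ES Fermat.Agent.ES.Alg Fermat.Agent.S34.Mod ExtCitation Fermat.Agent.S33
open WeierstrassCurve WeierstrassCurve.Affine WeierstrassCurve.Affine.Point

noncomputable section

namespace Fermat.Agent.S44.Top

theorem epsP_eq_cycloChar (p : ℕ) [hp : Fact p.Prime] :
    haveI : NeZero p := ⟨hp.out.ne_zero⟩
    epsP p = cycloChar p := by
  haveI : NeZero p := ⟨hp.out.ne_zero⟩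
  ext g
  rw [epsP_eq_of g _ (fun ζ hζ => Fermat.Agent.S55.E.cycloChar_spec (p := p) g hζ)]
  exact ZMod.natCast_zmod_val _

variable {q : Nat.Primes} {M1 : ℕ} [NeZero M1] [NeZero (q : ℕ)] [hq : Fact (q : ℕ).Prime]
  {hc : Nat.Coprime (q : ℕ) M1} {S : Set ℕ} {a : ℕ → ℤ}

/-- **[S44/TOP-QUAD]** -/
theorem cmp_V (E : WeierstrassCurve ℚ) [E.IsElliptic] {W : WeierstrassCurve ℤ}
    (hW : W.IsIntegralModelOf E) (hq2 : (q : ℕ) ≠ 2)
    (hirr : GaloisRepIsIrreducible (K := AlgebraicClosure ℚ) ℚ E (q : ℕ))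
    (hS : ∀ l : ℕ, l.Prime → ¬ l ∣ M1 * (q : ℕ) → W.IsGoodPrimeFor l → l ∈ S ∧ a l = W.apOfModel l)
    (V : Submodule (ZMod (q : ℕ)) (WW (M1 * (q : ℕ)) (q : ℕ)))
    (hV : ∀ g : GQ, ∀ w ∈ V, actW (M1 * (q : ℕ)) (q : ℕ) g w ∈ V)
    (hVG : ∀ w ∈ V, w ∈ VG q M1 hc S a) (hfinV : Finite V) (hnt : Nontrivial V)
    (irrV : ∀ U : Submodule (ZMod (q : ℕ)) V, (∀ g, ∀ w ∈ U, rhoV V hV g w ∈ U) → U = ⊥ ∨ U = ⊤)
    (hfin : GaloisFactorsThroughFiniteLevel (rhoV V hV)) :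
    Cmp (galoisRepModuleEnd (S := ℚ) (K := AlgebraicClosure ℚ) E.toAffine (q : ℕ)) (rhoV V hV)
      (cycloChar (q : ℕ)) := by
  rw [← epsP_eq_cycloChar]
  refine cmp_of_ES E hW hq2 hirr (rhoV V hV) hfin irrV (M1 * (q : ℕ))
    (mul_ne_zero (NeZero.ne M1) (NeZero.ne (q : ℕ))) ?_
  intro l hl hlB _ hgood A hA σ hσ v
  apply Subtype.ext
  obtain ⟨hlS, hal⟩ := hS l hl hlB hgood
  have h1 := VG_ES (hVG v v.2) l hl hlB hlS A hA σ hσ
  rw [Int.cast_smul_eq_zsmul, Nat.cast_smul_eq_nsmul, ← hal]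
  exact h1

end Fermat.Agent.S44.Top
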