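import Fermat.Agent.S44.Top.Good

/-!
# S44/TOP : an irreducible Galois submodule `V` of `VG`          key `S44/TOP-VPKG`

`modWW` : `WW N p` is a `ZMod p`-module; `rhoW`, `rhoV V hV` : the Galois action as a hom to `Module.End`.
`exists_V` : `VG ≠ 0` contains a minimal nonzero Galois stable submodule (`VG ≤ WK` is finite: take a nonzero stable submodule of minimal cardinality).
-/

set_option autoImplicit false
set_option synthInstance.maxHeartbeats 400000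

open HahnSeries ModularCurve AlgebraicCurve Fermat.Agent.S24 Fermat.Agent.S29 Fermat.Agent.S18
  Fermat.Agent.ES Fermat.Agent.ES.Alg Fermat.Agent.S34.Mod Fermat.Agent.S05 Fermat.Agent.S55.B ExtCitation
  Fermat.Agent.S33 CongruenceSubgroup
open Fermat.Agent.S55 (Dq Iq)

noncomputable section

namespace Fermat.Agent.S44.Top

/-- a minimal nonzero stable submodule of a finite stable submodule -/
theorem vpkg_exists_min {R 𝒲 G : Type*} [Ring R] [AddCommGroup 𝒲] [Module R 𝒲] (st : G → 𝒲 → 𝒲)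
    (T : Submodule R 𝒲) [Finite T] (hT0 : T ≠ ⊥) (hT : ∀ g, ∀ w ∈ T, st g w ∈ T) :
    ∃ V : Submodule R 𝒲, V ≤ T ∧ V ≠ ⊥ ∧ (∀ g, ∀ w ∈ V, st g w ∈ V) ∧
      ∀ U : Submodule R 𝒲, U ≤ V → (∀ g, ∀ w ∈ U, st g w ∈ U) → U = ⊥ ∨ U = V := by
  classical
  let Gd : Submodule R 𝒲 → Prop := fun U => U ≤ T ∧ U ≠ ⊥ ∧ ∀ g, ∀ w ∈ U, st g w ∈ U
  have hex : ∃ n : ℕ, ∃ U, Gd U ∧ Nat.card U = n := ⟨_, T, ⟨le_rfl, hT0, hT⟩, rfl⟩
  obtain ⟨V, ⟨hVle, hVne, hVst⟩, hVcard⟩ := Nat.find_spec hex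
  refine ⟨V, hVle, hVne, hVst, fun U hUV hUst => ?_⟩
  by_cases hU0 : U = ⊥
  · exact Or.inl hU0
  right
  have hfinV : Finite V := Finite.of_injective (Submodule.inclusion hVle)
    (Submodule.inclusion_injective hVle)
  have h1 : Nat.card V ≤ Nat.card U := by
    rw [hVcard]
    exact Nat.find_min' hex ⟨U, ⟨hUV.trans hVle, hU0, hUst⟩, rfl⟩
  have h2 : U.toAddSubgroup = V.toAddSubgroup := by
    have : Finite V.toAddSubgroup := hfinV
    exact AddSubgroup.eq_of_le_of_card_ge (H := U.toAddSubgroup) (K := V.toAddSubgroup) hUV h1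
  exact Submodule.toAddSubgroup_injective h2

/-- irreducibility of the subtype from minimality -/
theorem vpkg_irr_of_min {R 𝒲 G : Type*} [Ring R] [AddCommGroup 𝒲] [Module R 𝒲] (st : G → 𝒲 → 𝒲)
    (V : Submodule R 𝒲)
    (hmin : ∀ U : Submodule R 𝒲, U ≤ V → (∀ g, ∀ w ∈ U, st g w ∈ U) → U = ⊥ ∨ U = V)
    (stV : G → V → V) (hst : ∀ g (w : V), ((stV g w : V) : 𝒲) = st g (w : 𝒲))
    (U : Submodule R V) (hU : ∀ g, ∀ w ∈ U, stV g w ∈ U) : U = ⊥ ∨ U = ⊤ := by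
  have hle : U.map V.subtype ≤ V := by
    rintro _ ⟨x, -, rfl⟩
    exact x.2
  rcases hmin (U.map V.subtype) hle (by
    rintro g _ ⟨x, hx, rfl⟩
    exact ⟨stV g x, hU g x hx, hst g x⟩) with h | h
  · left
    rw [Submodule.eq_bot_iff]
    intro x hx
    have : (x : 𝒲) ∈ U.map V.subtype := ⟨x, hx, rfl⟩
    rw [h, Submodule.mem_bot] at this
    exact Subtype.ext this
  · right
    rw [Submodule.eq_top_iff']
    intro x
    have : (x : 𝒲) ∈ U.map V.subtype := by rw [h]; exact x.2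
    obtain ⟨y, hy, hyx⟩ := this
    have : y = x := Subtype.ext hyx
    rwa [← this]

instance modWW (N p : ℕ) : Module (ZMod p) (WW N p) :=
  AddCommGroup.zmodModule (n := p) (G := WW N p) (fun w => nsmul_WW w)

/-- the Galois action on `WW N p`, linearly -/
def rhoW (N p : ℕ) : GQ →* Module.End (ZMod p) (WW N p) where
  toFun g := AddMonoidHom.toZModLinearMap p (actW N p g : WW N p →+ WW N p)
  map_one' := by
    ext w
    show actW N p 1 w = w
    rw [map_one]; rfl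
  map_mul' g h := by
    ext w
    show actW N p (g * h) w = actW N p g (actW N p h w)
    rw [map_mul]; rfl

@[simp] theorem rhoW_apply (N p : ℕ) (g : GQ) (w : WW N p) : rhoW N p g w = actW N p g w := rfl

/-- the Galois action on a stable submodule -/
def rhoV {N p : ℕ} (V : Submodule (ZMod p) (WW N p)) (hV : ∀ g : GQ, ∀ w ∈ V, actW N p g w ∈ V) :
    GQ →* Module.End (ZMod p) V where
  toFun g := (rhoW N p g).restrict (hV g)
  map_one' := by
    ext w
    show actW N p 1 (w : WW N p) = w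
    rw [map_one]; rfl
  map_mul' g h := by
    ext w
    show actW N p (g * h) (w : WW N p) = actW N p g (actW N p h w)
    rw [map_mul]; rfl

@[simp] theorem coe_rhoV {N p : ℕ} (V : Submodule (ZMod p) (WW N p))
    (hV : ∀ g : GQ, ∀ w ∈ V, actW N p g w ∈ V) (g : GQ) (w : V) :
    ((rhoV V hV g w : V) : WW N p) = actW N p g (w : WW N p) := rfl

variable {q : Nat.Primes} {M1 : ℕ} [NeZero M1] [NeZero (q : ℕ)]
  {hc : Nat.Coprime (q : ℕ) M1} {S : Set ℕ} {a : ℕ → ℤ}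

/-- **[S44/TOP-VPKG]** -/
theorem exists_V {x : WW (M1 * (q : ℕ)) (q : ℕ)} (hx : x ∈ VG q M1 hc S a) (hx0 : x ≠ 0) :
    ∃ (V : Submodule (ZMod (q : ℕ)) (WW (M1 * (q : ℕ)) (q : ℕ)))
      (hV : ∀ g : GQ, ∀ w ∈ V, actW (M1 * (q : ℕ)) (q : ℕ) g w ∈ V),
      (∀ w ∈ V, w ∈ VG q M1 hc S a) ∧ Finite V ∧ Nontrivial V ∧
      (∀ U : Submodule (ZMod (q : ℕ)) V, (∀ g, ∀ w ∈ U, rhoV V hV g w ∈ U) → U = ⊥ ∨ U = ⊤) ∧
      GaloisFactorsThroughFiniteLevel (rhoV V hV) := by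
  have hD : Desc (M1 * (q : ℕ)) (q : ℕ) := Fermat.Agent.S31.desc_holds _ _ q.2.ne_zero
  have hfinK := finite_WK (q := q) (M1 := M1) hD
  obtain ⟨L, hLfin, hL⟩ := exists_level_WK (q := q) (M1 := M1) hD
  let T : Submodule (ZMod (q : ℕ)) (WW (M1 * (q : ℕ)) (q : ℕ)) :=
    AddSubgroup.toZModSubmodule (q : ℕ) (VG q M1 hc S a)
  have hTK : ∀ w ∈ T, w ∈ WK q.2.ne_zero hD := fun w hw => VG_le_WK hD hw
  have hfinT : Finite T :=
    Finite.of_injective (fun w : T => (⟨w.1, hTK w.1 w.2⟩ : WK q.2.ne_zero hD))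
      (fun w w' h => Subtype.ext (congrArg (fun z : WK q.2.ne_zero hD => z.1) h))
  have hT0 : T ≠ ⊥ := by
    intro h
    have : x ∈ T := hx
    rw [h, Submodule.mem_bot] at this
    exact hx0 this
  obtain ⟨V, hVT, hV0, hVst, hmin⟩ := vpkg_exists_min
    (fun (g : GQ) (w : WW (M1 * (q : ℕ)) (q : ℕ)) => actW (M1 * (q : ℕ)) (q : ℕ) g w) T hT0
    (fun g w hw => actW_mem_VG g hw)
  refine ⟨V, hVst, fun w hw => hVT hw, ?_, ?_, ?_, ?_⟩
  · exact Finite.of_injective (Submodule.inclusion hVT) (Submodule.inclusion_injective hVT)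
  · exact (Submodule.nontrivial_iff_ne_bot).mpr hV0
  · intro U hU
    exact vpkg_irr_of_min
      (fun (g : GQ) (w : WW (M1 * (q : ℕ)) (q : ℕ)) => actW (M1 * (q : ℕ)) (q : ℕ) g w) V hmin
      (fun g w => rhoV V hVst g w) (fun g w => rfl) U hU
  · refine ⟨L, hLfin, fun σ hσ => ?_⟩
    ext w
    exact hL σ hσ w (hTK _ (hVT w.2))

end Fermat.Agent.S44.Top
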