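import Fermat.Agent.S44.Top.Card
import Fermat.Agent.S41.Eis.VC
import Fermat.Agent.S42.Glue
import Fermat.Agent.Cheb.Interface
import Fermat.Agent.S29.Abstract

/-!
# S44/TOP-WIRE : Chebotarev wiring of the "eigenvalue one" criterion

`wire`: `E / ℚ`, `W` an integral model, `p` odd, `r : G_ℚ → M` of finite level.  Every `g ∈ G_ℚ` agrees
(under `r`, on `E[p]`, on `μ_p`) with a Frobenius `σ` at a good prime `l ∤ B p`, and
`g` fixes a nonzero point of `E[p]`  ⟺  `p ∣ a_l(W) - (l + 1)`.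
No trace formula, no Weil pairing.
-/

set_option autoImplicit false

open Polynomial WeierstrassCurve WeierstrassCurve.Affine WeierstrassCurve.Affine.Point

namespace Fermat.Agent.S44.Top

open Fermat.Agent.S41.Eis

local notation "Qbar" => AlgebraicClosure ℚ
local notation "GQ" => (AlgebraicClosure ℚ ≃ₐ[ℚ] AlgebraicClosure ℚ)

/-- field form of Chebotarev: every `g` agrees on a number field with a Frobenius outside `S` -/
theorem wire_frobenius_agree (L₀ : IntermediateField ℚ Qbar) [FiniteDimensional ℚ L₀]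
    (S : Finset ℕ) (g : GQ) :
    ∃ (l : ℕ) (A : ValuationSubring Qbar) (σ : GQ), l.Prime ∧ l ∉ S ∧ A.LiesOverPrime l ∧
      A.IsFrobeniusAt σ l ∧ ∀ x ∈ L₀, σ x = g x := by
  have hn1 : Normal ℚ Qbar := (Frob.isGaloisQbar).to_normal
  have hn2 : Normal ℚ (IntermediateField.normalClosure ℚ L₀ Qbar) := normalClosure.normal ℚ L₀ Qbar
  set L := IntermediateField.normalClosure ℚ L₀ Qbar with hL
  have hfl : GaloisFactorsThroughFiniteLevel
      (AlgEquiv.restrictNormalHom (F := ℚ) (K₁ := Qbar) L) := by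
    refine ⟨L, inferInstance, fun σ hσ => ?_⟩
    ext x
    have h1 := AlgEquiv.restrictNormal_commutes σ L x
    have h2 : algebraMap L Qbar ((AlgEquiv.restrictNormalHom L σ) x) = algebraMap L Qbar x := by
      rw [show (AlgEquiv.restrictNormalHom L σ) x = σ.restrictNormal L x from rfl, h1]
      exact hσ x x.2
    exact h2
  obtain ⟨l, A, σ, hl, hlS, hA, hσ, hr⟩ := Cheb.exists_frobenius_eq _ hfl S g
  refine ⟨l, A, σ, hl, hlS, hA, hσ, fun x hx => ?_⟩
  have hxL : x ∈ L := L₀.le_normalClosure hx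
  have h1 := AlgEquiv.restrictNormal_commutes σ L ⟨x, hxL⟩
  have h2 := AlgEquiv.restrictNormal_commutes g L ⟨x, hxL⟩
  have h3 : σ.restrictNormal L = g.restrictNormal L := hr
  rw [h3, h2] at h1
  exact h1.symm

/-- the Galois equivariant isomorphism given by a change of variables over `ℚ` -/
theorem wire_equiv (E E' : WeierstrassCurve ℚ) (C : VariableChange ℚ) (hC : C • E = E') :
    ∃ e : (E'.toAffine⁄Qbar).Point ≃+ (E.toAffine⁄Qbar).Point,
      ∀ (σ : GQ) (P : (E'.toAffine⁄Qbar).Point), e (σ • P) = σ • e P := by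
  subst hC
  obtain ⟨e, he⟩ : ∃ e : ((C • E).toAffine⁄(AlgebraicClosure ℚ)).Point ≃+
        (E.toAffine⁄(AlgebraicClosure ℚ)).Point,
      ∀ (x y : AlgebraicClosure ℚ) (h : ((C • E).toAffine⁄(AlgebraicClosure ℚ)).Nonsingular x y),
        ∃ h' : (E.toAffine⁄(AlgebraicClosure ℚ)).Nonsingular
            ((algebraMap ℚ (AlgebraicClosure ℚ) C.u) ^ 2 * x
              + algebraMap ℚ (AlgebraicClosure ℚ) C.r)
            ((algebraMap ℚ (AlgebraicClosure ℚ) C.u) ^ 3 * y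
              + (algebraMap ℚ (AlgebraicClosure ℚ) C.u) ^ 2
                * algebraMap ℚ (AlgebraicClosure ℚ) C.s * x
              + algebraMap ℚ (AlgebraicClosure ℚ) C.t),
          e (Point.some x y h) = Point.some _ _ h' :=
    exists_vcEquiv' (E.map (algebraMap ℚ (AlgebraicClosure ℚ)))
      ((C • E).map (algebraMap ℚ (AlgebraicClosure ℚ)))
      (C.map (algebraMap ℚ (AlgebraicClosure ℚ)))
      (map_variableChange E C (algebraMap ℚ (AlgebraicClosure ℚ))).symm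
  refine ⟨e, ?_⟩
  intro σ P
  rcases P with _ | ⟨x, y, hxy⟩
  · have h0 : (Point.zero : ((C • E).toAffine⁄(AlgebraicClosure ℚ)).Point) = 0 := rfl
    have z1 : σ • (0 : ((C • E).toAffine⁄(AlgebraicClosure ℚ)).Point) = 0 := rfl
    have z2 : σ • (0 : (E.toAffine⁄(AlgebraicClosure ℚ)).Point) = 0 := rfl
    rw [h0, z1, _root_.map_zero, z2]
  · obtain ⟨h1, e1⟩ := he x y hxy
    obtain ⟨h2, e2⟩ := vcAux_smul_some (C • E) σ x y hxy
    obtain ⟨h3, e3⟩ := he _ _ h2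
    obtain ⟨h4, e4⟩ := vcAux_smul_some E σ _ _ h1
    rw [e2, e3, e1, e4, Point.some.injEq]
    have hc : ∀ q : ℚ, σ (algebraMap ℚ (AlgebraicClosure ℚ) q)
        = algebraMap ℚ (AlgebraicClosure ℚ) q := fun q => σ.commutes q
    constructor
    · simp only [map_add, map_mul, map_pow, hc]
    · simp only [map_add, map_mul, map_pow, hc]

/-- a Frobenius at `l ≠ p` raises the `p`-th roots of unity to the power `l` -/
theorem wire_frob_zeta {p l : ℕ} (hp : p.Prime) (hl : l.Prime) (hlp : l ≠ p)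
    (A : ValuationSubring Qbar) (hA : A.LiesOverPrime l) {σ : GQ} (hσ : A.IsFrobeniusAt σ l)
    {ζ : Qbar} (hζ : IsPrimitiveRoot ζ p) : σ ζ = ζ ^ l := by
  have : NeZero p := ⟨hp.ne_zero⟩
  have hζA : ζ ∈ A := Frob.mem_of_isIntegral A (hζ.isIntegral hp.pos)
  have h1 := S29.AbstractAux.frob_sub_mem A hσ hζA
  obtain ⟨i, -, hi⟩ := hζ.eq_pow_of_pow_eq_one (ξ := σ ζ) (by rw [← map_pow, hζ.pow_eq_one, map_one])
  rw [← hi] at h1 ⊢
  exact S29.AbstractAux.pow_eq_of_sub_mem A hl hp hlp hA hζ _ _ h1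

/-- **[S44/TOP-WIRE]** -/
theorem wire (E : WeierstrassCurve ℚ) [E.IsElliptic] {W : WeierstrassCurve ℤ}
    (hW : W.IsIntegralModelOf E) {p : ℕ} (hp : p.Prime) (hp2 : p ≠ 2)
    {M : Type} [Monoid M] (r : GQ →* M) (hfin : GaloisFactorsThroughFiniteLevel r)
    (B : ℕ) (hB : B ≠ 0) (g : GQ) :
    ∃ (l : ℕ) (A : ValuationSubring Qbar) (σ : GQ), l.Prime ∧ ¬ l ∣ B ∧ l ≠ p ∧
      W.IsGoodPrimeFor l ∧ A.LiesOverPrime l ∧ A.IsFrobeniusAt σ l ∧ r σ = r g ∧ r σ⁻¹ = r g⁻¹ ∧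
      (∀ ζ : Qbar, ζ ^ p = 1 → g ζ = ζ ^ l) ∧
      (∀ P : (E.toAffine⁄Qbar).Point, p • P = 0 → σ • P = g • P) ∧
      ((∃ P : (E.toAffine⁄Qbar).Point, P ≠ 0 ∧ p • P = 0 ∧ g • P = P) ↔
        (p : ℤ) ∣ W.apOfModel l - (l + 1)) := by
  classical
  obtain ⟨C, hC⟩ := hW
  obtain ⟨e, he⟩ := wire_equiv E _ C hC
  obtain ⟨b, rfl⟩ : Odd p := hp.odd_of_ne_two hp2
  have : NeZero (2 * b + 1) := ⟨hp.ne_zero⟩
  have hΔQ : (W.map (Int.castRingHom ℚ)).Δ ≠ 0 := by
    rw [← hC, variableChange_Δ]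
    exact mul_ne_zero (pow_ne_zero _ (Units.ne_zero _)) (E.isUnit_Δ.ne_zero)
  have hΔ : W.Δ ≠ 0 := by
    intro h
    apply hΔQ
    rw [map_Δ, h, _root_.map_zero]
  obtain ⟨L1, hL1, hker1⟩ :=
    S42.torsion_finiteLevel (W.map (Int.castRingHom ℚ)).toAffine (n := 2 * b + 1) ⟨b, rfl⟩ hp.ne_zero
  obtain ⟨L2, hL2, hker2⟩ := hfin
  obtain ⟨ζ0, hζ0⟩ := HasEnoughRootsOfUnity.exists_primitiveRoot Qbar (2 * b + 1)
  have hL3 : FiniteDimensional ℚ (IntermediateField.adjoin ℚ {ζ0}) :=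
    IntermediateField.adjoin.finiteDimensional
      ((AlgebraicClosure.isAlgebraic ℚ).isAlgebraic ζ0).isIntegral
  have hL12 : FiniteDimensional ℚ (L1 ⊔ L2 : IntermediateField ℚ Qbar) :=
    IntermediateField.finiteDimensional_sup L1 L2
  have hL123 : FiniteDimensional ℚ
      (L1 ⊔ L2 ⊔ IntermediateField.adjoin ℚ {ζ0} : IntermediateField ℚ Qbar) :=
    IntermediateField.finiteDimensional_sup _ _
  obtain ⟨l, A, σ, hl, hlS, hA, hσ, hag⟩ := wire_frobenius_agree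
    (L1 ⊔ L2 ⊔ IntermediateField.adjoin ℚ {ζ0}) (B * (2 * b + 1) * W.Δ.natAbs).primeFactors g
  have hne : B * (2 * b + 1) * W.Δ.natAbs ≠ 0 :=
    mul_ne_zero (mul_ne_zero hB hp.ne_zero) (Int.natAbs_ne_zero.mpr hΔ)
  have hnd : ¬ l ∣ B * (2 * b + 1) * W.Δ.natAbs := fun h =>
    hlS (Nat.mem_primeFactors.mpr ⟨hl, h, hne⟩)
  have hlB : ¬ l ∣ B := fun h => hnd ((h.mul_right _).mul_right _)
  have hlp : l ≠ 2 * b + 1 := by
    rintro rfl
    exact hnd ((Dvd.intro_left _ rfl).mul_right _)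
  have hgood : W.IsGoodPrimeFor l := by
    intro h
    exact hnd (Dvd.dvd.mul_left (Int.natCast_dvd.mp h) _)
  -- `τ = σ⁻¹ g` fixes the field
  have hτ : ∀ x ∈ (L1 ⊔ L2 ⊔ IntermediateField.adjoin ℚ {ζ0} : IntermediateField ℚ Qbar),
      (σ⁻¹ * g) x = x := by
    intro x hx
    rw [AlgEquiv.mul_apply, ← hag x hx]
    exact σ.symm_apply_apply x
  have hr1 : r (σ⁻¹ * g) = 1 := hker2 _ fun x hx => hτ x
    ((le_sup_left (a := L1 ⊔ L2)) ((le_sup_right (a := L1)) hx))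
  have hrσ : r σ = r g := by
    have : r g = r σ * r (σ⁻¹ * g) := by rw [← map_mul, mul_inv_cancel_left]
    rw [this, hr1, mul_one]
  have hrσ' : r σ⁻¹ = r g⁻¹ := by
    have h1 : r σ⁻¹ * r g = 1 := by rw [← map_mul]; exact hr1
    have h2 : r g * r g⁻¹ = 1 := by rw [← map_mul, mul_inv_cancel, map_one]
    calc r σ⁻¹ = r σ⁻¹ * (r g * r g⁻¹) := by rw [h2, mul_one]
      _ = r g⁻¹ := by rw [← mul_assoc, h1, one_mul]
  have hρ1 := hker1 (σ⁻¹ * g) fun x hx => hτ x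
    ((le_sup_left (a := L1 ⊔ L2)) ((le_sup_left (a := L1)) hx))
  have hWag : ∀ Q : ((W.map (Int.castRingHom ℚ)).toAffine⁄Qbar).Point, (2 * b + 1) • Q = 0 →
      σ • Q = g • Q := by
    intro Q hQ
    have hQ' : Q ∈ Submodule.torsionBy ℤ ((W.map (Int.castRingHom ℚ)).toAffine⁄Qbar).Point
        ((2 * b + 1 : ℕ) : ℤ) := by
      rw [Submodule.mem_torsionBy_iff, natCast_zsmul]; exact hQ
    have h1 := congrArg (fun f => f ⟨Q, hQ'⟩) hρ1
    have h2 : (σ⁻¹ * g) • Q = Q := congrArg Subtype.val h1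
    rw [mul_smul, inv_smul_eq_iff] at h2
    exact h2.symm
  have hgζ0 : g ζ0 = ζ0 ^ l := by
    rw [← hag ζ0 ((le_sup_right (a := L1 ⊔ L2)) (IntermediateField.mem_adjoin_simple_self ℚ ζ0))]
    exact wire_frob_zeta hp hl hlp A hA hσ hζ0
  refine ⟨l, A, σ, hl, hlB, hlp, hgood, hA, hσ, hrσ, hrσ', ?_, ?_, ?_, ?_⟩
  · intro ζ hζ
    obtain ⟨i, -, rfl⟩ := hζ0.eq_pow_of_pow_eq_one hζ
    rw [map_pow, hgζ0, ← pow_mul, ← pow_mul, mul_comm]
  · intro P hP
    have h1 := hWag (e.symm P) (by rw [← map_nsmul, hP, _root_.map_zero])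
    have h2 := congrArg e h1
    rwa [he, he, e.apply_symm_apply] at h2
  · rintro ⟨P, hP0, hP, hgP⟩
    have hQ : (2 * b + 1) • e.symm P = 0 := by rw [← map_nsmul, hP, _root_.map_zero]
    have hQ' : e.symm P ∈ Submodule.torsionBy ℤ ((W.map (Int.castRingHom ℚ)).toAffine⁄Qbar).Point
        ((2 * b + 1 : ℕ) : ℤ) := by
      rw [Submodule.mem_torsionBy_iff, natCast_zsmul]; exact hQ
    refine dvd_of_fixed_point W hp hl hlp A hA hgood σ hσ ⟨e.symm P, hQ'⟩ ?_ ?_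
    · intro h
      apply hP0
      have := congrArg Subtype.val h
      exact (AddEquiv.map_eq_zero_iff e.symm).mp this
    · apply Subtype.ext
      show σ • e.symm P = e.symm P
      rw [hWag _ hQ]
      apply e.injective
      rw [he, e.apply_symm_apply, hgP]
  · intro hdvd
    obtain ⟨Q, hQ0, hQ⟩ := exists_fixed_point W hp hl hlp A hA hgood hdvd σ hσ
    have hQt : (2 * b + 1) • (Q : ((W.map (Int.castRingHom ℚ)).toAffine⁄Qbar).Point) = 0 := by
      have := Q.2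
      rwa [Submodule.mem_torsionBy_iff, natCast_zsmul] at this
    have hQσ : σ • (Q : ((W.map (Int.castRingHom ℚ)).toAffine⁄Qbar).Point) = Q :=
      congrArg Subtype.val hQ
    refine ⟨e Q, ?_, ?_, ?_⟩
    · intro h
      apply hQ0
      exact Subtype.ext ((AddEquiv.map_eq_zero_iff e).mp h)
    · rw [← map_nsmul, hQt, _root_.map_zero]
    · rw [← he, ← hWag _ hQt, hQσ]

end Fermat.Agent.S44.Top
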